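/-
S48 (Deligne–Serre), PART A: shared definitions and the typed seams between the bricks of part A.
Everything here is level-agnostic.  Owner: helper6 (chief of part A).
PART A proves `Seam.ResidualReps → Seam.DeligneSerre` (see `Fermat/Agent/S48/Seam.lean`).
-/
import Mathlib
import Fermat.Prelude.Def_GaloisRep_Residual
import Fermat.Prelude.Def_Deformations_MatrixRepresentation
import Fermat.Agent.S48.Seam

set_option autoImplicit false

open CongruenceSubgroup Polynomial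
open scoped MatrixGroups

namespace Fermat.Agent.S48.A

/-- The absolute Galois group of `ℚ`, as in the frozen statement. -/
abbrev GQ : Type := AlgebraicClosure ℚ ≃ₐ[ℚ] AlgebraicClosure ℚ

/-- The ring of all algebraic integers of `ℂ`, as in the Prelude. -/
abbrev Zbar : Subalgebra ℤ ℂ := integralClosure ℤ ℂ

/-! ### Coefficient functions -/

/-- The only consequence of `hT` that the analytic bricks use: `a (p n) = a p * a n` for
`p ∤ n N`. -/
def WeakMul (N : ℕ) (a : ℕ → ℂ) : Prop :=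
  ∀ p n : ℕ, p.Prime → ¬ p ∣ N → ¬ p ∣ n → a (p * n) = a p * a n

theorem weakMul_of_heckeRel {N : ℕ} [NeZero N] {ε : DirichletCharacter ℂ N}
    {f : CuspForm (Gamma1 N) 1} (h : Seam.HeckeRel N ε f) :
    WeakMul N (fun n => ModularFormClass.qCoeff f n) := by
  intro p n hp hpN hpn
  have := h p hp hpN n
  simpa [hpn] using this

/-- **A2a (helper15, mean square)**: `∑ ‖a n‖² n^{-s} ≤ C s/(s-1)` for `s > 1`. -/
def MeanSquareBound (a : ℕ → ℂ) : Prop :=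
  ∃ C : ℝ, ∀ s : ℝ, 1 < s → Summable (fun n : ℕ => ‖a n‖ ^ 2 / (n : ℝ) ^ s) ∧
    ∑' n : ℕ, ‖a n‖ ^ 2 / (n : ℝ) ^ s ≤ C * s / (s - 1)

/-- **A2 (Rankin, constant exactly 1, light form)** for one coefficient function. -/
def RankinBound (N : ℕ) (a : ℕ → ℂ) : Prop :=
  ∃ C : ℝ, ∀ s : ℝ, 1 < s → s ≤ 2 → ∀ P : Finset ℕ, (∀ p ∈ P, p.Prime ∧ ¬ p ∣ N) →
    ∑ p ∈ P, Real.log (1 + ‖a p‖ ^ 2 / (p : ℝ) ^ s) ≤ Real.log (1 / (s - 1)) + C

/-! ### Densities of sets of primes (logarithmic, with `O(1)` error, finite-subset forms) -/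

/-- upper logarithmic density `≤ η`, in the strong form with an `O(1)` error, stated on finite
subsets so that no summability is needed. -/
def UpperLogDensityLE (Y : Set ℕ) (η : ℝ) : Prop :=
  ∃ C : ℝ, ∀ s : ℝ, 1 < s → s ≤ 2 → ∀ P : Finset ℕ, (∀ p ∈ P, p.Prime ∧ p ∈ Y) →
    ∑ p ∈ P, 1 / (p : ℝ) ^ s ≤ η * Real.log (1 / (s - 1)) + C

/-- lower logarithmic density `≥ η`, in the strong form with an `O(1)` error. -/
def LowerLogDensityGE (Y : Set ℕ) (η : ℝ) : Prop :=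
  ∃ C : ℝ, ∀ s : ℝ, 1 < s → s ≤ 2 → ∃ P : Finset ℕ, (∀ p ∈ P, p.Prime ∧ p ∈ Y) ∧
    η * Real.log (1 / (s - 1)) - C ≤ ∑ p ∈ P, 1 / (p : ℝ) ^ s

/-- The set of primes at which some Frobenius element is sent into `T` by `ρ`. -/
def frobSet {G : Type} [Group G] (ρ : GQ →* G) (T : Set G) : Set ℕ :=
  {p | p.Prime ∧ ∃ (A : ValuationSubring (AlgebraicClosure ℚ)) (σ : GQ),
    A.LiesOverPrime p ∧ A.IsFrobeniusAt σ p ∧ ρ σ ∈ T}

/-- **A6 (Chebotarev, lower bound in logarithmic density, `ε`-form)** for a finite quotient of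
`G_ℚ`: the record literal (helper29 #5603 (I6) relaxed by helper24 #5608 (1)): finite partial
sums, primes outside a finite set `S`, unramified, every Frobenius in the conjugation-stable
set `T`; constant `|T|/|G| - ε` for every `ε > 0`. -/
def ChebLower : Prop :=
  ∀ (G : Type) [Group G] [Finite G] (ρ : GQ →* G), GaloisFactorsThroughFiniteLevel ρ →
    Function.Surjective ρ → ∀ (S : Finset ℕ) (T : Set G),
    (∀ g h : G, g ∈ T → h * g * h⁻¹ ∈ T) → ∀ ε : ℝ, 0 < ε →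
    ∃ C₀ : ℝ, ∀ s : ℝ, 1 < s → s ≤ 2 → ∃ F : Finset ℕ,
      (∀ p ∈ F, p.Prime ∧ p ∉ S ∧
        ∀ A : ValuationSubring (AlgebraicClosure ℚ), A.LiesOverPrime p →
          (∀ σ ∈ A.inertiaSubgroupIn ℚ, ρ σ = 1) ∧
          ∀ σ : GQ, A.IsFrobeniusAt σ p → ρ σ ∈ T) ∧
      ((T.ncard : ℝ) / (Nat.card G : ℝ) - ε) * Real.log (1 / (s - 1)) - C₀ ≤
        ∑ p ∈ F, 1 / (p : ℝ) ^ s

/-! ### Conjugates -/

/-- **(B-Z)**: the weight-2 cusp forms on `Γ₁(M)` are spanned by forms with integral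
`q`-expansion at `∞` (the `Γ₁`-twin of S23).  Input of brick A3, owed by part B. -/
def BZ (M : ℕ) : Prop :=
  Submodule.span ℂ {h : CuspForm (Gamma1 M) 2 |
    ∀ n : ℕ, ∃ m : ℤ, ModularFormClass.qCoeff h n = (m : ℂ)} = ⊤

/-- **A3 (conjugates)**: every field automorphism of `ℂ` carries `f` to a weight-one cusp form on
`Γ₁(M)` (`M = N` or `M = 4 N`: only densities consume it). -/
def HasConjugates {N : ℕ} (f : CuspForm (Gamma1 N) 1) (M : ℕ) : Prop :=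
  ∀ σ : ℂ ≃+* ℂ, ∃ g : CuspForm (Gamma1 M) 1,
    ∀ n : ℕ, ModularFormClass.qCoeff g n = σ (ModularFormClass.qCoeff f n)

/-! ### Group theory -/

/-- helper27's elementary form of semisimplicity for a subgroup of `GL₂`: a common eigenline has
a complementary common eigenline. -/
def SemisimpleLines {K : Type*} [Field K] (G : Subgroup (GL (Fin 2) K)) : Prop :=
  ∀ v : Fin 2 → K, v ≠ 0 →
    (∀ g ∈ G, ∃ c : K, (g : Matrix (Fin 2) (Fin 2) K).mulVec v = c • v) →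
    ∃ w : Fin 2 → K, (∀ c : K, w ≠ c • v) ∧
      ∀ g ∈ G, ∃ c : K, (g : Matrix (Fin 2) (Fin 2) K).mulVec w = c • w

open scoped Classical in
/-- **A4 (few characteristic polynomials ⇒ bounded order)**, helper27's literal #5602. -/
def FewPolysBound : Prop :=
  ∀ (M : ℕ) (η : ℝ), 0 ≤ η → η < 1 / 2 → ∃ A : ℕ, ∀ (ℓ : ℕ) [Fact ℓ.Prime] (k : Type)
    [Field k] [CharP k ℓ] (G : Subgroup (GL (Fin 2) k)) [Finite G], SemisimpleLines G →
    (∀ g ∈ G, ∃ n : ℕ, (g : Matrix (Fin 2) (Fin 2) k).trace = (n : k)) →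
    ∀ H : Finset (GL (Fin 2) k), (∀ h ∈ H, h ∈ G) →
      (1 - η) * (Nat.card G : ℝ) ≤ H.card →
      (H.image fun h : GL (Fin 2) k => ((h : Matrix (Fin 2) (Fin 2) k).trace,
        (h : Matrix (Fin 2) (Fin 2) k).det)).card ≤ M →
      Nat.card G ≤ A

/-- **U1 (semisimplification + descent to the prime field)**. -/
def Descent : Prop :=
  ∀ (ℓ : ℕ) [Fact ℓ.Prime] (k : Type) [Field k] [CharP k ℓ] (ρ : ResidualGaloisRep k),
    (∀ σ : GQ, ∃ t d : ZMod ℓ, LinearMap.charpoly (ρ.ρ σ) =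
      X ^ 2 - C (ZMod.castHom (dvd_refl ℓ) k t) * X + C (ZMod.castHom (dvd_refl ℓ) k d)) →
    ∃ r : GQ →* GL (Fin 2) (ZMod ℓ), GaloisFactorsThroughFiniteLevel r ∧
      SemisimpleLines r.range ∧ (∀ σ : GQ, ρ.ρ σ = 1 → r σ = 1) ∧
      ∀ σ : GQ, ((r σ : Matrix (Fin 2) (Fin 2) (ZMod ℓ)).charpoly).map
        (ZMod.castHom (dvd_refl ℓ) k) = LinearMap.charpoly (ρ.ρ σ)

/-- **U3 (comparison of two complex representations of finite level)**. -/
def Compare : Prop :=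
  ∀ ρ₁ ρ₂ : GQ →* GL (Fin 2) ℂ, GaloisFactorsThroughFiniteLevel ρ₁ →
    GaloisFactorsThroughFiniteLevel ρ₂ → ∀ S : Finset ℕ,
    (∀ p : ℕ, p.Prime → p ∉ S → ∀ A : ValuationSubring (AlgebraicClosure ℚ), A.LiesOverPrime p →
      ∀ σ : GQ, A.IsFrobeniusAt σ p →
        ((ρ₁ σ : GL (Fin 2) ℂ) : Matrix (Fin 2) (Fin 2) ℂ).trace =
          ((ρ₂ σ : GL (Fin 2) ℂ) : Matrix (Fin 2) (Fin 2) ℂ).trace ∧
        ((ρ₁ σ : GL (Fin 2) ℂ) : Matrix (Fin 2) (Fin 2) ℂ).det =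
          ((ρ₂ σ : GL (Fin 2) ℂ) : Matrix (Fin 2) (Fin 2) ℂ).det) →
    ∀ σ : GQ,
      ((ρ₁ σ : GL (Fin 2) ℂ) : Matrix (Fin 2) (Fin 2) ℂ).trace =
        ((ρ₂ σ : GL (Fin 2) ℂ) : Matrix (Fin 2) (Fin 2) ℂ).trace ∧
      ((ρ₁ σ : GL (Fin 2) ℂ) : Matrix (Fin 2) (Fin 2) ℂ).det =
        ((ρ₂ σ : GL (Fin 2) ℂ) : Matrix (Fin 2) (Fin 2) ℂ).det ∧
      (ρ₁ σ = 1 ↔ ρ₂ σ = 1)

/-- **U8 (irreducibility from the constant 1 in Rankin's bound)**. -/
def Irred : Prop :=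
  ChebLower → ∀ (N : ℕ) (a : ℕ → ℂ) (ρ : GQ →* GL (Fin 2) ℂ),
    GaloisFactorsThroughFiniteLevel ρ → RankinBound N a →
    (∃ S : Finset ℕ, ∀ p : ℕ, p.Prime → p ∉ S →
      ∀ A : ValuationSubring (AlgebraicClosure ℚ), A.LiesOverPrime p →
        ∀ σ : GQ, A.IsFrobeniusAt σ p →
          ((ρ σ : GL (Fin 2) ℂ) : Matrix (Fin 2) (Fin 2) ℂ).trace = a p) →
    (Deformation.matrixRepresentation ρ).IsIrreducible

/-! ### Residue maps and lifting -/

/-- **A5a (L3a), helper13**: for a prime `ℓ`, a residue map `φ` of `Zbar` together with a copy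
`O` of `ℤ_[ℓ]` inside `ℂ` on which `φ` is the reduction modulo `ℓ`. -/
def PadicFrame (ℓ : ℕ) [Fact ℓ.Prime] : Prop :=
  ∃ (k : Type) (_ : Field k) (_ : CharP k ℓ) (φ : Zbar →+* k) (j : ℤ_[ℓ] →+* ℂ),
    Function.Injective j ∧
    ∀ (x : Zbar) (z : ℤ_[ℓ]), j z = (x : ℂ) →
      φ x = ZMod.castHom (dvd_refl ℓ) k (PadicInt.toZMod z)

/-- **A5a (L2), helper13**: a representation of a finite group of order prime to `ℓ` over
`ZMod ℓ` lifts to `ℤ_[ℓ]`. -/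
def PadicLift : Prop :=
  ∀ (ℓ : ℕ) [Fact ℓ.Prime] (G : Type) [Group G] [Finite G], (Nat.card G).Coprime ℓ →
    ∀ ρbar : G →* GL (Fin 2) (ZMod ℓ), ∃ ρ : G →* GL (Fin 2) ℤ_[ℓ],
      ∀ g : G, Matrix.GeneralLinearGroup.map (PadicInt.toZMod (p := ℓ)) (ρ g) = ρbar g

/-- **U6 (split primes)**: infinitely many primes `ℓ` at which every residue map sends the
integers of a given number field into the prime field. -/
def SplitPrimes : Prop :=
  ∀ K : IntermediateField ℚ ℂ, FiniteDimensional ℚ K → ∀ S : Finset ℕ,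
    ∃ ℓ : ℕ, ℓ.Prime ∧ ℓ ∉ S ∧ ∀ (k : Type) [Field k] [CharP k ℓ] (φ : Zbar →+* k) (x : Zbar),
      (x : ℂ) ∈ K → ∃ c : ZMod ℓ, φ x = ZMod.castHom (dvd_refl ℓ) k c

/-- **U4 (number field)**: the eigenvalues `a p`, `p ∤ M`, are algebraic integers of one
number field `K ⊆ ℂ`, and every embedding of `K` is induced by a conjugate form. -/
def NumberFieldOfCoeffs {N : ℕ} (f : CuspForm (Gamma1 N) 1) (M : ℕ) : Prop :=
  ∃ K : IntermediateField ℚ ℂ, FiniteDimensional ℚ K ∧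
    (∀ p : ℕ, p.Prime → ¬ p ∣ M → ModularFormClass.qCoeff f p ∈ K) ∧
    ∀ τ : K →+* ℂ, ∃ g : CuspForm (Gamma1 M) 1, ModularFormClass.qCoeff g 1 = 1 ∧
      WeakMul M (fun n => ModularFormClass.qCoeff g n) ∧
      ∀ p : ℕ, p.Prime → ¬ p ∣ M → ∀ x : K, (x : ℂ) = ModularFormClass.qCoeff f p →
        ModularFormClass.qCoeff g p = τ x

end Fermat.Agent.S48.A
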