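/-
PROJECT D (S48, Deligne–Serre), part A, brick A4 (helper27; the tame half is helper2's
`Fermat/Agent/S48/A/TameP1.lean`): **few characteristic polynomials on a large subset force a
bounded order** (Deligne–Serre, Prop. 7.2): the WILD case (`ℓ` divides `|G|`) and the final
statement from the tame half.

`G` is a finite subgroup of `GL₂(k)`, `k` ANY field of characteristic `ℓ`.

* `mul_mul_self_of_det_eq_zero` : `N X N = tr (N X) • N` for `2 × 2` matrices with `det N = 0`;
* `NilData N v` : a nonzero square-zero matrix with its axis; `NilData.trace_mul_eq_zero_iff` :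
  `tr (N g) = 0` iff `g` preserves the axis;
* `exists_unipotent` : Cauchy gives a transvection `u = 1 + N` in `G`;
* `wild_prime_le` : `ℓ ∣ |G|`, `G` semisimple, `H ⊆ G` with `(1 - η) |G| ≤ |H|`
  ⟹  `(1 / 2 - η) ℓ ≤` number of pairs (trace, det) on `H`;
* `wild_card_le` : `ℓ ∣ |G|`, `G` semisimple, every trace of `G` in the prime field ⟹ `|G| ≤ ℓ ^ 4`;
* `TameBound` (the literal of helper2's `tame_bound`), `exists_card_bound_of_tame` : the final
  statement, `A = max ⌈120 M / (1 - 2 η)⌉ ⌊2 M / (1 - 2 η)⌋ ^ 4`.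

Route of the wild case (helper2, board #5594): a transvection `u = 1 + N` with axis `⟨v⟩`; the
stabiliser `B` of the axis is a proper subgroup (semisimplicity), so `|B| ≤ |G| / 2`; on a coset
`{u ^ i h}` off `B` the traces `tr h + i tr (N h)` are pairwise distinct, so `ℓ |H \ B| ≤ M |G \ B|`;
finally `1, u, u', u u'` (`u'` a conjugate transvection with another axis) separate the elements of
`G` by traces with values in the prime field.
-/
import Mathlib

set_option autoImplicit false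

namespace Fermat.Agent.S48.A.FewPolys

open Matrix

/-! ### `2 × 2` identities -/

section TwoByTwo

variable {k : Type*} [Field k]

/-- For a `2 × 2` matrix `N` with `det N = 0`: `N X N = tr (N X) • N`. -/
theorem mul_mul_self_of_det_eq_zero (N X : Matrix (Fin 2) (Fin 2) k) (hN : N.det = 0) :
    N * X * N = (N * X).trace • N := by
  rw [Matrix.det_fin_two] at hN
  ext i j
  fin_cases i <;> fin_cases j <;>
    simp only [Matrix.mul_apply, Fin.sum_univ_two, Matrix.trace_fin_two, Matrix.smul_apply,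
      smul_eq_mul, Fin.zero_eta, Fin.mk_one, Fin.isValue]
  · linear_combination (-(X 1 1)) * hN
  · linear_combination (X 0 1) * hN
  · linear_combination (X 1 0) * hN
  · linear_combination (-(X 0 0)) * hN

/-- Cayley–Hamilton for `2 × 2` matrices. -/
theorem sq_eq_trace_smul_sub_det (N : Matrix (Fin 2) (Fin 2) k) :
    N * N = N.trace • N - N.det • (1 : Matrix (Fin 2) (Fin 2) k) := by
  ext i j
  fin_cases i <;> fin_cases j <;>
    simp [Matrix.mul_apply, Fin.sum_univ_two, Matrix.trace_fin_two, Matrix.det_fin_two] <;> ring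

/-- A nilpotent `2 × 2` matrix has square zero. -/
theorem sq_eq_zero_of_pow_eq_zero (N : Matrix (Fin 2) (Fin 2) k) {n : ℕ} (hn : N ^ n = 0) :
    N * N = 0 := by
  have hdet : N.det = 0 := by
    have h1 : (N ^ n).det = 0 := by rw [hn, Matrix.det_zero]
    rw [Matrix.det_pow] at h1
    exact eq_zero_of_pow_eq_zero h1
  have hsq : N * N = N.trace • N := by
    rw [sq_eq_trace_smul_sub_det, hdet, zero_smul, sub_zero]
  have hpow : ∀ m : ℕ, N ^ (m + 1) = N.trace ^ m • N := by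
    intro m
    induction m with
    | zero => simp
    | succ m ih =>
      rw [pow_succ, ih, Matrix.smul_mul, hsq, smul_smul, pow_succ]
  by_cases ht : N.trace = 0
  · rw [hsq, ht, zero_smul]
  · exfalso
    have hN0 : N ≠ 0 := by
      rintro rfl
      simp at ht
    cases n with
    | zero =>
      rw [pow_zero] at hn
      exact one_ne_zero hn
    | succ m =>
      rw [hpow m] at hn
      rcases smul_eq_zero.mp hn with h | h
      · exact ht (eq_zero_of_pow_eq_zero h)
      · exact hN0 h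


/-- In `k²`: a nonzero row `r` with `r ⬝ v = 0`, `v ≠ 0`, has kernel the line through `v`. -/
theorem exists_smul_of_dotProduct_eq_zero {r v x : Fin 2 → k} (hr : r ≠ 0) (hv : v ≠ 0)
    (hrv : r ⬝ᵥ v = 0) (hrx : r ⬝ᵥ x = 0) : ∃ c : k, x = c • v := by
  simp only [dotProduct, Fin.sum_univ_two] at hrv hrx
  by_cases h0 : r 0 = 0
  · have h1 : r 1 ≠ 0 := by
      intro h1
      apply hr
      ext i
      fin_cases i <;> simp [h0, h1]
    rw [h0, zero_mul, zero_add] at hrv hrx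
    have hv1 : v 1 = 0 := (mul_eq_zero.mp hrv).resolve_left h1
    have hx1 : x 1 = 0 := (mul_eq_zero.mp hrx).resolve_left h1
    have hv0 : v 0 ≠ 0 := by
      intro hv0
      apply hv
      ext i
      fin_cases i <;> simp [hv0, hv1]
    refine ⟨x 0 / v 0, ?_⟩
    ext i
    fin_cases i
    · simp [div_mul_cancel₀ _ hv0]
    · simp [hv1, hx1]
  · have hv1 : v 1 ≠ 0 := by
      intro hv1
      rw [hv1, mul_zero, add_zero] at hrv
      have hv0 : v 0 = 0 := (mul_eq_zero.mp hrv).resolve_left h0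
      apply hv
      ext i
      fin_cases i <;> simp [hv0, hv1]
    refine ⟨x 1 / v 1, ?_⟩
    ext i
    fin_cases i
    · simp only [Fin.zero_eta, Fin.isValue, Pi.smul_apply, smul_eq_mul]
      field_simp
      have e1 : r 0 * (x 0 * v 1) = r 0 * (x 1 * v 0) := by
        linear_combination (v 1) * hrx - (x 1) * hrv
      exact mul_left_cancel₀ h0 e1
    · simp [div_mul_cancel₀ _ hv1]

/-- The kernel of a nonzero `2 × 2` matrix killing `v ≠ 0` is the line through `v`. -/
theorem exists_smul_of_mulVec_eq_zero {N : Matrix (Fin 2) (Fin 2) k} (hN : N ≠ 0)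
    {v x : Fin 2 → k} (hv : v ≠ 0) (hNv : N *ᵥ v = 0) (hNx : N *ᵥ x = 0) :
    ∃ c : k, x = c • v := by
  obtain ⟨i, hi⟩ : ∃ i, N i ≠ 0 := by
    by_contra hcon
    push Not at hcon
    apply hN
    ext i j
    rw [hcon i]
    rfl
  exact exists_smul_of_dotProduct_eq_zero hi hv (congrFun hNv i) (congrFun hNx i)

/-- Two non-proportional vectors of `k²` are only killed by the zero matrix. -/
theorem eq_zero_of_mulVec_eq_zero {D : Matrix (Fin 2) (Fin 2) k} {v w : Fin 2 → k}
    (hv : v ≠ 0) (hw : ∀ c : k, w ≠ c • v) (hDv : D *ᵥ v = 0) (hDw : D *ᵥ w = 0) : D = 0 := by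
  by_contra hD
  obtain ⟨c, hc⟩ := exists_smul_of_mulVec_eq_zero hD hv hDv hDw
  exact hw c hc

end TwoByTwo

/-! ### A nonzero square-zero matrix and its axis -/

section Nil

variable {k : Type*} [Field k]

/-- A nonzero square-zero `2 × 2` matrix `N` together with a nonzero vector `v` of its kernel
(the *axis* of the transvection `1 + N`). -/
structure NilData (N : Matrix (Fin 2) (Fin 2) k) (v : Fin 2 → k) : Prop where
  ne_zero : N ≠ 0
  sq : N * N = 0
  v_ne : v ≠ 0
  kill : N *ᵥ v = 0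

namespace NilData

variable {N : Matrix (Fin 2) (Fin 2) k} {v : Fin 2 → k}

theorem det_eq_zero (h : NilData N v) : N.det = 0 := by
  have h1 := congrArg Matrix.det h.sq
  rw [Matrix.det_mul, Matrix.det_zero] at h1
  exact mul_self_eq_zero.mp h1

theorem trace_eq_zero (h : NilData N v) : N.trace = 0 := by
  have h1 := sq_eq_trace_smul_sub_det N
  rw [h.sq, h.det_eq_zero, zero_smul, sub_zero] at h1
  exact (smul_eq_zero.mp h1.symm).resolve_right h.ne_zero

/-- the image of `N` lies on the axis -/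
theorem mulVec_eq_smul (h : NilData N v) (x : Fin 2 → k) : ∃ d : k, N *ᵥ x = d • v :=
  exists_smul_of_mulVec_eq_zero h.ne_zero h.v_ne h.kill
    (by rw [Matrix.mulVec_mulVec, h.sq, Matrix.zero_mulVec])

theorem exists_mulVec_ne_zero (h : NilData N v) : ∃ x : Fin 2 → k, N *ᵥ x ≠ 0 := by
  by_contra hcon
  push Not at hcon
  apply h.ne_zero
  ext i j
  have h1 := congrFun (hcon (Pi.single j 1)) i
  simpa using h1

/-- a vector off the axis is not killed -/
theorem mulVec_ne_zero (h : NilData N v) {w : Fin 2 → k} (hw : ∀ c : k, w ≠ c • v) :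
    N *ᵥ w ≠ 0 := by
  intro h0
  obtain ⟨c, hc⟩ := exists_smul_of_mulVec_eq_zero h.ne_zero h.v_ne h.kill h0
  exact hw c hc

/-- **The bridge**: `tr (N g) = 0` iff `g` preserves the axis. -/
theorem trace_mul_eq_zero_iff (h : NilData N v) (g : Matrix (Fin 2) (Fin 2) k) :
    (N * g).trace = 0 ↔ ∃ c : k, g *ᵥ v = c • v := by
  obtain ⟨x, hx⟩ := h.exists_mulVec_ne_zero
  obtain ⟨d, hd⟩ := h.mulVec_eq_smul x
  have hd0 : d ≠ 0 := by
    rintro rfl
    rw [zero_smul] at hd
    exact hx hd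
  have key := mul_mul_self_of_det_eq_zero N g h.det_eq_zero
  have key2 : d • (N *ᵥ (g *ᵥ v)) = ((N * g).trace * d) • v := by
    have h1 : (N * g * N) *ᵥ x = ((N * g).trace • N) *ᵥ x := by rw [key]
    rw [← Matrix.mulVec_mulVec, ← Matrix.mulVec_mulVec, hd, Matrix.mulVec_smul,
      Matrix.mulVec_smul, Matrix.smul_mulVec, hd, smul_smul] at h1
    exact h1
  constructor
  · intro ht
    rw [ht, zero_mul, zero_smul] at key2
    have h1 : N *ᵥ (g *ᵥ v) = 0 := (smul_eq_zero.mp key2).resolve_left hd0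
    exact exists_smul_of_mulVec_eq_zero h.ne_zero h.v_ne h.kill h1
  · rintro ⟨c, hc⟩
    rw [hc, Matrix.mulVec_smul, h.kill, smul_zero, smul_zero] at key2
    have h1 := (smul_eq_zero.mp key2.symm).resolve_right h.v_ne
    exact (mul_eq_zero.mp h1).resolve_right hd0

/-- powers of the transvection `1 + N` -/
theorem one_add_pow (h : NilData N v) (n : ℕ) :
    (1 + N) ^ n = 1 + (n : k) • N := by
  induction n with
  | zero => simp
  | succ n ih =>
    rw [pow_succ, ih, Matrix.mul_add, Matrix.mul_one, Matrix.add_mul, Matrix.one_mul,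
      Matrix.smul_mul, h.sq, smul_zero, add_zero, Nat.cast_succ, add_smul, one_smul, add_assoc]

/-- traces along the coset `(1 + N) ^ n * g` -/
theorem trace_one_add_pow_mul (h : NilData N v) (n : ℕ) (g : Matrix (Fin 2) (Fin 2) k) :
    ((1 + N) ^ n * g).trace = g.trace + (n : k) * (N * g).trace := by
  rw [h.one_add_pow, Matrix.add_mul, Matrix.one_mul, Matrix.trace_add, Matrix.smul_mul,
    Matrix.trace_smul, smul_eq_mul]

theorem det_one_add (h : NilData N v) : (1 + N).det = 1 := by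
  have h1 := h.det_eq_zero
  have h2 := h.trace_eq_zero
  rw [Matrix.det_fin_two] at h1 ⊢
  rw [Matrix.trace_fin_two] at h2
  simp only [Matrix.add_apply, Matrix.one_apply_eq, Matrix.one_apply_ne, ne_eq, zero_ne_one,
    one_ne_zero, not_false_eq_true, zero_add, Fin.isValue]
  linear_combination h1 + h2

end NilData

end Nil

/-! ### The wild case: group theory -/

section Wild

variable {k : Type*} [Field k]

/-- The stabiliser in `G` of the line through `v`. -/
def lineStab (G : Subgroup (GL (Fin 2) k)) (v : Fin 2 → k) (hv : v ≠ 0) :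
    Subgroup (GL (Fin 2) k) where
  carrier := {g | g ∈ G ∧ ∃ c : k, (g : Matrix (Fin 2) (Fin 2) k) *ᵥ v = c • v}
  one_mem' := ⟨G.one_mem, 1, by simp⟩
  mul_mem' := by
    rintro a b ⟨ha, ca, hca⟩ ⟨hb, cb, hcb⟩
    refine ⟨G.mul_mem ha hb, ca * cb, ?_⟩
    rw [Matrix.GeneralLinearGroup.coe_mul, ← Matrix.mulVec_mulVec, hcb, Matrix.mulVec_smul, hca,
      smul_smul, mul_comm]
  inv_mem' := by
    rintro a ⟨ha, c, hc⟩
    refine ⟨G.inv_mem ha, c⁻¹, ?_⟩
    have hc0 : c ≠ 0 := by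
      rintro rfl
      rw [zero_smul] at hc
      apply hv
      have h1 : ((a⁻¹ : GL (Fin 2) k) : Matrix (Fin 2) (Fin 2) k) *ᵥ
          ((a : Matrix (Fin 2) (Fin 2) k) *ᵥ v) = v := by
        rw [Matrix.mulVec_mulVec, ← Matrix.GeneralLinearGroup.coe_mul, inv_mul_cancel,
          Matrix.GeneralLinearGroup.coe_one, Matrix.one_mulVec]
      rw [hc, Matrix.mulVec_zero] at h1
      exact h1.symm
    have h1 : ((a⁻¹ : GL (Fin 2) k) : Matrix (Fin 2) (Fin 2) k) *ᵥ
        ((a : Matrix (Fin 2) (Fin 2) k) *ᵥ v) = v := by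
      rw [Matrix.mulVec_mulVec, ← Matrix.GeneralLinearGroup.coe_mul, inv_mul_cancel,
        Matrix.GeneralLinearGroup.coe_one, Matrix.one_mulVec]
    rw [hc, Matrix.mulVec_smul] at h1
    calc ((a⁻¹ : GL (Fin 2) k) : Matrix (Fin 2) (Fin 2) k) *ᵥ v
        = c⁻¹ • (c • (((a⁻¹ : GL (Fin 2) k) : Matrix (Fin 2) (Fin 2) k) *ᵥ v)) := by
          rw [smul_smul, inv_mul_cancel₀ hc0, one_smul]
      _ = c⁻¹ • v := by rw [h1]

theorem mem_lineStab {G : Subgroup (GL (Fin 2) k)} {v : Fin 2 → k} {hv : v ≠ 0}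
    {g : GL (Fin 2) k} :
    g ∈ lineStab G v hv ↔ g ∈ G ∧ ∃ c : k, (g : Matrix (Fin 2) (Fin 2) k) *ᵥ v = c • v :=
  Iff.rfl

theorem lineStab_le (G : Subgroup (GL (Fin 2) k)) (v : Fin 2 → k) (hv : v ≠ 0) :
    lineStab G v hv ≤ G := fun _ hg => hg.1

/-- **Cauchy**: if `ℓ = char k` divides `|G|`, then `G` contains a transvection `1 + N`. -/
theorem exists_unipotent {ℓ : ℕ} [Fact ℓ.Prime] [CharP k ℓ] (G : Subgroup (GL (Fin 2) k))
    [Finite G] (hℓ : ℓ ∣ Nat.card G) :
    ∃ u ∈ G, ∃ (N : Matrix (Fin 2) (Fin 2) k) (v : Fin 2 → k), NilData N v ∧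
      (u : Matrix (Fin 2) (Fin 2) k) = 1 + N := by
  obtain ⟨x, hx⟩ := exists_prime_orderOf_dvd_card' ℓ hℓ
  have hℓp : ℓ.Prime := Fact.out
  set U : Matrix (Fin 2) (Fin 2) k := ((x : GL (Fin 2) k) : Matrix (Fin 2) (Fin 2) k) with hU
  have hUpow : U ^ ℓ = 1 := by
    have h1 : x ^ ℓ = 1 := by rw [← hx]; exact pow_orderOf_eq_one x
    have h2 : ((x ^ ℓ : G) : GL (Fin 2) k) = 1 := by rw [h1]; rfl
    rw [Subgroup.coe_pow] at h2
    have h3 := congrArg (fun g : GL (Fin 2) k => (g : Matrix (Fin 2) (Fin 2) k)) h2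
    simpa [hU] using h3
  have hU1 : U ≠ 1 := by
    intro h1
    have h2 : (x : GL (Fin 2) k) = 1 := Units.ext h1
    have h3 : x = 1 := Subtype.ext h2
    rw [h3, orderOf_one] at hx
    exact hℓp.one_lt.ne hx
  set N : Matrix (Fin 2) (Fin 2) k := U - 1 with hN
  have hNpow : N ^ ℓ = 0 := by
    rw [hN, sub_pow_char_of_commute (p := ℓ) (Commute.one_right U), hUpow, one_pow, sub_self]
  have hsq : N * N = 0 := sq_eq_zero_of_pow_eq_zero N hNpow
  have hN0 : N ≠ 0 := fun h => hU1 (sub_eq_zero.mp h)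
  have hdet : N.det = 0 := by
    have h1 := congrArg Matrix.det hsq
    rw [Matrix.det_mul, Matrix.det_zero] at h1
    exact mul_self_eq_zero.mp h1
  obtain ⟨v, hv, hNv⟩ := Matrix.exists_mulVec_eq_zero_iff.mpr hdet
  exact ⟨x, x.2, N, v, ⟨hN0, hsq, hv, hNv⟩, by rw [hN]; abel⟩

/-- the transvection lies in the stabiliser of its axis -/
theorem mem_lineStab_of_eq_one_add {G : Subgroup (GL (Fin 2) k)} {u : GL (Fin 2) k} (hu : u ∈ G)
    {N : Matrix (Fin 2) (Fin 2) k} {v : Fin 2 → k} (h : NilData N v)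
    (huN : (u : Matrix (Fin 2) (Fin 2) k) = 1 + N) : u ∈ lineStab G v h.v_ne :=
  ⟨hu, 1, by rw [huN, Matrix.add_mulVec, Matrix.one_mulVec, h.kill, add_zero, one_smul]⟩

/-- a semisimple group containing a transvection does not stabilise its axis -/
theorem exists_not_mem_lineStab {G : Subgroup (GL (Fin 2) k)}
    (hss : ∀ v : Fin 2 → k, v ≠ 0 →
      (∀ g ∈ G, ∃ c : k, (g : Matrix (Fin 2) (Fin 2) k) *ᵥ v = c • v) →
      ∃ w : Fin 2 → k, (∀ c : k, w ≠ c • v) ∧
        ∀ g ∈ G, ∃ c : k, (g : Matrix (Fin 2) (Fin 2) k) *ᵥ w = c • w)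
    {u : GL (Fin 2) k} (hu : u ∈ G) {N : Matrix (Fin 2) (Fin 2) k} {v : Fin 2 → k}
    (h : NilData N v) (huN : (u : Matrix (Fin 2) (Fin 2) k) = 1 + N) :
    ∃ g₀ ∈ G, g₀ ∉ lineStab G v h.v_ne := by
  by_contra hcon
  push Not at hcon
  have hall : ∀ g ∈ G, ∃ c : k, (g : Matrix (Fin 2) (Fin 2) k) *ᵥ v = c • v :=
    fun g hg => (hcon g hg).2
  obtain ⟨w, hw, hwG⟩ := hss v h.v_ne hall
  obtain ⟨c, hc⟩ := hwG u hu
  rw [huN, Matrix.add_mulVec, Matrix.one_mulVec] at hc
  have h1 : N *ᵥ w = (c - 1) • w := by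
    rw [sub_smul, one_smul, ← hc]
    abel
  have h2 : N *ᵥ (N *ᵥ w) = 0 := by rw [Matrix.mulVec_mulVec, h.sq, Matrix.zero_mulVec]
  rw [h1, Matrix.mulVec_smul, h1, smul_smul] at h2
  have hw0 : w ≠ 0 := by
    intro h0
    exact hw 0 (by rw [h0, zero_smul])
  have h3 : (c - 1) * (c - 1) = 0 := (smul_eq_zero.mp h2).resolve_right hw0
  have h4 : c - 1 = 0 := mul_self_eq_zero.mp h3
  rw [h4, zero_smul] at h1
  exact h.mulVec_ne_zero hw h1

/-- **Wild case, the prime is bounded**: if `ℓ = char k` divides `|G|`, `G` is semisimple and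
`H ⊆ G` has `(1 - η) |G| ≤ |H|`, then `(1 / 2 - η) ℓ` is at most the number of pairs
(trace, det) on `H`. -/
theorem wild_prime_le [DecidableEq k] {ℓ : ℕ} [Fact ℓ.Prime] [CharP k ℓ]
    (G : Subgroup (GL (Fin 2) k)) [Finite G] (hℓ : ℓ ∣ Nat.card G)
    (hss : ∀ v : Fin 2 → k, v ≠ 0 →
      (∀ g ∈ G, ∃ c : k, (g : Matrix (Fin 2) (Fin 2) k) *ᵥ v = c • v) →
      ∃ w : Fin 2 → k, (∀ c : k, w ≠ c • v) ∧
        ∀ g ∈ G, ∃ c : k, (g : Matrix (Fin 2) (Fin 2) k) *ᵥ w = c • w)
    {η : ℝ} (H : Finset (GL (Fin 2) k)) (hHG : ∀ h ∈ H, h ∈ G)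
    (hH : (1 - η) * (Nat.card G : ℝ) ≤ H.card) :
    (1 / 2 - η) * (ℓ : ℝ) ≤ ((H.image fun h : GL (Fin 2) k =>
      ((h : Matrix (Fin 2) (Fin 2) k).trace, (h : Matrix (Fin 2) (Fin 2) k).det)).card : ℝ) := by
  classical
  obtain ⟨u, huG, N, v, hNil, huN⟩ := exists_unipotent G hℓ
  obtain ⟨g₀, hg₀G, hg₀B⟩ := exists_not_mem_lineStab hss huG hNil huN
  have huB := mem_lineStab_of_eq_one_add huG hNil huN
  set B : Subgroup (GL (Fin 2) k) := lineStab G v hNil.v_ne with hB
  set pr : GL (Fin 2) k → k × k := fun h =>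
    ((h : Matrix (Fin 2) (Fin 2) k).trace, (h : Matrix (Fin 2) (Fin 2) k).det) with hpr
  -- the finite sets
  have hGfin : (G : Set (GL (Fin 2) k)).Finite := Set.toFinite _
  set Gf : Finset (GL (Fin 2) k) := hGfin.toFinset with hGf
  have hmemGf : ∀ g, g ∈ Gf ↔ g ∈ G := fun g => by rw [hGf, Set.Finite.mem_toFinset]; rfl
  have hGfcard : Gf.card = Nat.card G := by
    rw [hGf, ← Set.ncard_eq_toFinset_card _ hGfin, ← Nat.card_coe_set_eq]
    rfl
  set Bf : Finset (GL (Fin 2) k) := Gf.filter (· ∈ B) with hBf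
  set Bc : Finset (GL (Fin 2) k) := Gf.filter (· ∉ B) with hBc
  have hsplit : Bf.card + Bc.card = Gf.card := Finset.card_filter_add_card_filter_not _
  have hBle : Bf.card ≤ Bc.card := by
    apply Finset.card_le_card_of_injOn (fun b => g₀ * b)
    · intro b hb
      rw [hBf, Finset.coe_filter] at hb
      rw [hBc, Finset.coe_filter]
      refine ⟨(hmemGf _).mpr (G.mul_mem hg₀G ((hmemGf _).mp hb.1)), fun hcon => hg₀B ?_⟩
      have h1 := B.mul_mem hcon (B.inv_mem hb.2)
      rwa [mul_inv_cancel_right] at h1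
    · intro a _ b _ hab
      exact mul_left_cancel hab
  set P : Finset (k × k) := H.image pr with hP
  set Hb : Finset (GL (Fin 2) k) := H.filter (· ∈ B) with hHb
  set Hc : Finset (GL (Fin 2) k) := H.filter (· ∉ B) with hHc
  have hHsplit : Hb.card + Hc.card = H.card := Finset.card_filter_add_card_filter_not _
  have hHble : Hb.card ≤ Bf.card := by
    apply Finset.card_le_card
    intro h hh
    rw [hHb, Finset.mem_filter] at hh
    rw [hBf, Finset.mem_filter]
    exact ⟨(hmemGf _).mpr (hHG h hh.1), hh.2⟩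
  -- the injection
  have hinj : ℓ * Hc.card ≤ Bc.card * P.card := by
    rw [← Finset.card_range ℓ, ← Finset.card_product, ← Finset.card_product]
    apply Finset.card_le_card_of_injOn (fun ih => ((u⁻¹) ^ ih.1 * ih.2, pr ih.2))
    · rintro ⟨i, h⟩ hih
      rw [Finset.coe_product, Set.mem_prod] at hih
      obtain ⟨-, hh⟩ := hih
      rw [Finset.mem_coe, hHc, Finset.mem_filter] at hh
      rw [Finset.coe_product, Set.mem_prod]
      dsimp only at hh ⊢
      refine ⟨?_, ?_⟩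
      · rw [Finset.mem_coe, hBc, Finset.mem_filter]
        refine ⟨(hmemGf _).mpr (G.mul_mem (G.pow_mem (G.inv_mem huG) i) (hHG h hh.1)),
          fun hcon => hh.2 ?_⟩
        have h1 := B.mul_mem (B.pow_mem huB i) hcon
        rwa [inv_pow, mul_inv_cancel_left] at h1
      · rw [Finset.mem_coe, hP]
        exact Finset.mem_image_of_mem _ hh.1
    · rintro ⟨i, h⟩ hih ⟨i', h'⟩ hih' heq
      rw [Finset.coe_product, Set.mem_prod] at hih hih'
      obtain ⟨hi, hh⟩ := hih
      obtain ⟨hi', hh'⟩ := hih'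
      rw [Finset.mem_coe, Finset.mem_range] at hi hi'
      rw [Finset.mem_coe, hHc, Finset.mem_filter] at hh hh'
      dsimp only at hh hh' heq
      rw [Prod.mk.injEq] at heq
      obtain ⟨hx, hprh⟩ := heq
      set x : GL (Fin 2) k := (u⁻¹) ^ i * h with hxdef
      have hxB : x ∉ B := by
        intro hcon
        apply hh.2
        have h1 := B.mul_mem (B.pow_mem huB i) hcon
        rwa [hxdef, inv_pow, mul_inv_cancel_left] at h1
      have hxG : x ∈ G := G.mul_mem (G.pow_mem (G.inv_mem huG) i) (hHG h hh.1)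
      have hh1 : h = u ^ i * x := by rw [hxdef, inv_pow, mul_inv_cancel_left]
      have hh2 : h' = u ^ i' * x := by rw [hx, inv_pow, mul_inv_cancel_left]
      have htr : ∀ j : ℕ, ((u ^ j * x : GL (Fin 2) k) : Matrix (Fin 2) (Fin 2) k).trace =
          (x : Matrix (Fin 2) (Fin 2) k).trace +
            (j : k) * (N * (x : Matrix (Fin 2) (Fin 2) k)).trace := by
        intro j
        rw [Matrix.GeneralLinearGroup.coe_mul, Units.val_pow_eq_pow_val, huN,
          hNil.trace_one_add_pow_mul]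
      have hτ : (N * (x : Matrix (Fin 2) (Fin 2) k)).trace ≠ 0 := by
        intro h0
        exact hxB ⟨hxG, (hNil.trace_mul_eq_zero_iff _).mp h0⟩
      have htreq : (h : Matrix (Fin 2) (Fin 2) k).trace = (h' : Matrix (Fin 2) (Fin 2) k).trace :=
        congrArg Prod.fst hprh
      rw [hh1, hh2, htr, htr] at htreq
      have hcast : (i : k) = (i' : k) := by
        have h1 : ((i : k) - (i' : k)) * (N * (x : Matrix (Fin 2) (Fin 2) k)).trace = 0 := by
          linear_combination htreq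
        exact sub_eq_zero.mp ((mul_eq_zero.mp h1).resolve_right hτ)
      have hii' : i = i' := by
        have h1 := (CharP.natCast_eq_natCast k ℓ).mp hcast
        exact Nat.ModEq.eq_of_lt_of_lt h1 hi hi'
      refine Prod.ext hii' ?_
      show h = h'
      rw [hh1, hh2, hii']
  -- the arithmetic
  have hgpos : (0 : ℝ) < (Nat.card G : ℝ) := by exact_mod_cast Nat.card_pos
  have e1 : (Bf.card : ℝ) + Bc.card = Nat.card G := by
    rw [← hGfcard]
    exact_mod_cast hsplit
  have e2 : (Bf.card : ℝ) ≤ Bc.card := by exact_mod_cast hBle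
  have e3 : (Hb.card : ℝ) + Hc.card = H.card := by exact_mod_cast hHsplit
  have e4 : (Hb.card : ℝ) ≤ Bf.card := by exact_mod_cast hHble
  have e5 : (ℓ : ℝ) * Hc.card ≤ Bc.card * P.card := by exact_mod_cast hinj
  have hℓ0 : (0 : ℝ) ≤ (ℓ : ℝ) := Nat.cast_nonneg _
  have hP0 : (0 : ℝ) ≤ (P.card : ℝ) := Nat.cast_nonneg _
  have hBc0 : (0 : ℝ) ≤ (Bc.card : ℝ) := Nat.cast_nonneg _
  have hBf0 : (0 : ℝ) ≤ (Bf.card : ℝ) := Nat.cast_nonneg _
  have key : (1 / 2 - η) * (ℓ : ℝ) * (Nat.card G : ℝ) ≤ (P.card : ℝ) * (Nat.card G : ℝ) := by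
    have h1 : (1 / 2 - η) * (Nat.card G : ℝ) ≤ Hc.card := by
      have : (Bf.card : ℝ) ≤ (Nat.card G : ℝ) / 2 := by linarith
      linarith
    have h2 : (1 / 2 - η) * (Nat.card G : ℝ) * ℓ ≤ (Hc.card : ℝ) * ℓ :=
      mul_le_mul_of_nonneg_right h1 hℓ0
    have h3 : (Bc.card : ℝ) * P.card ≤ (Nat.card G : ℝ) * P.card :=
      mul_le_mul_of_nonneg_right (by linarith) hP0
    nlinarith
  exact le_of_mul_le_mul_right key hgpos

/-- **Two transvections with distinct axes separate matrices by traces**: a matrix `D` with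
`tr D = tr (D N) = tr (D N') = tr (D N N') = 0` vanishes. -/
theorem eq_zero_of_trace_eq_zero {N N' : Matrix (Fin 2) (Fin 2) k} {v v' : Fin 2 → k}
    (h : NilData N v) (h' : NilData N' v') (hv' : ∀ c : k, v' ≠ c • v)
    (D : Matrix (Fin 2) (Fin 2) k) (h0 : D.trace = 0) (h1 : (D * N).trace = 0)
    (h2 : (D * N').trace = 0) (h3 : (D * (N * N')).trace = 0) : D = 0 := by
  obtain ⟨c, hc⟩ := (h.trace_mul_eq_zero_iff D).mp (by rw [Matrix.trace_mul_comm]; exact h1)
  obtain ⟨c', hc'⟩ := (h'.trace_mul_eq_zero_iff D).mp (by rw [Matrix.trace_mul_comm]; exact h2)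
  obtain ⟨c'', hc''⟩ := (h'.trace_mul_eq_zero_iff (D * N)).mp (by
    rw [Matrix.trace_mul_comm, Matrix.mul_assoc]; exact h3)
  obtain ⟨d, hd⟩ := h.mulVec_eq_smul v'
  have hd0 : d ≠ 0 := by
    rintro rfl
    rw [zero_smul] at hd
    exact h.mulVec_ne_zero hv' hd
  -- `D v = 0`
  have hDv : D *ᵥ v = 0 := by
    rw [← Matrix.mulVec_mulVec, hd, Matrix.mulVec_smul, hc, smul_smul] at hc''
    by_cases hc''0 : c'' = 0
    · rw [hc''0, zero_smul] at hc''
      have h4 := (smul_eq_zero.mp hc'').resolve_right h.v_ne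
      have h5 : c = 0 := (mul_eq_zero.mp h4).resolve_left hd0
      rw [hc, h5, zero_smul]
    · exfalso
      apply hv' (c''⁻¹ * (d * c))
      rw [← smul_smul, hc'', smul_smul, inv_mul_cancel₀ hc''0, one_smul]
  -- `D v' = 0`
  have hdet : D.det = 0 := Matrix.exists_mulVec_eq_zero_iff.mp ⟨v, h.v_ne, hDv⟩
  have hsq : D * D = 0 := by
    rw [sq_eq_trace_smul_sub_det, h0, hdet, zero_smul, zero_smul, sub_zero]
  have hDv' : D *ᵥ v' = 0 := by
    have h4 : D *ᵥ (D *ᵥ v') = 0 := by rw [Matrix.mulVec_mulVec, hsq, Matrix.zero_mulVec]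
    rw [hc', Matrix.mulVec_smul, hc', smul_smul] at h4
    have h5 := (smul_eq_zero.mp h4).resolve_right h'.v_ne
    rw [hc', mul_self_eq_zero.mp h5, zero_smul]
  exact eq_zero_of_mulVec_eq_zero h.v_ne hv' hDv hDv'

/-- **Wild case, the order is bounded by the prime**: if `ℓ = char k` divides `|G|`, `G` is
semisimple and every trace of `G` lies in the prime field, then `|G| ≤ ℓ ^ 4`. -/
theorem wild_card_le {ℓ : ℕ} [Fact ℓ.Prime] [CharP k ℓ] (G : Subgroup (GL (Fin 2) k))
    [Finite G] (hℓ : ℓ ∣ Nat.card G)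
    (hss : ∀ v : Fin 2 → k, v ≠ 0 →
      (∀ g ∈ G, ∃ c : k, (g : Matrix (Fin 2) (Fin 2) k) *ᵥ v = c • v) →
      ∃ w : Fin 2 → k, (∀ c : k, w ≠ c • v) ∧
        ∀ g ∈ G, ∃ c : k, (g : Matrix (Fin 2) (Fin 2) k) *ᵥ w = c • w)
    (htr : ∀ g ∈ G, ∃ n : ℕ, (g : Matrix (Fin 2) (Fin 2) k).trace = (n : k)) :
    Nat.card G ≤ ℓ ^ 4 := by
  classical
  obtain ⟨u, huG, N, v, hNil, huN⟩ := exists_unipotent G hℓ
  obtain ⟨g₀, hg₀G, hg₀B⟩ := exists_not_mem_lineStab hss huG hNil huN
  -- the conjugate transvection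
  set A : Matrix (Fin 2) (Fin 2) k := (g₀ : Matrix (Fin 2) (Fin 2) k) with hA
  set Ai : Matrix (Fin 2) (Fin 2) k := ((g₀⁻¹ : GL (Fin 2) k) : Matrix (Fin 2) (Fin 2) k) with hAi
  have hAiA : Ai * A = 1 := by
    rw [hAi, hA, ← Matrix.GeneralLinearGroup.coe_mul, inv_mul_cancel,
      Matrix.GeneralLinearGroup.coe_one]
  have hAAi : A * Ai = 1 := by
    rw [hAi, hA, ← Matrix.GeneralLinearGroup.coe_mul, mul_inv_cancel,
      Matrix.GeneralLinearGroup.coe_one]
  set N' : Matrix (Fin 2) (Fin 2) k := A * N * Ai with hN'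
  set v' : Fin 2 → k := A *ᵥ v with hv'def
  set u' : GL (Fin 2) k := g₀ * u * g₀⁻¹ with hu'
  have hu'G : u' ∈ G := G.mul_mem (G.mul_mem hg₀G huG) (G.inv_mem hg₀G)
  have hu'N : (u' : Matrix (Fin 2) (Fin 2) k) = 1 + N' := by
    rw [hu', Matrix.GeneralLinearGroup.coe_mul, Matrix.GeneralLinearGroup.coe_mul, huN, hN',
      Matrix.mul_add, Matrix.mul_one, Matrix.add_mul, ← hA, ← hAi, hAAi]
  have hv'ne : ∀ c : k, v' ≠ c • v := fun c hc => hg₀B ⟨hg₀G, c, hc⟩
  have hNil' : NilData N' v' := by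
    refine ⟨?_, ?_, ?_, ?_⟩
    · intro h0
      apply hNil.ne_zero
      have h1 : Ai * N' * A = N := by
        rw [hN', ← Matrix.mul_assoc, ← Matrix.mul_assoc, hAiA, Matrix.one_mul, Matrix.mul_assoc,
          hAiA, Matrix.mul_one]
      rw [← h1, h0, Matrix.mul_zero, Matrix.zero_mul]
    · rw [hN']
      calc A * N * Ai * (A * N * Ai) = A * N * (Ai * A) * N * Ai := by
            simp only [Matrix.mul_assoc]
        _ = 0 := by
            rw [hAiA, Matrix.mul_one, Matrix.mul_assoc A N N, hNil.sq, Matrix.mul_zero,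
              Matrix.zero_mul]
    · intro h0
      exact hv'ne 0 (by rw [h0, zero_smul])
    · rw [hN', hv'def, Matrix.mulVec_mulVec, Matrix.mul_assoc, Matrix.mul_assoc, hAiA,
        Matrix.mul_one, ← Matrix.mulVec_mulVec, hNil.kill, Matrix.mulVec_zero]
  have : NeZero ℓ := ⟨(Fact.out : ℓ.Prime).ne_zero⟩
  -- the trace map
  let τ : (y : GL (Fin 2) k) → y ∈ G → ZMod ℓ := fun y hy => ((htr y hy).choose : ZMod ℓ)
  have hτ : ∀ (y : GL (Fin 2) k) (hy : y ∈ G),
      (y : Matrix (Fin 2) (Fin 2) k).trace = ZMod.castHom (dvd_refl ℓ) k (τ y hy) := by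
    intro y hy
    rw [(htr y hy).choose_spec]
    simp only [τ, map_natCast]
  let Ψ : G → ZMod ℓ × ZMod ℓ × ZMod ℓ × ZMod ℓ := fun g =>
    (τ g g.2, τ ((g : GL (Fin 2) k) * u) (G.mul_mem g.2 huG),
      τ ((g : GL (Fin 2) k) * u') (G.mul_mem g.2 hu'G),
      τ ((g : GL (Fin 2) k) * (u * u')) (G.mul_mem g.2 (G.mul_mem huG hu'G)))
  have hinj : Function.Injective Ψ := by
    intro g g' hgg'
    simp only [Ψ, Prod.mk.injEq] at hgg'
    obtain ⟨e0, e1, e2, e3⟩ := hgg'
    set D : Matrix (Fin 2) (Fin 2) k :=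
      ((g : GL (Fin 2) k) : Matrix (Fin 2) (Fin 2) k) -
        ((g' : GL (Fin 2) k) : Matrix (Fin 2) (Fin 2) k) with hD
    have t0 : D.trace = 0 := by
      rw [hD, Matrix.trace_sub, hτ g g.2, hτ g' g'.2, e0, sub_self]
    have t1 : (D * (1 + N)).trace = 0 := by
      have h1 := hτ ((g : GL (Fin 2) k) * u) (G.mul_mem g.2 huG)
      have h2 := hτ ((g' : GL (Fin 2) k) * u) (G.mul_mem g'.2 huG)
      rw [Matrix.GeneralLinearGroup.coe_mul, huN] at h1 h2
      rw [hD, Matrix.sub_mul, Matrix.trace_sub, h1, h2, e1, sub_self]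
    have t2 : (D * (1 + N')).trace = 0 := by
      have h1 := hτ ((g : GL (Fin 2) k) * u') (G.mul_mem g.2 hu'G)
      have h2 := hτ ((g' : GL (Fin 2) k) * u') (G.mul_mem g'.2 hu'G)
      rw [Matrix.GeneralLinearGroup.coe_mul, hu'N] at h1 h2
      rw [hD, Matrix.sub_mul, Matrix.trace_sub, h1, h2, e2, sub_self]
    have t3 : (D * ((1 + N) * (1 + N'))).trace = 0 := by
      have h1 := hτ ((g : GL (Fin 2) k) * (u * u')) (G.mul_mem g.2 (G.mul_mem huG hu'G))
      have h2 := hτ ((g' : GL (Fin 2) k) * (u * u')) (G.mul_mem g'.2 (G.mul_mem huG hu'G))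
      rw [Matrix.GeneralLinearGroup.coe_mul, Matrix.GeneralLinearGroup.coe_mul, huN, hu'N]
        at h1 h2
      rw [hD, Matrix.sub_mul, Matrix.trace_sub, h1, h2, e3, sub_self]
    have s1 : (D * N).trace = 0 := by
      rw [Matrix.mul_add, Matrix.mul_one, Matrix.trace_add, t0, zero_add] at t1
      exact t1
    have s2 : (D * N').trace = 0 := by
      rw [Matrix.mul_add, Matrix.mul_one, Matrix.trace_add, t0, zero_add] at t2
      exact t2
    have s3 : (D * (N * N')).trace = 0 := by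
      have e : D * ((1 + N) * (1 + N')) = D + D * N + D * N' + D * (N * N') := by
        noncomm_ring
      rw [e, Matrix.trace_add, Matrix.trace_add, Matrix.trace_add, t0, s1, s2, zero_add,
        zero_add, zero_add] at t3
      exact t3
    have hD0 : D = 0 := eq_zero_of_trace_eq_zero hNil hNil' hv'ne D t0 s1 s2 s3
    apply Subtype.ext
    apply Units.ext
    exact sub_eq_zero.mp hD0
  calc Nat.card G ≤ Nat.card (ZMod ℓ × ZMod ℓ × ZMod ℓ × ZMod ℓ) :=
        Nat.card_le_card_of_injective Ψ hinj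
    _ = ℓ ^ 4 := by
        rw [Nat.card_eq_fintype_card, Fintype.card_prod, Fintype.card_prod, Fintype.card_prod,
          ZMod.card]
        ring

end Wild

/-! ### The final statement -/

section Final

universe u

/-- **The tame half** (helper2, `Fermat/Agent/S48/A/TameP1.lean`, literal of `tame_bound`): for a
finite subgroup `G` of `GL₂(K)` of order prime to the characteristic and `H ⊆ G` with
`(1 - η) |G| ≤ |H|`, one has `(1 - 2 η) |G| ≤ 120 ·` (number of pairs (trace, det) on `H`). -/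
def TameBound : Prop :=
  ∀ {K : Type u} [Field K] [DecidableEq K] (G : Subgroup (GL (Fin 2) K)) [Finite G],
    ((Nat.card G : ℕ) : K) ≠ 0 → ∀ {η : ℝ} (H : Finset (GL (Fin 2) K)), (∀ h ∈ H, h ∈ G) →
      (1 - η) * (Nat.card G : ℝ) ≤ H.card →
      (1 - 2 * η) * (Nat.card G : ℝ) ≤ 120 * ((H.image fun h : GL (Fin 2) K =>
        ((h : Matrix (Fin 2) (Fin 2) K).trace, (h : Matrix (Fin 2) (Fin 2) K).det)).card : ℝ)

/-- **Deligne–Serre, Prop. 7.2** (from the tame half): for `M` and `η < 1 / 2` there is a bound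
`A` such that every finite semisimple subgroup `G` of `GL₂(k)`, `k` any field of characteristic
`ℓ` (any prime), all of whose traces lie in the prime field, and which has a subset `H` with
`(1 - η) |G| ≤ |H|` carrying at most `M` pairs (trace, det), has order at most `A`. -/
theorem exists_card_bound_of_tame (htame : TameBound.{u}) (M : ℕ) {η : ℝ} (hη : η < 1 / 2) :
    ∃ A : ℕ, ∀ (ℓ : ℕ) [Fact ℓ.Prime] (k : Type u) [Field k] [DecidableEq k] [CharP k ℓ]
      (G : Subgroup (GL (Fin 2) k)) [Finite G],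
      (∀ v : Fin 2 → k, v ≠ 0 →
        (∀ g ∈ G, ∃ c : k, (g : Matrix (Fin 2) (Fin 2) k) *ᵥ v = c • v) →
        ∃ w : Fin 2 → k, (∀ c : k, w ≠ c • v) ∧
          ∀ g ∈ G, ∃ c : k, (g : Matrix (Fin 2) (Fin 2) k) *ᵥ w = c • w) →
      (∀ g ∈ G, ∃ n : ℕ, (g : Matrix (Fin 2) (Fin 2) k).trace = (n : k)) →
      ∀ H : Finset (GL (Fin 2) k), (∀ h ∈ H, h ∈ G) →
        (1 - η) * (Nat.card G : ℝ) ≤ H.card →
        (H.image fun h : GL (Fin 2) k =>
          ((h : Matrix (Fin 2) (Fin 2) k).trace, (h : Matrix (Fin 2) (Fin 2) k).det)).card ≤ M →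
        Nat.card G ≤ A := by
  have hc : 0 < 1 - 2 * η := by linarith
  refine ⟨max ⌈120 * (M : ℝ) / (1 - 2 * η)⌉₊ (⌊2 * (M : ℝ) / (1 - 2 * η)⌋₊ ^ 4), ?_⟩
  intro ℓ _ k _ _ _ G _ hss htr H hHG hH hM
  have hMr : ((H.image fun h : GL (Fin 2) k =>
      ((h : Matrix (Fin 2) (Fin 2) k).trace, (h : Matrix (Fin 2) (Fin 2) k).det)).card : ℝ) ≤
      (M : ℝ) := by exact_mod_cast hM
  by_cases hℓ : ℓ ∣ Nat.card G
  · -- wild
    have h1 := wild_prime_le G hℓ hss H hHG hH
    have h2 : (ℓ : ℝ) ≤ 2 * (M : ℝ) / (1 - 2 * η) := by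
      rw [le_div_iff₀ hc]
      linarith
    have h3 : ℓ ≤ ⌊2 * (M : ℝ) / (1 - 2 * η)⌋₊ := Nat.le_floor h2
    calc Nat.card G ≤ ℓ ^ 4 := wild_card_le G hℓ hss htr
      _ ≤ ⌊2 * (M : ℝ) / (1 - 2 * η)⌋₊ ^ 4 := Nat.pow_le_pow_left h3 4
      _ ≤ _ := le_max_right _ _
  · -- tame
    have hne : ((Nat.card G : ℕ) : k) ≠ 0 := by
      intro h0
      exact hℓ ((CharP.cast_eq_zero_iff k ℓ _).mp h0)
    have h1 := htame G hne H hHG hH
    have h2 : (Nat.card G : ℝ) ≤ 120 * (M : ℝ) / (1 - 2 * η) := by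
      rw [le_div_iff₀ hc]
      linarith
    have h3 : Nat.card G ≤ ⌈120 * (M : ℝ) / (1 - 2 * η)⌉₊ := Nat.le_ceil _ |> fun h =>
      by exact_mod_cast h2.trans h
    exact h3.trans (le_max_left _ _)

end Final

end Fermat.Agent.S48.A.FewPolys
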