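/-
PROJECT D (S48), part A, sub-brick of A5 (helper13): THE `ℓ`-ADIC FRAME INSIDE `ℂ`.

* `exists_ringHom_padic_complex` : an (abstract) embedding `ℚ_[ℓ] →+* ℂ`;
* `exists_frame` : an injective `ι : ℤ_[ℓ] →+* ℂ`, a field `k` of characteristic `ℓ` and a ring
  homomorphism `φ : integralClosure ℤ ℂ →+* k` which on the algebraic integers of `ι (ℤ_[ℓ])` is the
  reduction modulo `ℓ`.

Mathlib only.
-/
import Mathlib

set_option autoImplicit false

namespace Fermat.Agent.S48.A.PadicFrame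

open Cardinal

variable (ℓ : ℕ) [Fact ℓ.Prime]

/-! ### cardinality -/

theorem mk_padic : #ℚ_[ℓ] = 𝔠 := by
  apply le_antisymm
  · -- a quotient of a set of sequences of rationals
    have h1 : #ℚ_[ℓ] ≤ #(CauSeq ℚ (padicNorm ℓ)) :=
      mk_le_of_surjective (f := (CauSeq.Completion.mk : CauSeq ℚ (padicNorm ℓ) → ℚ_[ℓ]))
        Quotient.mk_surjective
    have h2 : #(CauSeq ℚ (padicNorm ℓ)) ≤ #(ℕ → ℚ) := mk_subtype_le _
    have h3 : #(ℕ → ℚ) = 𝔠 := by
      rw [mk_arrow, Cardinal.mkRat, mk_nat, lift_aleph0, aleph0_power_aleph0]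
    exact h1.trans (h2.trans h3.le)
  · exact continuum_le_cardinal_of_nontriviallyNormedField ℚ_[ℓ]

theorem mk_algebraicClosure_padic : #(AlgebraicClosure ℚ_[ℓ]) = 𝔠 := by
  apply le_antisymm
  · have h := Algebra.IsAlgebraic.cardinalMk_le_max ℚ_[ℓ] (AlgebraicClosure ℚ_[ℓ])
    rw [mk_padic] at h
    exact h.trans (max_le le_rfl aleph0_le_continuum)
  · rw [← mk_padic ℓ]
    exact mk_le_of_injective (algebraMap ℚ_[ℓ] (AlgebraicClosure ℚ_[ℓ])).injective

/-- an abstract embedding of the `ℓ`-adic numbers into the complex numbers -/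
theorem exists_ringHom_padic_complex : Nonempty (ℚ_[ℓ] →+* ℂ) := by
  have hK : ℵ₀ < #(AlgebraicClosure ℚ_[ℓ]) := by
    rw [mk_algebraicClosure_padic]
    exact aleph0_lt_continuum
  have hKL : Nonempty (AlgebraicClosure ℚ_[ℓ] ≃ ℂ) := by
    rw [← Cardinal.eq, mk_algebraicClosure_padic, mk_complex]
  obtain ⟨e⟩ := IsAlgClosed.ringEquiv_of_equiv_of_charZero hK hKL
  exact ⟨e.toRingHom.comp (algebraMap ℚ_[ℓ] (AlgebraicClosure ℚ_[ℓ]))⟩

/-- an abstract injective ring homomorphism `ℤ_[ℓ] →+* ℂ` -/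
theorem exists_ringHom_padicInt_complex :
    ∃ ι : ℤ_[ℓ] →+* ℂ, Function.Injective ι := by
  obtain ⟨ι0⟩ := exists_ringHom_padic_complex ℓ
  refine ⟨ι0.comp PadicInt.Coe.ringHom, ?_⟩
  intro x y h
  have h1 : ((x : ℚ_[ℓ])) = (y : ℚ_[ℓ]) := ι0.injective h
  exact Subtype.ext h1

/-! ### ring homomorphisms out of `ℤ_[ℓ]` into characteristic `ℓ` -/

/-- every ring homomorphism from `ℤ_[ℓ]` to a ring of characteristic `ℓ` is the reduction modulo
`ℓ` -/
theorem ringHom_apply_eq_zmodRepr {k : Type*} [Ring k] [CharP k ℓ] (χ : ℤ_[ℓ] →+* k) (x : ℤ_[ℓ]) :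
    χ x = (x.zmodRepr : k) := by
  have h1 := PadicInt.sub_zmodRepr_mem x
  rw [PadicInt.maximalIdeal_eq_span_p, Ideal.mem_span_singleton'] at h1
  obtain ⟨y, hy⟩ := h1
  have h2 : x = y * (ℓ : ℤ_[ℓ]) + (x.zmodRepr : ℤ_[ℓ]) := by rw [hy]; ring
  conv_lhs => rw [h2]
  rw [map_add, map_mul, map_natCast, map_natCast, CharP.cast_eq_zero, mul_zero, zero_add]

/-- two ring homomorphisms from `ℤ_[ℓ]` to a ring of characteristic `ℓ` agree -/
theorem ringHom_padicInt_ext {k : Type*} [Ring k] [CharP k ℓ] (χ χ' : ℤ_[ℓ] →+* k) : χ = χ' := by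
  ext x
  rw [ringHom_apply_eq_zmodRepr ℓ χ x, ringHom_apply_eq_zmodRepr ℓ χ' x]

/-- every ring homomorphism from `ℤ_[ℓ]` to a ring of characteristic `ℓ` factors through
`PadicInt.toZMod` -/
theorem ringHom_eq_castHom_comp_toZMod {k : Type*} [Ring k] [CharP k ℓ] (χ : ℤ_[ℓ] →+* k) :
    χ = (ZMod.castHom (dvd_refl ℓ) k).comp (PadicInt.toZMod (p := ℓ)) :=
  ringHom_padicInt_ext ℓ _ _

/-! ### the frame -/

/-- **The `ℓ`-adic frame inside `ℂ`.** There are an injective ring homomorphism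
`ι : ℤ_[ℓ] →+* ℂ`, a field `k` of characteristic `ℓ` and a ring homomorphism
`φ : integralClosure ℤ ℂ →+* k` which, on the algebraic integers lying in the image of `ι`, is the
reduction modulo `ℓ`. -/
theorem exists_frame :
    ∃ (ι : ℤ_[ℓ] →+* ℂ) (k : Type) (_ : Field k) (_ : CharP k ℓ)
      (φ : integralClosure ℤ ℂ →+* k), Function.Injective ι ∧
        ∀ (c : ℤ_[ℓ]) (hc : IsIntegral ℤ (ι c)),
          φ ⟨ι c, hc⟩ = ZMod.castHom (dvd_refl ℓ) k (PadicInt.toZMod c) := by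
  obtain ⟨ι, hι⟩ := exists_ringHom_padicInt_complex ℓ
  let _ : Algebra ℤ_[ℓ] ℂ := ι.toAlgebra
  have halg : algebraMap ℤ_[ℓ] ℂ = ι := rfl
  -- the integral closure of `ℤ_[ℓ]` in `ℂ` and a maximal ideal over `ℓ`
  let R : Subalgebra ℤ_[ℓ] ℂ := integralClosure ℤ_[ℓ] ℂ
  have hinj : Function.Injective (algebraMap ℤ_[ℓ] R) := by
    intro x y h
    apply hι
    have := congrArg (fun z : R => (z : ℂ)) h
    exact this
  have hker : RingHom.ker (algebraMap ℤ_[ℓ] R) ≤ IsLocalRing.maximalIdeal ℤ_[ℓ] := by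
    rw [(RingHom.injective_iff_ker_eq_bot _).1 hinj]
    exact bot_le
  obtain ⟨Q, hQmax, hQ⟩ := Ideal.exists_ideal_over_maximal_of_isIntegral (S := R)
    (IsLocalRing.maximalIdeal ℤ_[ℓ]) hker
  let _ : Field (R ⧸ Q) := Ideal.Quotient.field Q
  -- characteristic `ℓ`
  have hℓQ : ((ℓ : ℕ) : R ⧸ Q) = 0 := by
    have h1 : (ℓ : ℤ_[ℓ]) ∈ IsLocalRing.maximalIdeal ℤ_[ℓ] := by
      rw [PadicInt.maximalIdeal_eq_span_p]
      exact Ideal.mem_span_singleton_self _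
    rw [← hQ, Ideal.mem_comap, map_natCast] at h1
    have h2 := Ideal.Quotient.eq_zero_iff_mem.2 h1
    rwa [map_natCast] at h2
  have hchar : CharP (R ⧸ Q) ℓ := by
    have hp : ℓ.Prime := Fact.out
    obtain ⟨q, hq⟩ := CharP.exists (R ⧸ Q)
    have hdvd : q ∣ ℓ := (CharP.cast_eq_zero_iff (R ⧸ Q) q ℓ).1 hℓQ
    rcases (Nat.dvd_prime hp).1 hdvd with h | h
    · exfalso
      subst h
      exact CharP.char_ne_one (R ⧸ Q) 1 rfl
    · rwa [h] at hq
  -- the map from the algebraic integers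
  have hmem : ∀ x : integralClosure ℤ ℂ, (x : ℂ) ∈ R := fun x =>
    IsIntegral.tower_top (A := ℤ_[ℓ]) x.2
  let j : integralClosure ℤ ℂ →+* R :=
    { toFun := fun x => ⟨(x : ℂ), hmem x⟩
      map_one' := rfl
      map_mul' := fun _ _ => rfl
      map_zero' := rfl
      map_add' := fun _ _ => rfl }
  refine ⟨ι, R ⧸ Q, inferInstance, hchar, (Ideal.Quotient.mk Q).comp j, hι, ?_⟩
  intro c hc
  have h1 : j ⟨ι c, hc⟩ = algebraMap ℤ_[ℓ] R c := Subtype.ext rfl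
  rw [RingHom.comp_apply, h1]
  have h2 := ringHom_eq_castHom_comp_toZMod ℓ ((Ideal.Quotient.mk Q).comp (algebraMap ℤ_[ℓ] R))
  exact congrFun (congrArg DFunLike.coe h2) c

end Fermat.Agent.S48.A.PadicFrame
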