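/-
PROJECT D (S48), part A, sub-brick of A5 (helper13): LIFTING A REPRESENTATION OF A FINITE GROUP OF
ORDER PRIME TO `ℓ` FROM `ZMod ℓ` TO `ℤ_[ℓ]`.

* `exists_lift_of_coprime` : a homomorphism `f : G →* Q` from a finite group of order prime to `ℓ`
  lifts along `π : E →* Q` as soon as `ker π` is a finite `ℓ`-group and `f` takes its values in the
  range of `π` (pull-back + Schur-Zassenhaus);
* `red` : the reduction `GL n (ZMod (ℓ^(m+1))) →* GL n (ZMod (ℓ^m))`, onto, with kernel killed by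
  `ℓ` for `1 ≤ m`;
* `exists_lift_padicInt` : a representation `G →* GL n (ZMod ℓ)` of a finite group of order prime to
  `ℓ` lifts to `G →* GL n ℤ_[ℓ]`.

Mathlib only.
-/
import Mathlib

set_option autoImplicit false

namespace Fermat.Agent.S48.A.LiftPadic

open Matrix

/-! ### (L0) lifting along a surjection with `ℓ`-group kernel -/

theorem exists_lift_of_coprime {E Q G : Type*} [Group E] [Group Q] [Group G] [Finite G]
    (π : E →* Q) [Finite π.ker] {ℓ : ℕ} [Fact ℓ.Prime]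
    (hN : IsPGroup ℓ π.ker) (hG : (Nat.card G).Coprime ℓ) (f : G →* Q)
    (hπ : ∀ g, ∃ e, π e = f g) :
    ∃ f' : G →* E, π.comp f' = f := by
  classical
  -- the pull-back
  let P : Subgroup (E × G) :=
    MonoidHom.eqLocus (π.comp (MonoidHom.fst E G)) (f.comp (MonoidHom.snd E G))
  have hP : ∀ x : P, π (x : E × G).1 = f (x : E × G).2 := fun x => x.2
  let pr : P →* G := (MonoidHom.snd E G).comp P.subtype
  have hpr : Function.Surjective pr := by
    intro g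
    obtain ⟨e, he⟩ := hπ g
    exact ⟨⟨(e, g), he⟩, rfl⟩
  -- the kernel of the projection injects into `ker π`
  let j : pr.ker →* π.ker :=
    ((MonoidHom.fst E G).comp (P.subtype.comp pr.ker.subtype)).codRestrict π.ker (by
      intro x
      have h1 : ((x : P) : E × G).2 = 1 := x.2
      have h2 := hP (x : P)
      rw [h1, map_one] at h2
      exact h2)
  have hj : Function.Injective j := by
    intro x y hxy
    have h1 : ((x : P) : E × G).1 = ((y : P) : E × G).1 := congrArg Subtype.val hxy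
    have h2 : ((x : P) : E × G).2 = 1 := x.2
    have h3 : ((y : P) : E × G).2 = 1 := y.2
    exact Subtype.ext (Subtype.ext (Prod.ext h1 (h2.trans h3.symm)))
  have : Finite pr.ker := Finite.of_injective j hj
  have hNp : IsPGroup ℓ pr.ker := by
    intro x
    obtain ⟨k, hk⟩ := hN (j x)
    refine ⟨k, hj ?_⟩
    rw [map_pow, hk, map_one]
  obtain ⟨k, hk⟩ := (IsPGroup.iff_card).mp hNp
  have hidx : pr.ker.index = Nat.card G := by
    rw [Subgroup.index_ker, MonoidHom.range_eq_top.mpr hpr, Subgroup.card_top]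
  have hcop : (Nat.card pr.ker).Coprime pr.ker.index := by
    rw [hk, hidx]
    exact Nat.Coprime.pow_left k hG.symm
  obtain ⟨H, hH⟩ := Subgroup.exists_right_complement'_of_coprime hcop
  -- the projection restricted to the complement is bijective
  let q : H →* G := pr.comp H.subtype
  have hq : Function.Bijective q := by
    constructor
    · rw [injective_iff_map_eq_one]
      intro h hh
      have h1 : (h : P) ∈ pr.ker ⊓ H := ⟨hh, h.2⟩
      rw [hH.disjoint.eq_bot, Subgroup.mem_bot] at h1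
      exact Subtype.ext h1
    · intro g
      obtain ⟨x, hx⟩ := hpr g
      obtain ⟨⟨a, b⟩, hab, -⟩ := (Subgroup.isComplement'_def.mp hH).existsUnique x
      refine ⟨b, ?_⟩
      have h1 : pr ((a : P) * (b : P)) = g := by rw [hab, hx]
      rw [map_mul] at h1
      have h2 : pr (a : P) = 1 := a.2
      rw [h2, one_mul] at h1
      exact h1
  let s : G ≃* H := (MulEquiv.ofBijective q hq).symm
  refine ⟨(MonoidHom.fst E G).comp (P.subtype.comp (H.subtype.comp s.toMonoidHom)), ?_⟩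
  ext g
  have h1 := hP ((s g : H) : P)
  have h2 : q (s g) = g := (MulEquiv.ofBijective q hq).apply_symm_apply g
  show π (((s g : H) : P) : E × G).1 = f g
  rw [h1]
  exact congrArg f h2

/-! ### (L1) the reduction `GL n (ZMod (ℓ^(m+1))) →* GL n (ZMod (ℓ^m))` -/

/-- the reduction ring homomorphism `ZMod (ℓ^(m+1)) →+* ZMod (ℓ^m)` -/
def redHom (ℓ m : ℕ) : ZMod (ℓ ^ (m + 1)) →+* ZMod (ℓ ^ m) :=
  ZMod.castHom (pow_dvd_pow ℓ (Nat.le_succ m)) (ZMod (ℓ ^ m))

theorem redHom_natCast (ℓ m k : ℕ) : redHom ℓ m (k : ZMod (ℓ ^ (m + 1))) = (k : ZMod (ℓ ^ m)) :=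
  map_natCast _ k

/-- an element of the kernel of the reduction is a multiple of `ℓ^m` -/
theorem exists_eq_mul_of_redHom_eq_zero {ℓ m : ℕ} [Fact ℓ.Prime] {y : ZMod (ℓ ^ (m + 1))}
    (hy : redHom ℓ m y = 0) : ∃ c : ZMod (ℓ ^ (m + 1)), y = ((ℓ ^ m : ℕ) : ZMod (ℓ ^ (m + 1))) * c := by
  have hℓ : ℓ ≠ 0 := (Fact.out : ℓ.Prime).ne_zero
  have : NeZero (ℓ ^ (m + 1)) := ⟨pow_ne_zero _ hℓ⟩
  obtain ⟨k, rfl⟩ := ZMod.natCast_zmod_surjective y
  rw [redHom_natCast, ZMod.natCast_eq_zero_iff] at hy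
  obtain ⟨c, rfl⟩ := hy
  exact ⟨(c : ZMod (ℓ ^ (m + 1))), by push_cast; rfl⟩

theorem mul_eq_zero_of_redHom {ℓ m : ℕ} [Fact ℓ.Prime] (hm : 1 ≤ m) {y z : ZMod (ℓ ^ (m + 1))}
    (hy : redHom ℓ m y = 0) (hz : redHom ℓ m z = 0) : y * z = 0 := by
  obtain ⟨c, rfl⟩ := exists_eq_mul_of_redHom_eq_zero hy
  obtain ⟨d, rfl⟩ := exists_eq_mul_of_redHom_eq_zero hz
  have h1 : ((ℓ ^ m : ℕ) : ZMod (ℓ ^ (m + 1))) * ((ℓ ^ m : ℕ) : ZMod (ℓ ^ (m + 1))) = 0 := by
    rw [← Nat.cast_mul, ZMod.natCast_eq_zero_iff, ← pow_add]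
    exact pow_dvd_pow ℓ (by omega)
  calc ((ℓ ^ m : ℕ) : ZMod (ℓ ^ (m + 1))) * c * (((ℓ ^ m : ℕ) : ZMod (ℓ ^ (m + 1))) * d)
      = ((ℓ ^ m : ℕ) : ZMod (ℓ ^ (m + 1))) * ((ℓ ^ m : ℕ) : ZMod (ℓ ^ (m + 1))) * (c * d) := by ring
    _ = 0 := by rw [h1, zero_mul]

theorem natCast_mul_eq_zero_of_redHom {ℓ m : ℕ} [Fact ℓ.Prime] {y : ZMod (ℓ ^ (m + 1))}
    (hy : redHom ℓ m y = 0) : (ℓ : ZMod (ℓ ^ (m + 1))) * y = 0 := by
  obtain ⟨c, rfl⟩ := exists_eq_mul_of_redHom_eq_zero hy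
  have h1 : (ℓ : ZMod (ℓ ^ (m + 1))) * ((ℓ ^ m : ℕ) : ZMod (ℓ ^ (m + 1))) = 0 := by
    rw [← Nat.cast_mul, ZMod.natCast_eq_zero_iff, ← pow_succ']
  rw [← mul_assoc, h1, zero_mul]

/-- units lift along the reduction (`1 ≤ m`) -/
theorem isUnit_of_isUnit_redHom {ℓ m : ℕ} [Fact ℓ.Prime] (hm : 1 ≤ m) {y : ZMod (ℓ ^ (m + 1))}
    (hy : IsUnit (redHom ℓ m y)) : IsUnit y := by
  have hℓ : ℓ ≠ 0 := (Fact.out : ℓ.Prime).ne_zero
  have : NeZero (ℓ ^ (m + 1)) := ⟨pow_ne_zero _ hℓ⟩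
  obtain ⟨k, rfl⟩ := ZMod.natCast_zmod_surjective y
  rw [redHom_natCast, ZMod.isUnit_iff_coprime, Nat.coprime_pow_right_iff (by omega)] at hy
  rw [ZMod.isUnit_iff_coprime, Nat.coprime_pow_right_iff (by omega)]
  exact hy

/-- in a ring, `(1 + X)^k = 1 + k • X` when `X * X = 0` -/
theorem one_add_pow_of_sq_zero {R : Type*} [Ring R] {X : R} (hX : X * X = 0) (k : ℕ) :
    (1 + X) ^ k = 1 + k • X := by
  induction k with
  | zero => simp
  | succ k ih =>
    rw [pow_succ, ih, add_mul, one_mul, smul_mul_assoc, mul_add, mul_one, hX, add_zero,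
      succ_nsmul]
    abel

variable {n : Type*} [Fintype n] [DecidableEq n]

/-- the reduction `GL n (ZMod (ℓ^(m+1))) →* GL n (ZMod (ℓ^m))` -/
def red (ℓ m : ℕ) (n : Type*) [Fintype n] [DecidableEq n] :
    GL n (ZMod (ℓ ^ (m + 1))) →* GL n (ZMod (ℓ ^ m)) :=
  Matrix.GeneralLinearGroup.map (redHom ℓ m)

theorem red_apply (ℓ m : ℕ) (A : GL n (ZMod (ℓ ^ (m + 1)))) (i j : n) :
    (red ℓ m n A : Matrix n n (ZMod (ℓ ^ m))) i j = redHom ℓ m ((A : Matrix n n _) i j) := rfl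

theorem red_surjective {ℓ m : ℕ} [Fact ℓ.Prime] (hm : 1 ≤ m) :
    Function.Surjective (red ℓ m n) := by
  intro A
  have hsur : Function.Surjective (redHom ℓ m) := ZMod.ringHom_surjective _
  choose g hg using hsur
  let B : Matrix n n (ZMod (ℓ ^ (m + 1))) := fun i j => g ((A : Matrix n n _) i j)
  have hB : (redHom ℓ m).mapMatrix B = (A : Matrix n n _) := by
    ext i j
    exact hg _
  have hdet : IsUnit B.det := by
    apply isUnit_of_isUnit_redHom hm
    rw [RingHom.map_det, hB]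
    exact (Matrix.isUnit_iff_isUnit_det _).mp A.isUnit
  refine ⟨Matrix.GeneralLinearGroup.mk'' B hdet, ?_⟩
  apply Units.ext
  ext i j
  exact hg _

theorem pow_eq_one_of_mem_ker {ℓ m : ℕ} [Fact ℓ.Prime] (hm : 1 ≤ m)
    {A : GL n (ZMod (ℓ ^ (m + 1)))} (hA : A ∈ (red ℓ m n).ker) : A ^ ℓ = 1 := by
  set X : Matrix n n (ZMod (ℓ ^ (m + 1))) := (A : Matrix n n _) - 1 with hX
  have hent : ∀ i j, redHom ℓ m (X i j) = 0 := by
    intro i j
    have h1 : red ℓ m n A = 1 := hA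
    have h2 := red_apply ℓ m A i j
    rw [h1] at h2
    rw [hX, Matrix.sub_apply, map_sub, ← h2]
    by_cases hij : i = j
    · subst hij
      simp
    · simp [hij]
  have hXX : X * X = 0 := by
    ext i j
    rw [Matrix.mul_apply, Matrix.zero_apply]
    exact Finset.sum_eq_zero fun l _ => mul_eq_zero_of_redHom hm (hent i l) (hent l j)
  have hℓX : ℓ • X = 0 := by
    ext i j
    rw [Matrix.smul_apply, Matrix.zero_apply, nsmul_eq_mul]
    exact natCast_mul_eq_zero_of_redHom (hent i j)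
  apply Units.ext
  rw [Units.val_pow_eq_pow_val, Units.val_one]
  have hA1 : (A : Matrix n n (ZMod (ℓ ^ (m + 1)))) = 1 + X := by rw [hX]; abel
  rw [hA1, one_add_pow_of_sq_zero hXX, hℓX, add_zero]

theorem isPGroup_ker_red {ℓ m : ℕ} [Fact ℓ.Prime] (hm : 1 ≤ m) :
    IsPGroup ℓ (red ℓ m n).ker := by
  intro A
  refine ⟨1, Subtype.ext ?_⟩
  rw [pow_one, Subgroup.coe_pow, Subgroup.coe_one]
  exact pow_eq_one_of_mem_ker hm A.2

/-! ### (L2) the tower and its limit -/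

section Tower

variable {ℓ : ℕ} [Fact ℓ.Prime] {G : Type*} [Group G] [Finite G]

theorem neZero_pow (ℓ : ℕ) [Fact ℓ.Prime] (k : ℕ) : NeZero (ℓ ^ k) :=
  ⟨pow_ne_zero _ (Fact.out : ℓ.Prime).ne_zero⟩

/-- one step up the tower -/
theorem exists_lift_step (hG : (Nat.card G).Coprime ℓ) {m : ℕ} (hm : 1 ≤ m)
    (ρ : G →* GL n (ZMod (ℓ ^ m))) :
    ∃ ρ' : G →* GL n (ZMod (ℓ ^ (m + 1))), (red ℓ m n).comp ρ' = ρ := by
  have := neZero_pow ℓ (m + 1)
  exact exists_lift_of_coprime (red ℓ m n) (isPGroup_ker_red hm) hG ρ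
    (fun g => red_surjective hm (ρ g))

/-- the tower of lifts -/
noncomputable def tower (hG : (Nat.card G).Coprime ℓ) (ρ1 : G →* GL n (ZMod (ℓ ^ (0 + 1)))) :
    ∀ k : ℕ, G →* GL n (ZMod (ℓ ^ (k + 1)))
  | 0 => ρ1
  | k + 1 => Classical.choose (exists_lift_step hG (Nat.succ_le_succ (Nat.zero_le k))
      (tower hG ρ1 k))

theorem tower_zero (hG : (Nat.card G).Coprime ℓ) (ρ1 : G →* GL n (ZMod (ℓ ^ (0 + 1)))) :
    tower hG ρ1 0 = ρ1 := rfl

theorem red_comp_tower_succ (hG : (Nat.card G).Coprime ℓ) (ρ1 : G →* GL n (ZMod (ℓ ^ (0 + 1))))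
    (k : ℕ) : (red ℓ (k + 1) n).comp (tower hG ρ1 (k + 1)) = tower hG ρ1 k :=
  Classical.choose_spec (exists_lift_step hG (Nat.succ_le_succ (Nat.zero_le k)) (tower hG ρ1 k))

end Tower

/-- the ring of compatible sequences -/
def compatRing (ℓ : ℕ) : Subring (∀ k : ℕ, ZMod (ℓ ^ k)) where
  carrier := {x | ∀ k, redHom ℓ k (x (k + 1)) = x k}
  mul_mem' := fun {a b} ha hb k => by
    rw [Pi.mul_apply, map_mul, ha k, hb k]
    rfl
  one_mem' := fun k => by
    rw [Pi.one_apply, map_one]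
    rfl
  add_mem' := fun {a b} ha hb k => by
    rw [Pi.add_apply, map_add, ha k, hb k]
    rfl
  zero_mem' := fun k => by
    rw [Pi.zero_apply, map_zero]
    rfl
  neg_mem' := fun {a} ha k => by
    rw [Pi.neg_apply, map_neg, ha k]
    rfl

/-- the projections of the ring of compatible sequences -/
def proj (ℓ k : ℕ) : compatRing ℓ →+* ZMod (ℓ ^ k) :=
  (Pi.evalRingHom (fun k : ℕ => ZMod (ℓ ^ k)) k).comp (compatRing ℓ).subtype

theorem proj_apply (ℓ k : ℕ) (x : compatRing ℓ) : proj ℓ k x = (x : ∀ k : ℕ, ZMod (ℓ ^ k)) k := rfl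

theorem subsingleton_zmod_pow_zero (ℓ : ℕ) : Subsingleton (ZMod (ℓ ^ 0)) := by
  rw [pow_zero]
  infer_instance

theorem proj_compat (ℓ : ℕ) (k1 k2 : ℕ) (hk : k1 ≤ k2) :
    (ZMod.castHom (pow_dvd_pow ℓ hk) (ZMod (ℓ ^ k1))).comp (proj ℓ k2) = proj ℓ k1 := by
  induction k2, hk using Nat.le_induction with
  | base =>
    ext x
    rw [RingHom.comp_apply, ZMod.castHom_apply, ZMod.cast_id]
  | succ k2 hk ih =>
    ext x
    have h1 : redHom ℓ k2 (proj ℓ (k2 + 1) x) = proj ℓ k2 x := x.2 k2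
    have h2 : (ZMod.castHom (pow_dvd_pow ℓ (Nat.le_succ_of_le hk)) (ZMod (ℓ ^ k1))) =
        (ZMod.castHom (pow_dvd_pow ℓ hk) (ZMod (ℓ ^ k1))).comp (redHom ℓ k2) :=
      Subsingleton.elim _ _
    rw [RingHom.comp_apply, h2, RingHom.comp_apply, h1, ← ih]
    rfl

theorem compatRing_ext {ℓ : ℕ} {x y : compatRing ℓ} (h : ∀ k, proj ℓ (k + 1) x = proj ℓ (k + 1) y) :
    x = y := by
  apply Subtype.ext
  funext k
  cases k with
  | zero =>
    have := subsingleton_zmod_pow_zero ℓ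
    exact Subsingleton.elim _ _
  | succ k => exact h k

/-- every ring homomorphism `ℤ_[ℓ] →+* ZMod ℓ` is the canonical one -/
theorem ringHom_eq_toZMod {ℓ : ℕ} [Fact ℓ.Prime] (ψ : ℤ_[ℓ] →+* ZMod ℓ) : ψ = PadicInt.toZMod := by
  have key : ∀ (χ : ℤ_[ℓ] →+* ZMod ℓ) (x : ℤ_[ℓ]), χ x = (x.zmodRepr : ZMod ℓ) := by
    intro χ x
    have h1 := PadicInt.sub_zmodRepr_mem x
    rw [PadicInt.maximalIdeal_eq_span_p, Ideal.mem_span_singleton'] at h1
    obtain ⟨y, hy⟩ := h1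
    have h2 : x = y * (ℓ : ℤ_[ℓ]) + (x.zmodRepr : ℤ_[ℓ]) := by rw [hy]; ring
    conv_lhs => rw [h2]
    rw [map_add, map_mul, map_natCast, map_natCast, ZMod.natCast_self, mul_zero, zero_add]
  ext x
  rw [key ψ x, key PadicInt.toZMod x]

section Limit

variable {ℓ : ℕ} [Fact ℓ.Prime] {G : Type*} [Group G] [Finite G]

/-- the entries of the tower as compatible sequences -/
noncomputable def seqOf (hG : (Nat.card G).Coprime ℓ) (ρ1 : G →* GL n (ZMod (ℓ ^ (0 + 1))))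
    (g : G) (i j : n) : ∀ k : ℕ, ZMod (ℓ ^ k)
  | 0 => 0
  | k + 1 => (tower hG ρ1 k g : Matrix n n (ZMod (ℓ ^ (k + 1)))) i j

theorem seqOf_mem (hG : (Nat.card G).Coprime ℓ) (ρ1 : G →* GL n (ZMod (ℓ ^ (0 + 1))))
    (g : G) (i j : n) : seqOf hG ρ1 g i j ∈ compatRing ℓ := by
  intro k
  cases k with
  | zero =>
    have := subsingleton_zmod_pow_zero ℓ
    exact Subsingleton.elim _ _
  | succ k =>
    have h1 := red_comp_tower_succ hG ρ1 k
    have h2 : red ℓ (k + 1) n (tower hG ρ1 (k + 1) g) = tower hG ρ1 k g := by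
      rw [← h1]
      rfl
    have h3 := red_apply ℓ (k + 1) (tower hG ρ1 (k + 1) g) i j
    rw [h2] at h3
    exact h3.symm

/-- the matrix of compatible sequences attached to `g` -/
noncomputable def limMat (hG : (Nat.card G).Coprime ℓ) (ρ1 : G →* GL n (ZMod (ℓ ^ (0 + 1))))
    (g : G) : Matrix n n (compatRing ℓ) :=
  fun i j => ⟨seqOf hG ρ1 g i j, seqOf_mem hG ρ1 g i j⟩

theorem proj_mapMatrix_limMat (hG : (Nat.card G).Coprime ℓ)
    (ρ1 : G →* GL n (ZMod (ℓ ^ (0 + 1)))) (g : G) (k : ℕ) :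
    (proj ℓ (k + 1)).mapMatrix (limMat hG ρ1 g) =
      (tower hG ρ1 k g : Matrix n n (ZMod (ℓ ^ (k + 1)))) := by
  ext i j
  rfl

omit [Fact ℓ.Prime] in
theorem matrix_compatRing_ext {A B : Matrix n n (compatRing ℓ)}
    (h : ∀ k, (proj ℓ (k + 1)).mapMatrix A = (proj ℓ (k + 1)).mapMatrix B) : A = B := by
  ext i j : 1
  refine compatRing_ext fun k => ?_
  have := congrFun (congrFun (h k) i) j
  exact this

/-- the limit as a monoid homomorphism into the matrices over the compatible sequences -/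
noncomputable def limHom (hG : (Nat.card G).Coprime ℓ) (ρ1 : G →* GL n (ZMod (ℓ ^ (0 + 1)))) :
    G →* Matrix n n (compatRing ℓ) where
  toFun := limMat hG ρ1
  map_one' := by
    refine matrix_compatRing_ext fun k => ?_
    rw [proj_mapMatrix_limMat, map_one, map_one, Units.val_one]
  map_mul' := fun g h => by
    refine matrix_compatRing_ext fun k => ?_
    rw [map_mul, proj_mapMatrix_limMat, proj_mapMatrix_limMat, proj_mapMatrix_limMat, map_mul,
      Units.val_mul]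

/-- the comparison map to the `ℓ`-adic integers -/
noncomputable def toPadic (ℓ : ℕ) [Fact ℓ.Prime] : compatRing ℓ →+* ℤ_[ℓ] :=
  PadicInt.lift (f := proj ℓ) (proj_compat ℓ)

theorem toZModPow_toPadic (k : ℕ) (x : compatRing ℓ) :
    PadicInt.toZModPow k (toPadic ℓ x) = proj ℓ k x := by
  have := PadicInt.lift_spec (f := proj ℓ) (proj_compat ℓ) k
  exact congrFun (congrArg DFunLike.coe this) x

/-- **Lifting to `ℤ_[ℓ]`.** A representation over `ZMod ℓ` of a finite group of order prime to `ℓ`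
lifts to `ℤ_[ℓ]`. -/
theorem exists_lift_padicInt (hG : (Nat.card G).Coprime ℓ) (ρbar : G →* GL n (ZMod ℓ)) :
    ∃ ρ : G →* GL n ℤ_[ℓ], ∀ g,
      Matrix.GeneralLinearGroup.map (PadicInt.toZMod (p := ℓ)) (ρ g) = ρbar g := by
  -- start of the tower
  let e : ZMod ℓ ≃+* ZMod (ℓ ^ (0 + 1)) := ZMod.ringEquivCongr (pow_one ℓ).symm
  let ρ1 : G →* GL n (ZMod (ℓ ^ (0 + 1))) :=
    (Matrix.GeneralLinearGroup.map e.toRingHom).comp ρbar
  let M : G →* Matrix n n ℤ_[ℓ] :=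
    ((toPadic ℓ).mapMatrix : Matrix n n (compatRing ℓ) →+* Matrix n n ℤ_[ℓ]).toMonoidHom.comp
      (limHom hG ρ1)
  refine ⟨M.toHomUnits, fun g => ?_⟩
  apply Units.ext
  ext i j
  show PadicInt.toZMod ((toPadic ℓ) (limMat hG ρ1 g i j)) = (ρbar g : Matrix n n (ZMod ℓ)) i j
  have h1 : PadicInt.toZModPow (0 + 1) (toPadic ℓ (limMat hG ρ1 g i j)) =
      e ((ρbar g : Matrix n n (ZMod ℓ)) i j) := by
    rw [toZModPow_toPadic]
    rfl
  have h2 : (e.symm.toRingHom.comp (PadicInt.toZModPow (p := ℓ) (0 + 1))) = PadicInt.toZMod :=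
    ringHom_eq_toZMod _
  rw [← h2, RingHom.comp_apply, h1]
  exact e.symm_apply_apply _

end Limit

end Fermat.Agent.S48.A.LiftPadic
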