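/-
PROJECT D (S48, Deligne-Serre), part A, brick A2a (helper15): THE ANALYTIC HALF OF THE RANKIN BOUND.
Mathlib + the Prelude definition of `ModularFormClass.qCoeff` only.

For a cusp form `f` of weight `k` for an arithmetic subgroup `Γ` with strict period `h > 0` and
`q`-expansion `∑ aₙ qⁿ`:

* `fourierCoeffOn_hline` : the `n`-th Fourier coefficient of `x ↦ f (x + i t)` on `[0, h]` is
  `exp (-2 π n t / h) aₙ`;
* `sum_normSq_coeff_mul_exp_le` : **Bessel/Parseval on a horizontal line**,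
  `∑_{n ∈ s} ‖aₙ‖² exp (-4 π n t / h) ≤ C t ^ (-k)` for every finite `s` and every `t > 0`
  (`CuspFormClass.exists_bound`: `‖f τ‖ ≤ C₀ (im τ) ^ (-k/2)`);
* `sum_normSq_coeff_le` : **the mean square**, `∑_{n ≤ X} ‖aₙ‖² ≤ C X ^ k` (`t := h / X`);
* `sum_mul_le_sum_mul_of_partial_le` : Abel's inequality (majorization of partial sums against a
  non-negative antitone weight); `sum_one_div_rpow_le` : `∑_{n ≤ m} n⁻ˢ ≤ s / (s - 1)`;
  `tsum_div_rpow_le_of_partial_le` : linear partial sums ⇒ `∑ cₙ n⁻ˢ ≤ C s / (s - 1)`;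
* `tsum_normSq_coeff_le` : weight one, `∑ ‖aₙ‖² n⁻ˢ ≤ C s / (s - 1)` for every real `s > 1`;
* `tsum_normSq_qCoeff_le`, `sum_normSq_qCoeff_le`, `exists_tsum_normSq_qCoeff_le` : the same in the
  spelling of S48 (`f : CuspForm (Gamma1 N) 1`, `ModularFormClass.qCoeff f n`); the last one is the
  literal consumed by the positivity half (A2b).
-/
import Mathlib
import Fermat.Prelude.Def_FLTPrelim_Modularity

set_option autoImplicit false

noncomputable section

namespace Fermat.Agent.S48.A.MeanSquare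

open UpperHalfPlane hiding I
open ModularFormClass MeasureTheory Complex Filter
open scoped Real

local notation "𝕢" => Function.Periodic.qParam

variable {k : ℤ} {Γ : Subgroup (GL (Fin 2) ℝ)} {F : Type*} [FunLike F ℍ ℂ]

/-- the restriction of `f` to the horizontal line of height `t` -/
def hline (f : F) {t : ℝ} (ht : 0 < t) : ℝ → ℂ :=
  fun u => f ⟨(u : ℂ) + t * I, by simpa using ht⟩

theorem continuous_mkLine {t : ℝ} (ht : 0 < t) :
    Continuous fun u : ℝ => (⟨(u : ℂ) + t * I, by simpa using ht⟩ : ℍ) := by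
  rw [UpperHalfPlane.isEmbedding_coe.continuous_iff]
  show Continuous fun u : ℝ => (u : ℂ) + t * I
  fun_prop

theorem continuous_hline [ModularFormClass F Γ k] (f : F) {t : ℝ} (ht : 0 < t) :
    Continuous (hline f ht) :=
  (ModularFormClass.holo f).continuous.comp (continuous_mkLine ht)

/-- the Fourier coefficients of `f` on a horizontal line are its `q`-expansion coefficients -/
theorem fourierCoeffOn_hline [ModularFormClass F Γ k] (f : F) {h : ℝ} (hh : 0 < h)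
    (hΓ : h ∈ Γ.strictPeriods) (n : ℕ) {t : ℝ} (ht : 0 < t) :
    fourierCoeffOn hh (hline f ht) (n : ℤ) =
      (Real.exp (-(2 * π * n * t / h)) : ℂ) * (qExpansion h f).coeff n := by
  rw [fourierCoeffOn_eq_integral, ModularFormClass.qExpansion_coeff_eq_intervalIntegral f hh hΓ n ht,
    sub_zero, Complex.real_smul]
  have hh0 : (h : ℂ) ≠ 0 := by exact_mod_cast hh.ne'
  have key : ∀ u : ℝ, (fourier (-(n : ℤ))) (u : AddCircle h) • hline f ht u =
      (Real.exp (-(2 * π * n * t / h)) : ℂ) *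
        (1 / 𝕢 h ((u : ℂ) + t * I) ^ n * f ⟨(u : ℂ) + t * I, by simpa using ht⟩) := by
    intro u
    simp only [hline, smul_eq_mul]
    rw [fourier_coe_apply, ← mul_assoc]
    congr 1
    rw [Function.Periodic.qParam, one_div, ← Complex.exp_nat_mul, ← Complex.exp_neg,
      Complex.ofReal_exp, ← Complex.exp_add]
    congr 1
    push_cast
    field_simp
    ring_nf
    rw [Complex.I_sq]
    ring
  rw [intervalIntegral.integral_congr (g := fun u : ℝ => (Real.exp (-(2 * π * n * t / h)) : ℂ) *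
        (1 / 𝕢 h ((u : ℂ) + t * I) ^ n * f ⟨(u : ℂ) + t * I, by simpa using ht⟩))
      (fun u _ => key u), intervalIntegral.integral_const_mul]
  push_cast
  ring

theorem im_mkLine (u : ℝ) {t : ℝ} (ht : 0 < t) :
    (⟨(u : ℂ) + t * I, by simpa using ht⟩ : ℍ).im = t := by
  show ((u : ℂ) + t * I).im = t
  simp

/-- **Bessel on a horizontal line**: the weighted mean square of the coefficients of a cusp form
of weight `k` is `O(t ^ (-k))`. -/
theorem sum_normSq_coeff_mul_exp_le [Γ.IsArithmetic] [CuspFormClass F Γ k] (f : F) {h : ℝ}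
    (hh : 0 < h) (hΓ : h ∈ Γ.strictPeriods) :
    ∃ C : ℝ, 0 ≤ C ∧ ∀ (t : ℝ), 0 < t → ∀ s : Finset ℕ,
      ∑ n ∈ s, ‖(qExpansion h f).coeff n‖ ^ 2 * Real.exp (-(4 * π * n * t / h)) ≤
        C / t ^ (k : ℝ) := by
  obtain ⟨C₀, hC₀⟩ := CuspFormClass.exists_bound (k := k) (Γ := Γ) f
  refine ⟨C₀ ^ 2, sq_nonneg _, fun t ht s => ?_⟩
  set g := hline f ht with hg
  set B : ℝ := C₀ / t ^ ((k : ℝ) / 2) with hB
  have hgB : ∀ u : ℝ, ‖g u‖ ≤ B := by
    intro u
    have := hC₀ ⟨(u : ℂ) + t * I, by simpa using ht⟩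
    rw [im_mkLine u ht] at this
    exact this
  have hB0 : 0 ≤ B := (norm_nonneg _).trans (hgB 0)
  have hcont : Continuous g := continuous_hline f ht
  have hmem : MemLp g 2 (volume.restrict (Set.Ioc 0 h)) :=
    MemLp.of_bound hcont.aestronglyMeasurable B (Filter.Eventually.of_forall hgB)
  have hsum := hasSum_sq_fourierCoeffOn hh hmem
  -- the integral is at most `h * B ^ 2`
  have hint : ∫ x in (0 : ℝ)..h, ‖g x‖ ^ 2 ≤ h * B ^ 2 := by
    have h1 : ∫ x in (0 : ℝ)..h, ‖g x‖ ^ 2 ≤ ∫ _x in (0 : ℝ)..h, B ^ 2 := by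
      refine intervalIntegral.integral_mono_on hh.le ?_ ?_ fun x _ => ?_
      · exact (hcont.norm.pow 2).intervalIntegrable _ _
      · exact continuous_const.intervalIntegrable _ _
      · exact pow_le_pow_left₀ (norm_nonneg _) (hgB x) 2
    rw [intervalIntegral.integral_const, sub_zero, smul_eq_mul] at h1
    exact h1
  have hle : ∑ i ∈ s.map Nat.castEmbedding, ‖fourierCoeffOn hh g i‖ ^ 2 ≤
      (h - 0)⁻¹ • ∫ x in (0 : ℝ)..h, ‖g x‖ ^ 2 :=
    sum_le_hasSum _ (fun i _ => sq_nonneg _) hsum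
  rw [Finset.sum_map] at hle
  have hterm : ∀ n ∈ s, ‖fourierCoeffOn hh g (Nat.castEmbedding n : ℤ)‖ ^ 2 =
      ‖(qExpansion h f).coeff n‖ ^ 2 * Real.exp (-(4 * π * n * t / h)) := by
    intro n _
    have : (Nat.castEmbedding n : ℤ) = (n : ℤ) := rfl
    rw [this, hg, fourierCoeffOn_hline f hh hΓ n ht, norm_mul, mul_pow, Complex.norm_real,
      Real.norm_eq_abs, sq_abs, ← Real.exp_nat_mul, mul_comm]
    congr 2
    push_cast
    ring
  rw [Finset.sum_congr rfl hterm] at hle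
  refine hle.trans ?_
  rw [sub_zero, smul_eq_mul]
  calc h⁻¹ * ∫ x in (0 : ℝ)..h, ‖g x‖ ^ 2 ≤ h⁻¹ * (h * B ^ 2) :=
        mul_le_mul_of_nonneg_left hint (inv_nonneg.mpr hh.le)
    _ = B ^ 2 := by field_simp
    _ = C₀ ^ 2 / t ^ (k : ℝ) := by
        rw [hB, div_pow, ← Real.rpow_natCast (t ^ ((k : ℝ) / 2)) 2, ← Real.rpow_mul ht.le]
        congr 2
        push_cast
        ring

/-- **the mean square of the coefficients of a cusp form of weight `k` is `O(X ^ k)`** -/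
theorem sum_normSq_coeff_le [Γ.IsArithmetic] [CuspFormClass F Γ k] (f : F) {h : ℝ}
    (hh : 0 < h) (hΓ : h ∈ Γ.strictPeriods) :
    ∃ C : ℝ, 0 ≤ C ∧ ∀ X : ℕ, 1 ≤ X →
      ∑ n ∈ Finset.range (X + 1), ‖(qExpansion h f).coeff n‖ ^ 2 ≤ C * (X : ℝ) ^ (k : ℝ) := by
  obtain ⟨C, hC0, hC⟩ := sum_normSq_coeff_mul_exp_le (k := k) (Γ := Γ) f hh hΓ
  refine ⟨Real.exp (4 * π) * (C / h ^ (k : ℝ)),
    mul_nonneg (Real.exp_pos _).le (div_nonneg hC0 (Real.rpow_nonneg hh.le _)), fun X hX => ?_⟩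
  have hX0 : (0 : ℝ) < X := by exact_mod_cast hX
  have ht : 0 < h / X := div_pos hh hX0
  have h1 := hC (h / X) ht (Finset.range (X + 1))
  have h2 : ∑ n ∈ Finset.range (X + 1), ‖(qExpansion h f).coeff n‖ ^ 2 * Real.exp (-(4 * π)) ≤
      ∑ n ∈ Finset.range (X + 1),
        ‖(qExpansion h f).coeff n‖ ^ 2 * Real.exp (-(4 * π * n * (h / X) / h)) := by
    refine Finset.sum_le_sum fun n hn => ?_
    refine mul_le_mul_of_nonneg_left (Real.exp_le_exp.mpr ?_) (sq_nonneg _)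
    have hn' : (n : ℝ) ≤ X := by
      exact_mod_cast Nat.lt_succ_iff.mp (Finset.mem_range.mp hn)
    have e : 4 * π * n * (h / X) / h = 4 * π * (n / X) := by
      field_simp
    rw [e, neg_le_neg_iff]
    have : (n : ℝ) / X ≤ 1 := (div_le_one hX0).mpr hn'
    have hpi : 0 < 4 * π := by positivity
    nlinarith
  rw [← Finset.sum_mul] at h2
  have h3 := h2.trans h1
  have e2 : C / (h / X) ^ (k : ℝ) = C / h ^ (k : ℝ) * (X : ℝ) ^ (k : ℝ) := by
    rw [Real.div_rpow hh.le hX0.le]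
    have h0 : h ^ (k : ℝ) ≠ 0 := (Real.rpow_pos_of_pos hh _).ne'
    have h0' : (X : ℝ) ^ (k : ℝ) ≠ 0 := (Real.rpow_pos_of_pos hX0 _).ne'
    field_simp
  rw [e2] at h3
  have hexp : Real.exp (4 * π) * Real.exp (-(4 * π)) = 1 := by
    rw [← Real.exp_add, add_neg_cancel, Real.exp_zero]
  calc ∑ n ∈ Finset.range (X + 1), ‖(qExpansion h f).coeff n‖ ^ 2
      = Real.exp (4 * π) * ((∑ n ∈ Finset.range (X + 1), ‖(qExpansion h f).coeff n‖ ^ 2) *
          Real.exp (-(4 * π))) := by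
        rw [mul_comm (∑ n ∈ Finset.range (X + 1), ‖(qExpansion h f).coeff n‖ ^ 2), ← mul_assoc,
          hexp, one_mul]
    _ ≤ Real.exp (4 * π) * (C / h ^ (k : ℝ) * (X : ℝ) ^ (k : ℝ)) :=
        mul_le_mul_of_nonneg_left h3 (Real.exp_pos _).le
    _ = Real.exp (4 * π) * (C / h ^ (k : ℝ)) * (X : ℝ) ^ (k : ℝ) := by ring

/-! ### Abel's inequality and the Dirichlet series -/

/-- **Abel's inequality** (majorization): if the partial sums of `c` are dominated by those of `d`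
and `w` is non-negative and antitone, then `∑ c n * w n ≤ ∑ d n * w n`. -/
theorem sum_mul_le_sum_mul_of_partial_le {c d w : ℕ → ℝ} (hw0 : ∀ n, 0 ≤ w n) (hw : Antitone w)
    (hcd : ∀ m, ∑ n ∈ Finset.range m, c n ≤ ∑ n ∈ Finset.range m, d n) (m : ℕ) :
    ∑ n ∈ Finset.range m, c n * w n ≤ ∑ n ∈ Finset.range m, d n * w n := by
  rw [← sub_nonneg, ← Finset.sum_sub_distrib]
  have h1 : ∀ n, d n * w n - c n * w n = w n • (d n - c n) := fun n => by
    rw [smul_eq_mul]; ring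
  simp_rw [h1]
  rw [Finset.sum_range_by_parts]
  have hE : ∀ j, 0 ≤ ∑ i ∈ Finset.range j, (d i - c i) := fun j => by
    rw [Finset.sum_sub_distrib, sub_nonneg]; exact hcd j
  have h2 : 0 ≤ w (m - 1) • ∑ i ∈ Finset.range m, (d i - c i) :=
    mul_nonneg (hw0 _) (hE m)
  have h3 : ∑ i ∈ Finset.range (m - 1),
      (w (i + 1) - w i) • ∑ j ∈ Finset.range (i + 1), (d j - c j) ≤ 0 := by
    refine Finset.sum_nonpos fun i _ => ?_
    exact mul_nonpos_of_nonpos_of_nonneg (sub_nonpos.mpr (hw (Nat.le_succ i))) (hE (i + 1))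
  linarith

/-- the partial sums of `∑ 1 / n ^ s` are at most `s / (s - 1)` -/
theorem sum_one_div_rpow_le {s : ℝ} (hs : 1 < s) (m : ℕ) :
    ∑ n ∈ Finset.range m, 1 / ((n : ℝ) + 1) ^ s ≤ s / (s - 1) := by
  rcases Nat.eq_zero_or_pos m with rfl | hm
  · rw [Finset.range_zero, Finset.sum_empty]
    exact div_nonneg (by linarith) (by linarith)
  obtain ⟨m, rfl⟩ : ∃ m', m = m' + 1 := ⟨m - 1, by omega⟩
  rw [Finset.sum_range_succ']
  have hanti : AntitoneOn (fun x : ℝ => x ^ (-s)) (Set.Icc ((1 : ℕ) : ℝ) ((m + 1 : ℕ) : ℝ)) := by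
    intro x hx y _ hxy
    have hx0 : 0 < x := lt_of_lt_of_le (by norm_num) hx.1
    exact Real.rpow_le_rpow_of_nonpos hx0 hxy (by linarith)
  have h1 := AntitoneOn.sum_le_integral_Ico (a := 1) (b := m + 1) (by omega) hanti
  have h2 : ∫ x in (((1 : ℕ) : ℝ))..(((m + 1 : ℕ) : ℝ)), x ^ (-s) =
      ((((m + 1 : ℕ) : ℝ)) ^ (-s + 1) - ((1 : ℕ) : ℝ) ^ (-s + 1)) / (-s + 1) := by
    refine integral_rpow (Or.inr ⟨by linarith, ?_⟩)
    rw [Set.uIcc_of_le (by push_cast; linarith)]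
    intro h0
    have := h0.1
    norm_num at this
  rw [h2] at h1
  have h3 : ∑ i ∈ Finset.range m, 1 / (((i + 1 : ℕ) : ℝ) + 1) ^ s =
      ∑ i ∈ Finset.Ico 1 (m + 1), (((i + 1 : ℕ) : ℝ)) ^ (-s) := by
    rw [Finset.sum_Ico_eq_sum_range]
    simp only [Nat.add_sub_cancel]
    refine Finset.sum_congr rfl fun i _ => ?_
    have hpos : (0 : ℝ) ≤ ((1 + i + 1 : ℕ) : ℝ) := by positivity
    rw [Real.rpow_neg hpos, one_div]
    congr 2
    push_cast
    ring
  have h4 : ((((m + 1 : ℕ) : ℝ)) ^ (-s + 1) - ((1 : ℕ) : ℝ) ^ (-s + 1)) / (-s + 1) ≤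
      1 / (s - 1) := by
    have hm0 : (0 : ℝ) < ((m + 1 : ℕ) : ℝ) := by positivity
    have hp : 0 ≤ (((m + 1 : ℕ) : ℝ)) ^ (-s + 1) := (Real.rpow_pos_of_pos hm0 _).le
    rw [Nat.cast_one, Real.one_rpow, show (-s + 1) = -(s - 1) by ring, div_neg, neg_div',
      neg_sub]
    exact div_le_div_of_nonneg_right (by linarith [Real.rpow_nonneg hm0.le (-(s - 1))])
      (by linarith)
  have h5 : (1 : ℝ) / (((0 : ℕ) : ℝ) + 1) ^ s = 1 := by
    rw [Nat.cast_zero, zero_add, Real.one_rpow, div_one]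
  calc ∑ i ∈ Finset.range m, 1 / (((i + 1 : ℕ) : ℝ) + 1) ^ s + 1 / (((0 : ℕ) : ℝ) + 1) ^ s
      ≤ 1 / (s - 1) + 1 := by
        rw [h3, h5]
        exact add_le_add (h1.trans h4) le_rfl
    _ = s / (s - 1) := by
        have : s - 1 ≠ 0 := by linarith
        field_simp
        ring

/-- from a linear bound on the partial sums of a non-negative sequence to its Dirichlet series -/
theorem tsum_div_rpow_le_of_partial_le {c : ℕ → ℝ} (hc : ∀ n, 0 ≤ c n) {C : ℝ} (hC0 : 0 ≤ C)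
    (hC : ∀ X : ℕ, 1 ≤ X → ∑ n ∈ Finset.range (X + 1), c n ≤ C * X) {s : ℝ} (hs : 1 < s) :
    Summable (fun n : ℕ => c n / (n : ℝ) ^ s) ∧
      ∑' n : ℕ, c n / (n : ℝ) ^ s ≤ C * (s / (s - 1)) := by
  set w : ℕ → ℝ := fun n => 1 / ((n : ℝ) + 1) ^ s with hw
  have hw0 : ∀ n, 0 ≤ w n := fun n => by
    have : (0 : ℝ) < (n : ℝ) + 1 := by positivity
    exact (div_pos one_pos (Real.rpow_pos_of_pos this s)).le
  have hwanti : Antitone w := by
    intro a b hab
    have ha : (0 : ℝ) < (a : ℝ) + 1 := by positivity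
    have hle : (a : ℝ) + 1 ≤ (b : ℝ) + 1 := by
      have : (a : ℝ) ≤ b := by exact_mod_cast hab
      linarith
    exact one_div_le_one_div_of_le (Real.rpow_pos_of_pos ha s)
      (Real.rpow_le_rpow ha.le hle (by linarith))
  have hcd : ∀ m, ∑ n ∈ Finset.range m, c (n + 1) ≤ ∑ _n ∈ Finset.range m, C := by
    intro m
    rw [Finset.sum_const, Finset.card_range, nsmul_eq_mul, mul_comm]
    rcases Nat.eq_zero_or_pos m with rfl | hm
    · simp
    · have h1 := hC m hm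
      rw [Finset.sum_range_succ'] at h1
      linarith [hc 0]
  have hpart : ∀ m, ∑ n ∈ Finset.range m, c (n + 1) / ((n + 1 : ℕ) : ℝ) ^ s ≤
      C * (s / (s - 1)) := by
    intro m
    have h1 := sum_mul_le_sum_mul_of_partial_le hw0 hwanti hcd m
    have h2 : ∑ n ∈ Finset.range m, C * w n ≤ C * (s / (s - 1)) := by
      rw [← Finset.mul_sum]
      exact mul_le_mul_of_nonneg_left (sum_one_div_rpow_le hs m) hC0
    have h3 : ∑ n ∈ Finset.range m, c (n + 1) / ((n + 1 : ℕ) : ℝ) ^ s =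
        ∑ n ∈ Finset.range m, c (n + 1) * w n := by
      refine Finset.sum_congr rfl fun n _ => ?_
      rw [hw, Nat.cast_add, Nat.cast_one, mul_one_div]
    rw [h3]
    exact h1.trans h2
  have hnn : ∀ n : ℕ, 0 ≤ c (n + 1) / ((n + 1 : ℕ) : ℝ) ^ s := fun n =>
    div_nonneg (hc _) (Real.rpow_nonneg (Nat.cast_nonneg _) s)
  have hsum1 : Summable (fun n : ℕ => c (n + 1) / ((n + 1 : ℕ) : ℝ) ^ s) :=
    summable_of_sum_range_le hnn hpart
  have hsum : Summable (fun n : ℕ => c n / (n : ℝ) ^ s) :=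
    (summable_nat_add_iff 1).mp hsum1
  refine ⟨hsum, ?_⟩
  rw [hsum.tsum_eq_zero_add, Nat.cast_zero, Real.zero_rpow (by linarith), div_zero, zero_add]
  exact Real.tsum_le_of_sum_range_le hnn hpart

/-- **the Dirichlet series `∑ ‖aₙ‖² n⁻ˢ` of a cusp form of weight one is `O(s / (s - 1))`** -/
theorem tsum_normSq_coeff_le [Γ.IsArithmetic] [CuspFormClass F Γ 1] (f : F) {h : ℝ}
    (hh : 0 < h) (hΓ : h ∈ Γ.strictPeriods) :
    ∃ C : ℝ, 0 ≤ C ∧ ∀ s : ℝ, 1 < s →
      Summable (fun n : ℕ => ‖(qExpansion h f).coeff n‖ ^ 2 / (n : ℝ) ^ s) ∧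
        ∑' n : ℕ, ‖(qExpansion h f).coeff n‖ ^ 2 / (n : ℝ) ^ s ≤ C * (s / (s - 1)) := by
  obtain ⟨C, hC0, hC⟩ := sum_normSq_coeff_le (k := 1) (Γ := Γ) f hh hΓ
  refine ⟨C, hC0, fun s hs => ?_⟩
  refine tsum_div_rpow_le_of_partial_le (fun n => sq_nonneg _) hC0 (fun X hX => ?_) hs
  have := hC X hX
  rwa [Int.cast_one, Real.rpow_one] at this

/-! ### the spelling of S48 -/

open CongruenceSubgroup in
/-- `1` is a strict period of `Γ₁(N)` -/
theorem one_mem_strictPeriods_Gamma1 (N : ℕ) :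
    (1 : ℝ) ∈ (Subgroup.map (Matrix.SpecialLinearGroup.mapGL ℝ) (Gamma1 N)).strictPeriods := by
  have hT : ModularGroup.T ∈ Gamma1 N := by
    rw [Gamma1_mem]
    simp [ModularGroup.T]
  rw [Subgroup.strictPeriods_eq_zmultiples_one_of_T_mem hT]
  exact AddSubgroup.mem_zmultiples (1 : ℝ)

open CongruenceSubgroup in
/-- **(A2a) for S48**: for a cusp form `f` of weight one on `Γ₁(N)`, the Dirichlet series
`∑ ‖aₙ(f)‖² n⁻ˢ` converges for every real `s > 1` and is at most `C s / (s - 1)`. -/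
theorem tsum_normSq_qCoeff_le (N : ℕ) [NeZero N] (f : CuspForm (Gamma1 N) 1) :
    ∃ C : ℝ, 0 ≤ C ∧ ∀ s : ℝ, 1 < s →
      Summable (fun n : ℕ => ‖ModularFormClass.qCoeff f n‖ ^ 2 / (n : ℝ) ^ s) ∧
        ∑' n : ℕ, ‖ModularFormClass.qCoeff f n‖ ^ 2 / (n : ℝ) ^ s ≤ C * (s / (s - 1)) :=
  tsum_normSq_coeff_le f one_pos (one_mem_strictPeriods_Gamma1 N)

open CongruenceSubgroup in
/-- **(A2a) for S48**, mean-square form: `∑_{n ≤ X} ‖aₙ(f)‖² ≤ C X`. -/
theorem sum_normSq_qCoeff_le (N : ℕ) [NeZero N] (f : CuspForm (Gamma1 N) 1) :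
    ∃ C : ℝ, 0 ≤ C ∧ ∀ X : ℕ, 1 ≤ X →
      ∑ n ∈ Finset.range (X + 1), ‖ModularFormClass.qCoeff f n‖ ^ 2 ≤ C * X := by
  obtain ⟨C, hC0, hC⟩ := sum_normSq_coeff_le (k := 1)
    (Γ := Subgroup.map (Matrix.SpecialLinearGroup.mapGL ℝ) (Gamma1 N)) f one_pos
    (one_mem_strictPeriods_Gamma1 N)
  refine ⟨C, hC0, fun X hX => ?_⟩
  have := hC X hX
  rwa [Int.cast_one, Real.rpow_one] at this

open CongruenceSubgroup in
/-- **(A2a) for S48 in the consumers' literal** (`X0`-free, `C * s / (s - 1)`): the hypothesis `hD`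
of `A/EulerPos.rankin_bound` and `hC` of `A/RankinPos.sum_primes_le_log`. -/
theorem exists_tsum_normSq_qCoeff_le (N : ℕ) [NeZero N] (f : CuspForm (Gamma1 N) 1) :
    ∃ C : ℝ, ∀ s : ℝ, 1 < s →
      Summable (fun n : ℕ => ‖ModularFormClass.qCoeff f n‖ ^ 2 / (n : ℝ) ^ s) ∧
        ∑' n : ℕ, ‖ModularFormClass.qCoeff f n‖ ^ 2 / (n : ℝ) ^ s ≤ C * s / (s - 1) := by
  obtain ⟨C, -, hC⟩ := tsum_normSq_qCoeff_le N f
  refine ⟨C, fun s hs => ?_⟩
  rw [mul_div_assoc]
  exact hC s hs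

end Fermat.Agent.S48.A.MeanSquare

end
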