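/-
S48 part A, brick A2b (light form): Rankin's bound with constant exactly `1`, in the form
`∑_{p ∈ P} log (1 + ‖a p‖² p^{-s}) ≤ log (1/(s-1)) + C`, from the mean-square bound (A2a) and the
weak multiplicativity `a (p n) = a p * a n` (`p ∤ n N`).  No local factor, no recurrence.
Owner: helper6.
-/
import Fermat.Agent.S48.A.Defs

set_option autoImplicit false

open Finset

namespace Fermat.Agent.S48.A.RankinLight

open Fermat.Agent.S48.A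

/-- `a` is multiplicative on products of distinct primes not dividing `N`. -/
theorem a_prod_primes {N : ℕ} {a : ℕ → ℂ} (h1 : a 1 = 1) (hmul : WeakMul N a) (T : Finset ℕ)
    (hT : ∀ p ∈ T, p.Prime ∧ ¬ p ∣ N) : a (∏ p ∈ T, p) = ∏ p ∈ T, a p := by
  classical
  induction T using Finset.induction_on with
  | empty => simpa using h1
  | insert q T hq ih =>
    have hT' : ∀ p ∈ T, p.Prime ∧ ¬ p ∣ N := fun p hp => hT p (mem_insert_of_mem hp)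
    have hqP := hT q (mem_insert_self q T)
    rw [prod_insert hq, prod_insert hq, ← ih hT']
    refine hmul q _ hqP.1 hqP.2 ?_
    intro hdvd
    obtain ⟨p, hp, hqp⟩ := (Prime.dvd_finsetProd_iff hqP.1.prime _).1 hdvd
    have : q = p := (Nat.prime_dvd_prime_iff_eq hqP.1 (hT' p hp).1).1 hqp
    exact hq (this ▸ hp)

/-- the term of the Dirichlet series at a product of distinct primes. -/
theorem term_prod_primes {N : ℕ} {a : ℕ → ℂ} (h1 : a 1 = 1) (hmul : WeakMul N a) (s : ℝ)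
    (T : Finset ℕ) (hT : ∀ p ∈ T, p.Prime ∧ ¬ p ∣ N) :
    ∏ p ∈ T, (‖a p‖ ^ 2 / (p : ℝ) ^ s) =
      ‖a (∏ p ∈ T, p)‖ ^ 2 / ((∏ p ∈ T, p : ℕ) : ℝ) ^ s := by
  rw [a_prod_primes h1 hmul T hT, Finset.prod_div_distrib, norm_prod, Finset.prod_pow]
  congr 1
  rw [Nat.cast_prod, Real.finsetProd_rpow]
  intro p _
  positivity

/-- **the finite Euler product is bounded by the Dirichlet series.** -/
theorem prod_one_add_le_tsum {N : ℕ} {a : ℕ → ℂ} (h1 : a 1 = 1) (hmul : WeakMul N a) {s : ℝ}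
    (hsum : Summable (fun n : ℕ => ‖a n‖ ^ 2 / (n : ℝ) ^ s)) (P : Finset ℕ)
    (hP : ∀ p ∈ P, p.Prime ∧ ¬ p ∣ N) :
    ∏ p ∈ P, (1 + ‖a p‖ ^ 2 / (p : ℝ) ^ s) ≤ ∑' n : ℕ, ‖a n‖ ^ 2 / (n : ℝ) ^ s := by
  classical
  rw [Finset.prod_one_add]
  have hterm : ∀ T ∈ P.powerset, ∏ p ∈ T, (‖a p‖ ^ 2 / (p : ℝ) ^ s) =
      (fun n : ℕ => ‖a n‖ ^ 2 / (n : ℝ) ^ s) (∏ p ∈ T, p) := by
    intro T hT
    exact term_prod_primes h1 hmul s T (fun p hp => hP p (mem_powerset.1 hT hp))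
  rw [Finset.sum_congr rfl hterm]
  have hinj : Set.InjOn (fun T : Finset ℕ => ∏ p ∈ T, p) (P.powerset : Set (Finset ℕ)) := by
    intro T hT T' hT' h
    have e1 := Nat.primeFactors_prod (s := T)
      (fun p hp => (hP p (mem_powerset.1 (mem_coe.1 hT) hp)).1)
    have e2 := Nat.primeFactors_prod (s := T')
      (fun p hp => (hP p (mem_powerset.1 (mem_coe.1 hT') hp)).1)
    have h' : (∏ p ∈ T, p) = ∏ p ∈ T', p := h
    rw [← e1, ← e2, h']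
  rw [← Finset.sum_image (f := fun n : ℕ => ‖a n‖ ^ 2 / (n : ℝ) ^ s) hinj]
  exact hsum.sum_le_tsum _ (fun n _ => by positivity)

/-- **A2b (light)**: Rankin's bound with constant exactly one. -/
theorem rankinBound {N : ℕ} {a : ℕ → ℂ} (h1 : a 1 = 1) (hmul : WeakMul N a)
    (hms : MeanSquareBound a) : RankinBound N a := by
  obtain ⟨C, hC⟩ := hms
  set C' : ℝ := max C 1 with hC'
  have hC'1 : (1 : ℝ) ≤ C' := le_max_right _ _
  refine ⟨Real.log (2 * C'), fun s hs1 hs2 P hP => ?_⟩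
  obtain ⟨hsum, hle⟩ := hC s hs1
  have hs0 : 0 < s - 1 := by linarith
  have hprod := prod_one_add_le_tsum h1 hmul hsum P hP
  have hpos : ∀ p ∈ P, 0 < 1 + ‖a p‖ ^ 2 / (p : ℝ) ^ s := fun p _ => by positivity
  have hbound : ∑' n : ℕ, ‖a n‖ ^ 2 / (n : ℝ) ^ s ≤ 2 * C' / (s - 1) := by
    refine hle.trans ?_
    rw [div_le_div_iff_of_pos_right hs0]
    have : C * s ≤ C' * s := mul_le_mul_of_nonneg_right (le_max_left _ _) (by linarith)
    nlinarith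
  rw [← Real.log_prod (fun p hp => (hpos p hp).ne')]
  have hprodpos : 0 < ∏ p ∈ P, (1 + ‖a p‖ ^ 2 / (p : ℝ) ^ s) := Finset.prod_pos hpos
  calc Real.log (∏ p ∈ P, (1 + ‖a p‖ ^ 2 / (p : ℝ) ^ s))
      ≤ Real.log (2 * C' / (s - 1)) := Real.log_le_log hprodpos (hprod.trans hbound)
    _ = Real.log (1 / (s - 1)) + Real.log (2 * C') := by
        rw [div_eq_mul_inv, mul_comm, Real.log_mul (inv_pos.2 hs0).ne' (by positivity),
          one_div]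


/-! ### Adapters for the consumers (thin sets, irreducibility) -/

/-- `x - x² ≤ log (1 + x)` for `0 ≤ x`. -/
theorem sub_sq_le_log_one_add {x : ℝ} (hx : 0 ≤ x) : x - x ^ 2 ≤ Real.log (1 + x) := by
  have h1 : (0 : ℝ) < 1 + x := by linarith
  have h := Real.one_sub_inv_le_log_of_pos h1
  have h2 : x - x ^ 2 ≤ 1 - (1 + x)⁻¹ := by
    have h3 : (1 + x)⁻¹ * (1 + x) = 1 := inv_mul_cancel₀ h1.ne'
    have h4 : 0 < (1 + x)⁻¹ := inv_pos.2 h1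
    have h5 : 1 - (1 + x)⁻¹ = x * (1 + x)⁻¹ := by
      have : (1 + x)⁻¹ * x = 1 - (1 + x)⁻¹ := by linear_combination h3
      linarith [mul_comm x (1 + x)⁻¹]
    rw [h5]
    have h6 : (x - x ^ 2) * (1 + x) ≤ x := by nlinarith [mul_nonneg hx (sq_nonneg x)]
    calc x - x ^ 2 = (x - x ^ 2) * (1 + x) * (1 + x)⁻¹ := by
          rw [mul_assoc, mul_inv_cancel₀ h1.ne', mul_one]
      _ ≤ x * (1 + x)⁻¹ := mul_le_mul_of_nonneg_right h6 h4.le
  linarith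

/-- `∑_{p ∈ P} 1/p² ≤ 2`. -/
theorem sum_inv_sq_le_two (P : Finset ℕ) : ∑ p ∈ P, (1 : ℝ) / (p : ℝ) ^ 2 ≤ 2 := by
  have h := hasSum_zeta_two
  have hle : ∑ p ∈ P, (1 : ℝ) / (p : ℝ) ^ 2 ≤ ∑' n : ℕ, (1 : ℝ) / (n : ℝ) ^ 2 :=
    h.summable.sum_le_tsum _ (fun n _ => by positivity)
  rw [h.tsum_eq] at hle
  have hpi : Real.pi ^ 2 / 6 ≤ 2 := by
    have := Real.pi_lt_d2
    nlinarith [Real.pi_pos]
  linarith

/-- for a prime `p` and `1 < s`: `(1/p^s)² ≤ 1/p²`. -/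
theorem inv_rpow_sq_le {p : ℕ} (hp : p.Prime) {s : ℝ} (hs : 1 < s) :
    (1 / (p : ℝ) ^ s) ^ 2 ≤ 1 / (p : ℝ) ^ 2 := by
  have hp1 : (1 : ℝ) ≤ p := by exact_mod_cast hp.one_lt.le
  have hp0 : (0 : ℝ) < p := by linarith
  have h1 : (p : ℝ) ^ (1 : ℝ) ≤ (p : ℝ) ^ s := Real.rpow_le_rpow_of_exponent_le hp1 hs.le
  rw [Real.rpow_one] at h1
  have hpos : 0 < (p : ℝ) ^ s := Real.rpow_pos_of_pos hp0 s
  rw [div_pow, one_pow]
  apply one_div_le_one_div_of_le (by positivity)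
  exact pow_le_pow_left₀ hp0.le h1 2

/-- **Adapter 1**: the exact-sum form of Rankin's bound (constant exactly one) for a coefficient
function whose values at the good primes are bounded. -/
theorem sum_le_of_rankinBound_of_le {N : ℕ} {a : ℕ → ℂ} (hR : RankinBound N a) (B : ℝ)
    (hB : ∀ p : ℕ, p.Prime → ¬ p ∣ N → ‖a p‖ ^ 2 ≤ B) :
    ∃ C : ℝ, ∀ s : ℝ, 1 < s → s ≤ 2 → ∀ P : Finset ℕ, (∀ p ∈ P, p.Prime ∧ ¬ p ∣ N) →
      ∑ p ∈ P, ‖a p‖ ^ 2 / (p : ℝ) ^ s ≤ Real.log (1 / (s - 1)) + C := by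
  obtain ⟨C, hC⟩ := hR
  refine ⟨C + B ^ 2 * 2, fun s hs1 hs2 P hP => ?_⟩
  have hmain := hC s hs1 hs2 P hP
  have hterm : ∀ p ∈ P, ‖a p‖ ^ 2 / (p : ℝ) ^ s ≤
      Real.log (1 + ‖a p‖ ^ 2 / (p : ℝ) ^ s) + B ^ 2 * (1 / (p : ℝ) ^ 2) := by
    intro p hp
    have hx : 0 ≤ ‖a p‖ ^ 2 / (p : ℝ) ^ s := by positivity
    have h1 := sub_sq_le_log_one_add hx
    have h2 : (‖a p‖ ^ 2 / (p : ℝ) ^ s) ^ 2 ≤ B ^ 2 * (1 / (p : ℝ) ^ 2) := by
      have hb := hB p (hP p hp).1 (hP p hp).2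
      have hb0 : 0 ≤ ‖a p‖ ^ 2 := by positivity
      rw [div_eq_mul_one_div, mul_pow]
      exact mul_le_mul (pow_le_pow_left₀ hb0 hb 2) (inv_rpow_sq_le (hP p hp).1 hs1)
        (by positivity) (by positivity)
    linarith
  calc ∑ p ∈ P, ‖a p‖ ^ 2 / (p : ℝ) ^ s
      ≤ ∑ p ∈ P, (Real.log (1 + ‖a p‖ ^ 2 / (p : ℝ) ^ s) + B ^ 2 * (1 / (p : ℝ) ^ 2)) :=
        Finset.sum_le_sum hterm
    _ = ∑ p ∈ P, Real.log (1 + ‖a p‖ ^ 2 / (p : ℝ) ^ s) + B ^ 2 * ∑ p ∈ P, 1 / (p : ℝ) ^ 2 := by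
        rw [Finset.sum_add_distrib, Finset.mul_sum]
    _ ≤ Real.log (1 / (s - 1)) + (C + B ^ 2 * 2) := by
        have := mul_le_mul_of_nonneg_left (sum_inv_sq_le_two P) (sq_nonneg B)
        linarith

/-- **Adapter 2 (thin sets)**: the primes at which `‖a p‖² ≥ c` have upper logarithmic density
at most `1/c`. -/
theorem upperLogDensityLE_of_rankinBound {N : ℕ} {a : ℕ → ℂ} (hR : RankinBound N a) {c : ℝ}
    (hc : 0 < c) :
    UpperLogDensityLE {p : ℕ | ¬ p ∣ N ∧ c ≤ ‖a p‖ ^ 2} (1 / c) := by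
  obtain ⟨C, hC⟩ := hR
  refine ⟨(C + c ^ 2 * 2) / c, fun s hs1 hs2 P hP => ?_⟩
  have hP' : ∀ p ∈ P, p.Prime ∧ ¬ p ∣ N := fun p hp => ⟨(hP p hp).1, (hP p hp).2.1⟩
  have hmain := hC s hs1 hs2 P hP'
  have hterm : ∀ p ∈ P, c * (1 / (p : ℝ) ^ s) ≤
      Real.log (1 + ‖a p‖ ^ 2 / (p : ℝ) ^ s) + c ^ 2 * (1 / (p : ℝ) ^ 2) := by
    intro p hp
    have hp0 : (0 : ℝ) < p := by exact_mod_cast (hP p hp).1.pos
    have hpos : 0 < (p : ℝ) ^ s := Real.rpow_pos_of_pos hp0 s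
    have hx : 0 ≤ c * (1 / (p : ℝ) ^ s) := by positivity
    have h1 := sub_sq_le_log_one_add hx
    have hmono : Real.log (1 + c * (1 / (p : ℝ) ^ s)) ≤
        Real.log (1 + ‖a p‖ ^ 2 / (p : ℝ) ^ s) := by
      apply Real.log_le_log (by positivity)
      have : c * (1 / (p : ℝ) ^ s) ≤ ‖a p‖ ^ 2 / (p : ℝ) ^ s := by
        rw [mul_one_div]
        exact div_le_div_of_nonneg_right (hP p hp).2.2 hpos.le
      linarith
    have h2 : (c * (1 / (p : ℝ) ^ s)) ^ 2 ≤ c ^ 2 * (1 / (p : ℝ) ^ 2) := by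
      rw [mul_pow]
      exact mul_le_mul_of_nonneg_left (inv_rpow_sq_le (hP p hp).1 hs1) (sq_nonneg c)
    linarith
  have hsum : c * ∑ p ∈ P, 1 / (p : ℝ) ^ s ≤ Real.log (1 / (s - 1)) + (C + c ^ 2 * 2) := by
    calc c * ∑ p ∈ P, 1 / (p : ℝ) ^ s = ∑ p ∈ P, c * (1 / (p : ℝ) ^ s) := Finset.mul_sum _ _ _
      _ ≤ ∑ p ∈ P, (Real.log (1 + ‖a p‖ ^ 2 / (p : ℝ) ^ s) + c ^ 2 * (1 / (p : ℝ) ^ 2)) :=
          Finset.sum_le_sum hterm
      _ = ∑ p ∈ P, Real.log (1 + ‖a p‖ ^ 2 / (p : ℝ) ^ s) + c ^ 2 * ∑ p ∈ P, 1 / (p : ℝ) ^ 2 := by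
          rw [Finset.sum_add_distrib, Finset.mul_sum]
      _ ≤ Real.log (1 / (s - 1)) + (C + c ^ 2 * 2) := by
          have := mul_le_mul_of_nonneg_left (sum_inv_sq_le_two P) (sq_nonneg c)
          linarith
  have : ∑ p ∈ P, 1 / (p : ℝ) ^ s ≤ (Real.log (1 / (s - 1)) + (C + c ^ 2 * 2)) / c := by
    rw [le_div_iff₀ hc, mul_comm]; exact hsum
  calc ∑ p ∈ P, 1 / (p : ℝ) ^ s ≤ (Real.log (1 / (s - 1)) + (C + c ^ 2 * 2)) / c := this
    _ = 1 / c * Real.log (1 / (s - 1)) + (C + c ^ 2 * 2) / c := by ring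

/-- **A2 for a cusp form**, from helper15's mean-square literal (as a hypothesis here, so that
this file does not import his). -/
theorem rankinBound_of_cuspForm {N : ℕ} [NeZero N] (ε : DirichletCharacter ℂ N)
    (f : CuspForm (CongruenceSubgroup.Gamma1 N) 1) (h1 : ModularFormClass.qCoeff f 1 = 1)
    (hT : Seam.HeckeRel N ε f)
    (hms : MeanSquareBound (fun n => ModularFormClass.qCoeff f n)) :
    RankinBound N (fun n => ModularFormClass.qCoeff f n) :=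
  rankinBound h1 (weakMul_of_heckeRel hT) hms

end Fermat.Agent.S48.A.RankinLight
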