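/-
S48 part A: the adapter `(B-Z) ⇒ (H1)`: if the weight-2 cusp forms on `Γ₁(M)` are spanned by
forms with integral `q`-expansion, then every field automorphism of `ℂ` acts on them through the
`q`-expansion coefficients.  Also: Rankin's bound for a cusp form, hypothesis-free.
Owner: helper6.
-/
import Fermat.Agent.S48.A.Defs
import Fermat.Agent.S48.A.RankinLight
import Fermat.Agent.S48.A.MeanSquare

set_option autoImplicit false

open CongruenceSubgroup UpperHalfPlane

namespace Fermat.Agent.S48.A.BZConj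

open Fermat.Agent.S48.A

section linear

variable {M : ℕ} {k : ℤ}

theorem qCoeff_add (f g : CuspForm (Gamma1 M) k) (n : ℕ) :
    ModularFormClass.qCoeff (⇑(f + g)) n =
      ModularFormClass.qCoeff f n + ModularFormClass.qCoeff g n := by
  unfold ModularFormClass.qCoeff
  rw [FunLike.coe_add,
    ModularForm.qExpansion_add one_pos (MeanSquare.one_mem_strictPeriods_Gamma1 M) f g,
    map_add]

theorem qCoeff_smul (c : ℂ) (f : CuspForm (Gamma1 M) k) (n : ℕ) :
    ModularFormClass.qCoeff (⇑(c • f)) n = c * ModularFormClass.qCoeff f n := by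
  unfold ModularFormClass.qCoeff
  rw [FunLike.coe_smul,
    ModularForm.qExpansion_smul one_pos (MeanSquare.one_mem_strictPeriods_Gamma1 M) c f,
    PowerSeries.coeff_smul, smul_eq_mul]

theorem qCoeff_zero (n : ℕ) :
    ModularFormClass.qCoeff (⇑(0 : CuspForm (Gamma1 M) k)) n = 0 := by
  unfold ModularFormClass.qCoeff
  rw [FunLike.coe_zero, qExpansion_zero, map_zero]

end linear

/-- **(B-Z) ⇒ (H1)**: conjugation of weight-2 cusp forms on `Γ₁(M)` through `q`-expansions. -/
theorem exists_conj_of_BZ {M : ℕ} (hBZ : BZ M) (σ : ℂ ≃+* ℂ) (h : CuspForm (Gamma1 M) 2) :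
    ∃ h' : CuspForm (Gamma1 M) 2,
      ∀ n : ℕ, ModularFormClass.qCoeff h' n = σ (ModularFormClass.qCoeff h n) := by
  have hmem : h ∈ Submodule.span ℂ {h : CuspForm (Gamma1 M) 2 |
      ∀ n : ℕ, ∃ m : ℤ, ModularFormClass.qCoeff h n = (m : ℂ)} := by
    rw [hBZ]; trivial
  induction hmem using Submodule.span_induction with
  | mem x hx =>
    refine ⟨x, fun n => ?_⟩
    obtain ⟨m, hm⟩ := hx n
    rw [hm, map_intCast]
  | zero =>
    refine ⟨0, fun n => ?_⟩
    rw [qCoeff_zero, map_zero]
  | add x y _ _ hx hy =>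
    obtain ⟨x', hx'⟩ := hx
    obtain ⟨y', hy'⟩ := hy
    refine ⟨x' + y', fun n => ?_⟩
    rw [qCoeff_add, qCoeff_add, map_add, hx', hy']
  | smul c x _ hx =>
    obtain ⟨x', hx'⟩ := hx
    refine ⟨σ c • x', fun n => ?_⟩
    rw [qCoeff_smul, qCoeff_smul, map_mul, hx']

/-- **A2 (Rankin, light form) for the datum of S48**, hypothesis-free. -/
theorem rankinBound_cuspForm (N : ℕ) [NeZero N] (ε : DirichletCharacter ℂ N)
    (f : CuspForm (Gamma1 N) 1) (h1 : ModularFormClass.qCoeff f 1 = 1)
    (hT : Seam.HeckeRel N ε f) :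
    RankinBound N (fun n => ModularFormClass.qCoeff f n) :=
  RankinLight.rankinBound_of_cuspForm ε f h1 hT (MeanSquare.exists_tsum_normSq_qCoeff_le N f)

end Fermat.Agent.S48.A.BZConj
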