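/-
Project D (S48, Deligne–Serre), part A, brick U3 = COMPARISON of two complex two-dimensional
representations of `G_ℚ` of finite level: equal `(trace, det)` at every Frobenius element over
every prime outside a finite set `S` ⇒ equal `(trace, det)` on all of `G_ℚ`, and
`ρ₁ σ = 1 ↔ ρ₂ σ = 1`.  This is `Defs.Compare` (helper6's literal), proved.

Inputs from main: the Frobenius density theorem in the form `S56/Cheb/Dict`
(`exists_prime_forall_frobenius`, division form) and the existence of places and Frobenius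
elements (`Lib/FrobeniusExists`).  The division form suffices: for `2 × 2` matrices the pair
`(trace, det)` of a power is a function of the pair `(trace, det)`.
-/
import Mathlib
import Fermat.Agent.S48.A.Defs
import Fermat.Agent.S56.Cheb.Dict
import Fermat.Agent.Lib.FrobeniusExists

set_option autoImplicit false

namespace Fermat.Agent.S48.A.Compare

open Matrix

/-! ### `2 × 2` matrices -/

section TwoByTwo

variable {R : Type*} [CommRing R]

/-- Cayley–Hamilton for `2 × 2` matrices. -/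
theorem mul_self_eq (M : Matrix (Fin 2) (Fin 2) R) :
    M * M = M.trace • M - M.det • (1 : Matrix (Fin 2) (Fin 2) R) := by
  ext i j
  fin_cases i <;> fin_cases j <;>
    simp [Matrix.mul_apply, Fin.sum_univ_two, Matrix.trace_fin_two, Matrix.det_fin_two] <;> ring

theorem pow_add_two_eq (M : Matrix (Fin 2) (Fin 2) R) (j : ℕ) :
    M ^ (j + 2) = M.trace • M ^ (j + 1) - M.det • M ^ j := by
  have h : M ^ (j + 2) = (M * M) * M ^ j := by
    rw [add_comm j 2, pow_add, pow_two]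
  rw [h, mul_self_eq, sub_mul, smul_mul_assoc, smul_mul_assoc, one_mul, ← pow_succ']

theorem trace_pow_add_two (M : Matrix (Fin 2) (Fin 2) R) (j : ℕ) :
    (M ^ (j + 2)).trace = M.trace * (M ^ (j + 1)).trace - M.det * (M ^ j).trace := by
  rw [pow_add_two_eq, Matrix.trace_sub, Matrix.trace_smul, Matrix.trace_smul, smul_eq_mul,
    smul_eq_mul]

/-- For `2 × 2` matrices the trace of a power is a function of `(trace, det)`. -/
theorem trace_pow_eq_of_eq {M₁ M₂ : Matrix (Fin 2) (Fin 2) R} (ht : M₁.trace = M₂.trace)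
    (hd : M₁.det = M₂.det) (j : ℕ) : (M₁ ^ j).trace = (M₂ ^ j).trace := by
  induction j using Nat.twoStepInduction with
  | zero => simp
  | one => simpa using ht
  | more j ih0 ih1 => rw [trace_pow_add_two, trace_pow_add_two, ht, hd, ih0, ih1]

theorem det_pow_eq_of_eq {M₁ M₂ : Matrix (Fin 2) (Fin 2) R} (hd : M₁.det = M₂.det) (j : ℕ) :
    (M₁ ^ j).det = (M₂ ^ j).det := by
  rw [Matrix.det_pow, Matrix.det_pow, hd]

/-- A `2 × 2` matrix of finite order with trace `2` and determinant `1`, over a torsion-free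
coefficient ring, is the identity. -/
theorem eq_one_of_pow_eq_one [IsDomain R] [CharZero R] {M : Matrix (Fin 2) (Fin 2) R} {n : ℕ}
    (hn : 0 < n) (hM : M ^ n = 1) (ht : M.trace = 2) (hd : M.det = 1) : M = 1 := by
  set Nn : Matrix (Fin 2) (Fin 2) R := M - 1 with hNn
  have hM' : M = 1 + Nn := by rw [hNn]; abel
  have hsq : Nn * Nn = 0 := by
    have h := mul_self_eq M
    rw [ht, hd, one_smul] at h
    rw [hNn, sub_mul, mul_sub, mul_one, one_mul, h, two_smul]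
    abel
  have hpow : ∀ k : ℕ, M ^ k = 1 + (k : R) • Nn := by
    intro k
    induction k with
    | zero => simp
    | succ k ih =>
      rw [pow_succ, ih, hM', mul_add, mul_one, add_mul, one_mul, smul_mul_assoc, hsq, smul_zero,
        add_zero, Nat.cast_succ, add_smul, one_smul]
      abel
  have h1 := hpow n
  rw [hM] at h1
  have h2 : (n : R) • Nn = 0 := by
    have := h1.symm
    rwa [add_eq_left] at this
  have hn' : (n : R) ≠ 0 := by exact_mod_cast hn.ne'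
  have h3 : Nn = 0 := by
    ext i j
    have := congrFun (congrFun h2 i) j
    rw [Matrix.smul_apply, Matrix.zero_apply, smul_eq_mul] at this
    rcases mul_eq_zero.mp this with h | h
    · exact absurd h hn'
    · simpa using h
  rw [hM', h3, add_zero]

end TwoByTwo

/-! ### finite level -/

section Level

local notation "Qb" => AlgebraicClosure ℚ

/-- Two elements of `G_ℚ` that agree on a level of `ρ` have the same image. -/
theorem eq_of_agree {M : Type} [Group M] (ρ : GQ →* M) (L : IntermediateField ℚ Qb)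
    (hker : ∀ σ : GQ, (∀ x ∈ L, σ x = x) → ρ σ = 1) {σ τ : GQ} (h : ∀ x ∈ L, σ x = τ x) :
    ρ σ = ρ τ := by
  have hfix : ∀ x ∈ L, (τ⁻¹ * σ) x = x := by
    intro x hx
    rw [AlgEquiv.mul_apply, h x hx]
    exact τ.symm_apply_apply x
  have h1 := hker _ hfix
  rw [map_mul, map_inv, inv_mul_eq_one] at h1
  exact h1.symm

/-- Finite level implies finite image. -/
theorem finite_range_of_finiteLevel {M : Type} [Group M] (ρ : GQ →* M)
    (h : GaloisFactorsThroughFiniteLevel ρ) : (Set.range ρ).Finite := by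
  obtain ⟨L, hL, hker⟩ := h
  have := hL
  let r : GQ → (L →ₐ[ℚ] Qb) := fun σ => (σ : Qb →ₐ[ℚ] Qb).comp L.val
  have hfac : Function.FactorsThrough (ρ : GQ → M) r := by
    intro σ τ hστ
    refine eq_of_agree ρ L hker fun x hx => ?_
    exact DFunLike.congr_fun hστ ⟨x, hx⟩
  obtain ⟨e, he⟩ := (Function.factorsThrough_iff (ρ : GQ → M)).mp hfac
  rw [he]
  exact (Set.finite_range e).subset (Set.range_comp_subset_range r e)

/-- Every element of the image of a representation of finite level has finite order. -/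
theorem exists_pow_eq_one_of_finiteLevel {M : Type} [Group M] (ρ : GQ →* M)
    (h : GaloisFactorsThroughFiniteLevel ρ) (σ : GQ) : ∃ n : ℕ, 0 < n ∧ ρ σ ^ n = 1 := by
  have : Finite ρ.range := by
    have := (finite_range_of_finiteLevel ρ h).to_subtype
    rwa [← MonoidHom.coe_range] at this
  obtain ⟨n, hn, hx⟩ := isOfFinOrder_iff_pow_eq_one.mp
    (isOfFinOrder_of_finite (⟨ρ σ, σ, rfl⟩ : ρ.range))
  exact ⟨n, hn, by simpa using congrArg Subtype.val hx⟩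

end Level

/-! ### the comparison -/

section Main

local notation "Qb" => AlgebraicClosure ℚ

theorem trace_det_eq (ρ₁ ρ₂ : GQ →* GL (Fin 2) ℂ) (h₁ : GaloisFactorsThroughFiniteLevel ρ₁)
    (h₂ : GaloisFactorsThroughFiniteLevel ρ₂) (S : Finset ℕ)
    (hS : ∀ p : ℕ, p.Prime → p ∉ S → ∀ A : ValuationSubring Qb, A.LiesOverPrime p →
      ∀ σ : GQ, A.IsFrobeniusAt σ p →
        ((ρ₁ σ : GL (Fin 2) ℂ) : Matrix (Fin 2) (Fin 2) ℂ).trace =
          ((ρ₂ σ : GL (Fin 2) ℂ) : Matrix (Fin 2) (Fin 2) ℂ).trace ∧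
        ((ρ₁ σ : GL (Fin 2) ℂ) : Matrix (Fin 2) (Fin 2) ℂ).det =
          ((ρ₂ σ : GL (Fin 2) ℂ) : Matrix (Fin 2) (Fin 2) ℂ).det) (σ : GQ) :
    ((ρ₁ σ : GL (Fin 2) ℂ) : Matrix (Fin 2) (Fin 2) ℂ).trace =
        ((ρ₂ σ : GL (Fin 2) ℂ) : Matrix (Fin 2) (Fin 2) ℂ).trace ∧
      ((ρ₁ σ : GL (Fin 2) ℂ) : Matrix (Fin 2) (Fin 2) ℂ).det =
        ((ρ₂ σ : GL (Fin 2) ℂ) : Matrix (Fin 2) (Fin 2) ℂ).det := by
  obtain ⟨L₁, hL₁, hk₁⟩ := h₁
  obtain ⟨L₂, hL₂, hk₂⟩ := h₂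
  have := hL₁
  have := hL₂
  have : FiniteDimensional ℚ ↥(L₁ ⊔ L₂) := IntermediateField.finiteDimensional_sup L₁ L₂
  obtain ⟨l, hl, hlS, hP⟩ :=
    Fermat.Agent.S56.Cheb.Dict.exists_prime_forall_frobenius (L₁ ⊔ L₂) σ S
  obtain ⟨P, φ, hPl, hφ⟩ :=
    Fermat.Agent.Lib.FrobeniusExists.exists_valuationSubring_isFrobeniusAt l hl
  obtain ⟨-, hfr⟩ := hP P hPl
  obtain ⟨τ, k, j, -, hj⟩ := hfr φ hφ
  have e₁ : ρ₁ (φ ^ j) = ρ₁ (τ * σ * τ⁻¹) :=
    eq_of_agree ρ₁ L₁ hk₁ fun x hx => hj x ((le_sup_left : L₁ ≤ L₁ ⊔ L₂) hx)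
  have e₂ : ρ₂ (φ ^ j) = ρ₂ (τ * σ * τ⁻¹) :=
    eq_of_agree ρ₂ L₂ hk₂ fun x hx => hj x ((le_sup_right : L₂ ≤ L₁ ⊔ L₂) hx)
  obtain ⟨hft, hfd⟩ := hS l hl hlS P hPl φ hφ
  have conj : ∀ ρ : GQ →* GL (Fin 2) ℂ,
      ((ρ (τ * σ * τ⁻¹) : GL (Fin 2) ℂ) : Matrix (Fin 2) (Fin 2) ℂ) =
        ((ρ τ : GL (Fin 2) ℂ) : Matrix (Fin 2) (Fin 2) ℂ) *
          ((ρ σ : GL (Fin 2) ℂ) : Matrix (Fin 2) (Fin 2) ℂ) *
          (((ρ τ)⁻¹ : GL (Fin 2) ℂ) : Matrix (Fin 2) (Fin 2) ℂ) := by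
    intro ρ
    rw [map_mul, map_mul, map_inv]
    rfl
  have pw : ∀ ρ : GQ →* GL (Fin 2) ℂ,
      ((ρ (φ ^ j) : GL (Fin 2) ℂ) : Matrix (Fin 2) (Fin 2) ℂ) =
        ((ρ φ : GL (Fin 2) ℂ) : Matrix (Fin 2) (Fin 2) ℂ) ^ j := by
    intro ρ
    rw [map_pow]
    rfl
  constructor
  · have t₁ := Matrix.trace_units_conj (ρ₁ τ) ((ρ₁ σ : GL (Fin 2) ℂ) : Matrix (Fin 2) (Fin 2) ℂ)
    have t₂ := Matrix.trace_units_conj (ρ₂ τ) ((ρ₂ σ : GL (Fin 2) ℂ) : Matrix (Fin 2) (Fin 2) ℂ)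
    rw [← t₁, ← t₂, ← conj ρ₁, ← conj ρ₂, ← e₁, ← e₂, pw ρ₁, pw ρ₂]
    exact trace_pow_eq_of_eq hft hfd j
  · have t₁ := Matrix.det_units_conj (ρ₁ τ) ((ρ₁ σ : GL (Fin 2) ℂ) : Matrix (Fin 2) (Fin 2) ℂ)
    have t₂ := Matrix.det_units_conj (ρ₂ τ) ((ρ₂ σ : GL (Fin 2) ℂ) : Matrix (Fin 2) (Fin 2) ℂ)
    rw [← t₁, ← t₂, ← conj ρ₁, ← conj ρ₂, ← e₁, ← e₂, pw ρ₁, pw ρ₂]
    exact det_pow_eq_of_eq hfd j

/-- `ρ σ = 1` is detected by `(trace, det) = (2, 1)` for a representation of finite level. -/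
theorem eq_one_iff_trace_det (ρ : GQ →* GL (Fin 2) ℂ) (h : GaloisFactorsThroughFiniteLevel ρ)
    (σ : GQ) :
    ρ σ = 1 ↔ ((ρ σ : GL (Fin 2) ℂ) : Matrix (Fin 2) (Fin 2) ℂ).trace = 2 ∧
      ((ρ σ : GL (Fin 2) ℂ) : Matrix (Fin 2) (Fin 2) ℂ).det = 1 := by
  constructor
  · intro h1
    rw [h1]
    refine ⟨?_, ?_⟩
    · rw [Units.val_one, Matrix.trace_one, Fintype.card_fin]; norm_num
    · rw [Units.val_one, Matrix.det_one]
  · rintro ⟨ht, hd⟩
    obtain ⟨n, hn, hpow⟩ := exists_pow_eq_one_of_finiteLevel ρ h σ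
    have hpow' : ((ρ σ : GL (Fin 2) ℂ) : Matrix (Fin 2) (Fin 2) ℂ) ^ n = 1 := by
      have := congrArg (fun u : GL (Fin 2) ℂ => (u : Matrix (Fin 2) (Fin 2) ℂ)) hpow
      simpa using this
    exact Units.ext (eq_one_of_pow_eq_one hn hpow' ht hd)

/-- **U3**: `Defs.Compare`. -/
theorem compare : Fermat.Agent.S48.A.Compare := by
  intro ρ₁ ρ₂ h₁ h₂ S hS σ
  obtain ⟨ht, hd⟩ := trace_det_eq ρ₁ ρ₂ h₁ h₂ S hS σ
  refine ⟨ht, hd, ?_⟩
  rw [eq_one_iff_trace_det ρ₁ h₁ σ, eq_one_iff_trace_det ρ₂ h₂ σ, ht, hd]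

end Main

end Fermat.Agent.S48.A.Compare
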