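import Mathlib
import Fermat.Agent.S48.A.TameP1.Orbits
import Fermat.Agent.S48.A.TameP1.Proj
import Fermat.Agent.S48.A.TameP1.Count

/-!
# PROJECT D (S48), part A, brick A4, TAME HALF (Deligne-Serre, Prop. 7.2, case `ℓ ∤ |G|`)

`tame_bound` : for ANY field `K`, a finite subgroup `G` of `GL (Fin 2) K` whose order is invertible
in `K`, and a subset `H` of `G` with `(1 - η) |G| ≤ |H|`:
`(1 - 2 η) |G| ≤ 120 * #{(trace h, det h) : h ∈ H}`.

No list of groups is identified.  After passing to an algebraic closure, every element outside the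
scalars `Z` has exactly two fixed points on the projective line; Burnside's count gives a point with
stabiliser of index `≤ 2` (then at most two elements of the stabiliser share a (trace, det)), or
`|G| ≤ 60 |Z|` (then at most two elements of a coset of `Z` share a (trace, det)).
-/

set_option autoImplicit false

namespace Fermat.Agent.S48.A.TameP1

open scoped LinearAlgebra.Projectivization
open Projectivization Matrix

variable {K : Type*} [Field K]

/-- The pair (trace, determinant). -/
def inv2 (g : GL (Fin 2) K) : K × K :=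
  ((g : Matrix (Fin 2) (Fin 2) K).trace, (g : Matrix (Fin 2) (Fin 2) K).det)

theorem pow_card_eq_one_of_mem (G : Subgroup (GL (Fin 2) K)) {g : GL (Fin 2) K} (hg : g ∈ G) :
    g ^ Nat.card G = 1 := by
  have h := pow_card_eq_one' (G := G) (x := ⟨g, hg⟩)
  have h2 := congrArg (Subgroup.subtype G) h
  rwa [map_pow, map_one] at h2

theorem tame_bound_of_isAlgClosed [IsAlgClosed K] [DecidableEq K]
    (G : Subgroup (GL (Fin 2) K)) [Finite G]
    (hG : ((Nat.card G : ℕ) : K) ≠ 0) {η : ℝ} (H : Finset (GL (Fin 2) K))
    (hHG : ∀ h ∈ H, h ∈ G) (hH : (1 - η) * (Nat.card G : ℝ) ≤ H.card) :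
    (1 - 2 * η) * (Nat.card G : ℝ) ≤ 120 * ((H.image inv2).card : ℝ) := by
  classical
  have : Fintype G := Fintype.ofFinite G
  set m := Nat.card G with hm
  have hGm : ∀ g ∈ G, g ^ m = 1 := fun g hg => pow_card_eq_one_of_mem G hg
  have hmpos : 0 < m := Nat.card_pos
  -- `H` as a finset of `G`
  set H' : Finset G := H.subtype (· ∈ G) with hH'
  have hH'card : H'.card = H.card := by
    rw [hH', Finset.card_subtype, Finset.filter_true_of_mem hHG]
  have hH'le : H'.card ≤ m := by
    rw [hm, Nat.card_eq_fintype_card]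
    exact Finset.card_le_univ _
  have hmR : (0 : ℝ) < (m : ℝ) := by exact_mod_cast hmpos
  -- negative `η` is impossible
  by_cases hηneg : η < 0
  · exfalso
    have h1 : (H.card : ℝ) ≤ m := by rw [← hH'card]; exact_mod_cast hH'le
    nlinarith
  have hη0 : 0 ≤ η := not_lt.mp hηneg
  have hMge : (0 : ℝ) ≤ ((H.image inv2).card : ℝ) := Nat.cast_nonneg _
  let f' : G → K × K := fun g => inv2 (g : GL (Fin 2) K)
  have himg : (H'.image f').card ≤ (H.image inv2).card := by
    refine Finset.card_le_card ?_
    intro b hb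
    rw [Finset.mem_image] at hb ⊢
    obtain ⟨g, hg, rfl⟩ := hb
    exact ⟨(g : GL (Fin 2) K), Finset.mem_subtype.mp hg, rfl⟩
  -- the action on the projective line
  let Z : Subgroup G := (MulAction.toPermHom G (ℙ K (Fin 2 → K))).ker
  have hZ : ∀ g : G, g ∈ Z ↔ ∀ x : ℙ K (Fin 2 → K), g • x = x := by
    intro g
    rw [MonoidHom.mem_ker, Equiv.Perm.ext_iff]
    rfl
  have h2 : ∀ g : G, g ∉ Z → (MulAction.fixedBy (ℙ K (Fin 2 → K)) g).ncard = 2 := by
    intro g hg
    rw [hZ] at hg
    exact Proj.ncard_fixedBy (g : GL (Fin 2) K) hG (hGm g g.2) hg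
  rcases Orbits.small_orbit_or_card_le Z hZ h2 with ⟨x, hx⟩ | h60
  · -- a stabiliser of index at most two
    induction x using Projectivization.ind with
    | h v hv =>
      set S := MulAction.stabilizer G (mk K v hv) with hS
      have hFle : (H'.filter (· ∈ S)).card ≤ 2 * ((H'.filter (· ∈ S)).image f').card := by
        refine Finset.card_le_mul_card_image _ 2 ?_
        intro b _
        set T := (H'.filter (· ∈ S)).filter (fun g => f' g = b) with hT
        have hTcard : (T.image (Subtype.val : G → GL (Fin 2) K)).card = T.card :=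
          Finset.card_image_of_injective _ Subtype.val_injective
        rw [← hTcard]
        refine Count.card_le_two_of_eigen G hG hGm hv b.1 b.2 _ ?_
        intro g hg
        rw [Finset.mem_image] at hg
        obtain ⟨g', hg', rfl⟩ := hg
        rw [hT, Finset.mem_filter, Finset.mem_filter] at hg'
        obtain ⟨⟨_, hgS⟩, hgb⟩ := hg'
        refine ⟨g'.2, ?_, ?_, ?_⟩
        · rw [hS, MulAction.mem_stabilizer_iff] at hgS
          exact (Proj.fixed_iff_eigen (g' : GL (Fin 2) K) hv).mp hgS
        · exact congrArg Prod.fst hgb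
        · exact congrArg Prod.snd hgb
      have hFle' : (H'.filter (· ∈ S)).card ≤ 2 * (H.image inv2).card := by
        refine hFle.trans (Nat.mul_le_mul_left 2 (le_trans (Finset.card_le_card ?_) himg))
        exact Finset.image_subset_image (Finset.filter_subset _ _)
      have hNle : (H'.filter (fun g => ¬ g ∈ S)).card + Nat.card S ≤ m := by
        have h1 : (H'.filter (fun g => ¬ g ∈ S)).card ≤
            ((Finset.univ : Finset G).filter (fun g => ¬ g ∈ S)).card :=
          Finset.card_le_card (Finset.filter_subset_filter _ (Finset.subset_univ _))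
        have h2 := Finset.card_filter_add_card_filter_not (s := (Finset.univ : Finset G))
          (fun g : G => g ∈ S)
        have h3 : ((Finset.univ : Finset G).filter (fun g => g ∈ S)).card = Nat.card S := by
          rw [Nat.card_eq_fintype_card, Fintype.card_subtype]
        rw [h3, Finset.card_univ, ← Nat.card_eq_fintype_card, ← hm] at h2
        omega
      have hsplit := Finset.card_filter_add_card_filter_not (s := H') (fun g : G => g ∈ S)
      have e1 : (H.card : ℝ) = ((H'.filter (· ∈ S)).card : ℝ) +
          ((H'.filter (fun g => ¬ g ∈ S)).card : ℝ) := by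
        rw [← hH'card, ← hsplit]
        push_cast
        ring
      have e2 : ((H'.filter (· ∈ S)).card : ℝ) ≤ 2 * ((H.image inv2).card : ℝ) := by
        exact_mod_cast hFle'
      have e3 : ((H'.filter (fun g => ¬ g ∈ S)).card : ℝ) + (Nat.card S : ℝ) ≤ (m : ℝ) := by
        exact_mod_cast hNle
      have e4 : (m : ℝ) ≤ 2 * (Nat.card S : ℝ) := by exact_mod_cast hx
      linarith
  · -- `|G| ≤ 60 |Z|`
    have hidx : Z.index ≤ 60 := by
      have h1 : Nat.card Z * Z.index = Nat.card G := Subgroup.card_mul_index Z
      have hzpos : 0 < Nat.card Z := Nat.card_pos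
      rw [← h1, mul_comm 60] at h60
      exact Nat.le_of_mul_le_mul_left h60 hzpos
    have : Fintype (G ⧸ Z) := Fintype.ofFinite _
    have hcardQ : Fintype.card (G ⧸ Z) ≤ 60 := by
      rw [← Nat.card_eq_fintype_card, ← Subgroup.index_eq_card]
      exact hidx
    have hHle : H'.card ≤ 120 * (H'.image f').card := by
      refine Finset.card_le_mul_card_image _ 120 ?_
      intro b _
      set T := H'.filter (fun g => f' g = b) with hT
      have h1 : T.card ≤ 2 * (T.image (QuotientGroup.mk : G → G ⧸ Z)).card := by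
        refine Finset.card_le_mul_card_image _ 2 ?_
        intro q _
        set U := T.filter (fun g => (QuotientGroup.mk g : G ⧸ Z) = q) with hU
        rcases U.eq_empty_or_nonempty with hemp | ⟨h₀, hh₀⟩
        · rw [hemp]; simp
        have hUcard : (U.image (Subtype.val : G → GL (Fin 2) K)).card = U.card :=
          Finset.card_image_of_injective _ Subtype.val_injective
        rw [← hUcard]
        refine Count.card_le_two_of_scalar (h₀ : GL (Fin 2) K) _ ?_
        intro g hg
        rw [Finset.mem_image] at hg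
        obtain ⟨g', hg', rfl⟩ := hg
        rw [hU, Finset.mem_filter, hT, Finset.mem_filter] at hg' hh₀
        obtain ⟨⟨_, hgb⟩, hgq⟩ := hg'
        obtain ⟨⟨_, hh₀b⟩, hh₀q⟩ := hh₀
        constructor
        · have hmem : h₀⁻¹ * g' ∈ Z := QuotientGroup.eq.mp (hh₀q.trans hgq.symm)
          rw [hZ] at hmem
          obtain ⟨c, hc⟩ := Proj.exists_scalar_of_forall_fixed
            ((h₀⁻¹ * g' : G) : GL (Fin 2) K) hmem
          refine ⟨c, ?_⟩
          have e : (g' : GL (Fin 2) K) = (h₀ : GL (Fin 2) K) * ((h₀⁻¹ * g' : G) : GL (Fin 2) K) := by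
            rw [← Subgroup.coe_mul, mul_inv_cancel_left]
          rw [e, Units.val_mul, hc, Matrix.mul_smul, Matrix.mul_one]
        · have := (congrArg Prod.snd hgb).trans (congrArg Prod.snd hh₀b).symm
          exact this
      have h2 : (T.image (QuotientGroup.mk : G → G ⧸ Z)).card ≤ 60 :=
        (Finset.card_le_univ _).trans hcardQ
      omega
    have e1 : (H.card : ℝ) ≤ 120 * ((H.image inv2).card : ℝ) := by
      rw [← hH'card]
      have : H'.card ≤ 120 * (H.image inv2).card :=
        hHle.trans (Nat.mul_le_mul_left 120 himg)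
      exact_mod_cast this
    nlinarith

/-! ### Passage to an algebraic closure -/

section BaseChange

variable {L : Type*} [Field L] (φ : K →+* L)

theorem coe_glMap_apply (g : GL (Fin 2) K) (i j : Fin 2) :
    ((Matrix.GeneralLinearGroup.map φ g : GL (Fin 2) L) : Matrix (Fin 2) (Fin 2) L) i j =
      φ ((g : Matrix (Fin 2) (Fin 2) K) i j) :=
  Matrix.GeneralLinearGroup.map_apply φ i j g

theorem glMap_injective : Function.Injective (Matrix.GeneralLinearGroup.map (n := Fin 2) φ) := by
  intro g h hgh
  apply Units.ext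
  ext i j
  have := congrArg (fun A : GL (Fin 2) L => (A : Matrix (Fin 2) (Fin 2) L) i j) hgh
  simp only [coe_glMap_apply] at this
  exact φ.injective this

theorem inv2_glMap (g : GL (Fin 2) K) :
    inv2 (Matrix.GeneralLinearGroup.map φ g) = Prod.map φ φ (inv2 g) := by
  simp only [inv2, Matrix.trace_fin_two, Matrix.det_fin_two, coe_glMap_apply, Prod.map_apply,
    map_add, map_sub, map_mul]

end BaseChange

/-- **A4, tame half.**  For any field `K`, a finite subgroup `G` of `GL (Fin 2) K` of order
invertible in `K` and a subset `H` of `G` with `(1 - η) |G| ≤ |H|`: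
`(1 - 2 η) |G| ≤ 120 * #{(trace, det) on H}`. -/
theorem tame_bound [DecidableEq K] (G : Subgroup (GL (Fin 2) K)) [Finite G]
    (hG : ((Nat.card G : ℕ) : K) ≠ 0) {η : ℝ} (H : Finset (GL (Fin 2) K))
    (hHG : ∀ h ∈ H, h ∈ G) (hH : (1 - η) * (Nat.card G : ℝ) ≤ H.card) :
    (1 - 2 * η) * (Nat.card G : ℝ) ≤ 120 * ((H.image fun h : GL (Fin 2) K =>
      ((h : Matrix (Fin 2) (Fin 2) K).trace, (h : Matrix (Fin 2) (Fin 2) K).det)).card : ℝ) := by
  classical
  let L := AlgebraicClosure K
  let φ : K →+* L := algebraMap K L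
  let Φ : GL (Fin 2) K →* GL (Fin 2) L := Matrix.GeneralLinearGroup.map φ
  have hΦ : Function.Injective Φ := glMap_injective φ
  have hcard : Nat.card (G.map Φ) = Nat.card G := Subgroup.card_map_of_injective hΦ
  have hpos : 0 < Nat.card G := Nat.card_pos
  have : Finite (G.map Φ) := Nat.finite_of_card_ne_zero (by rw [hcard]; omega)
  have hG' : ((Nat.card (G.map Φ) : ℕ) : L) ≠ 0 := by
    rw [hcard, ← map_natCast φ]
    exact (map_ne_zero_iff φ φ.injective).mpr hG
  have hmem : ∀ h ∈ H.map ⟨Φ, hΦ⟩, h ∈ G.map Φ := by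
    intro h hh
    rw [Finset.mem_map] at hh
    obtain ⟨g, hg, rfl⟩ := hh
    exact Subgroup.mem_map_of_mem Φ (hHG g hg)
  have hmain := tame_bound_of_isAlgClosed (K := L) (G.map Φ) hG' (H.map ⟨Φ, hΦ⟩) hmem
    (by rw [hcard, Finset.card_map]; exact hH)
  rw [hcard] at hmain
  have himg : ((H.map ⟨Φ, hΦ⟩).image inv2).card = (H.image fun h : GL (Fin 2) K =>
      ((h : Matrix (Fin 2) (Fin 2) K).trace, (h : Matrix (Fin 2) (Fin 2) K).det)).card := by
    have h1 : (H.map ⟨Φ, hΦ⟩).image inv2 = (H.image inv2).image (Prod.map φ φ) := by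
      rw [Finset.map_eq_image, Finset.image_image, Finset.image_image]
      refine Finset.image_congr fun g _ => ?_
      exact inv2_glMap φ g
    rw [h1, Finset.card_image_of_injective _ (Function.Injective.prodMap φ.injective φ.injective)]
    rfl
  rw [himg] at hmain
  exact hmain

end Fermat.Agent.S48.A.TameP1
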