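/-
S48 (Deligne–Serre), PART A, brick A4: the final statement `Defs.FewPolysBound`
(Deligne–Serre, Prop. 7.2) from the wild half (`FewPolys.lean`) and the tame half (`TameP1.lean`).
-/
import Mathlib
import Fermat.Agent.S48.A.Defs
import Fermat.Agent.S48.A.FewPolys
import Fermat.Agent.S48.A.TameP1

set_option autoImplicit false

namespace Fermat.Agent.S48.A.FewPolysFinal

universe u

/-- The tame half, in the shape consumed by `FewPolys.exists_card_bound_of_tame`. -/
theorem tameBound : FewPolys.TameBound.{u} := by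
  intro K _ _ G _ hG η H hHG hH
  have h := TameP1.tame_bound G hG H hHG hH
  convert h

/-- **Deligne–Serre, Prop. 7.2**, any field of characteristic `ℓ`, any decidable equality. -/
theorem exists_card_bound (M : ℕ) {η : ℝ} (hη : η < 1 / 2) :
    ∃ A : ℕ, ∀ (ℓ : ℕ) [Fact ℓ.Prime] (k : Type u) [Field k] [DecidableEq k] [CharP k ℓ]
      (G : Subgroup (GL (Fin 2) k)) [Finite G], SemisimpleLines G →
      (∀ g ∈ G, ∃ n : ℕ, (g : Matrix (Fin 2) (Fin 2) k).trace = (n : k)) →
      ∀ H : Finset (GL (Fin 2) k), (∀ h ∈ H, h ∈ G) →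
        (1 - η) * (Nat.card G : ℝ) ≤ H.card →
        (H.image fun h : GL (Fin 2) k =>
          ((h : Matrix (Fin 2) (Fin 2) k).trace, (h : Matrix (Fin 2) (Fin 2) k).det)).card ≤ M →
        Nat.card G ≤ A :=
  FewPolys.exists_card_bound_of_tame tameBound M hη

/-- **A4**: the record literal of `Defs.lean`. -/
theorem fewPolysBound : FewPolysBound := by
  intro M η _ hη
  obtain ⟨A, hA⟩ := exists_card_bound.{0} M hη
  refine ⟨A, ?_⟩
  intro ℓ _ k _ _ G _ hss htr H hHG hH hM
  classical
  refine hA ℓ k G hss htr H hHG hH ?_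
  convert hM

end Fermat.Agent.S48.A.FewPolysFinal
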