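/-
Project D (S48, Deligne–Serre), part A, brick U8 = IRREDUCIBILITY from the constant `1` in
Rankin's bound (Deligne–Serre §8.7).

`ρ : G_ℚ → GL₂(ℂ)` of finite level whose Frobenius traces are `a p` outside a finite set, with
`a` obeying Rankin's bound `∑_{p ∈ P} log (1 + ‖a p‖² p⁻ˢ) ≤ log (1/(s-1)) + C` (light form,
`Defs.RankinBound`), is irreducible, given Chebotarev's lower bound in the `ε`-form
(`Defs.ChebLower`).

Route: a reducible `ρ` has a common eigenvector; on the finite image `H`, `tr g = c g + d g / c g`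
with `c, d : H →* ℂ` of norm one, so `∑_H ‖tr g‖² = 2 |H| + 2 Re ∑_H (c² / d) ≥ 2 |H|`.
Chebotarev on the conjugation-stable fibres of the trace gives
`∑_{p ∈ U} log (1 + ‖a p‖² p⁻ˢ) ≥ (2 - ε B) log (1/(s-1)) - K₁`, against Rankin's bound.
-/
import Mathlib
import Fermat.Agent.S48.A.Defs
import Fermat.Agent.S48.A.Compare
import Fermat.Agent.Lib.FrobeniusExists

set_option autoImplicit false

namespace Fermat.Agent.S48.A.Irred

open Matrix ComplexConjugate

/-! ### a reducible two-dimensional representation has a common eigenvector -/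

section Eigen

variable {G : Type} [Group G]

theorem exists_eigenvector_of_not_irreducible (ρ : G →* GL (Fin 2) ℂ)
    (h : ¬ (Deformation.matrixRepresentation ρ).IsIrreducible) :
    ∃ v : Fin 2 → ℂ, v ≠ 0 ∧
      ∀ g : G, ∃ c : ℂ, ((ρ g : GL (Fin 2) ℂ) : Matrix (Fin 2) (Fin 2) ℂ).mulVec v = c • v := by
  classical
  set R := Deformation.matrixRepresentation ρ with hR
  have hnt : Nontrivial (Subrepresentation R) := by
    refine ⟨⊥, ⊤, fun hbt => ?_⟩
    have h1 : (⊥ : Subrepresentation R).toSubmodule = (⊤ : Subrepresentation R).toSubmodule := by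
      rw [hbt]
    exact bot_ne_top (α := Submodule ℂ (Fin 2 → ℂ)) h1
  have hex : ∃ W : Subrepresentation R, W ≠ ⊥ ∧ W ≠ ⊤ := by
    by_contra hcon
    push Not at hcon
    apply h
    exact { exists_pair_ne := hnt.exists_pair_ne
            eq_bot_or_eq_top := fun W => by
              by_cases hW : W = ⊥
              · exact Or.inl hW
              · exact Or.inr (hcon W hW) }
  obtain ⟨W, hWbot, hWtop⟩ := hex
  have hWbot' : W.toSubmodule ≠ ⊥ := fun h0 =>
    hWbot (Subrepresentation.toSubmodule_injective h0)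
  have hWtop' : W.toSubmodule ≠ ⊤ := fun h0 =>
    hWtop (Subrepresentation.toSubmodule_injective h0)
  obtain ⟨v, hvW, hv0⟩ := (Submodule.ne_bot_iff _).mp hWbot'
  have hlt := Submodule.finrank_lt hWtop'
  rw [Module.finrank_fintype_fun_eq_card, Fintype.card_fin] at hlt
  have hpos : 0 < Module.finrank ℂ W.toSubmodule := by
    rw [Module.finrank_pos_iff]
    exact ⟨⟨⟨v, hvW⟩, 0, fun h0 => hv0 (congrArg Subtype.val h0)⟩⟩
  have hone : Module.finrank ℂ W.toSubmodule = 1 := by omega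
  have hv0' : (⟨v, hvW⟩ : W.toSubmodule) ≠ 0 := fun h0 => hv0 (congrArg Subtype.val h0)
  have hspan := (finrank_eq_one_iff_of_nonzero' (⟨v, hvW⟩ : W.toSubmodule) hv0').mp hone
  refine ⟨v, hv0, fun g => ?_⟩
  have hmem : R g v ∈ W.toSubmodule := W.apply_mem_toSubmodule g hvW
  obtain ⟨c, hc⟩ := hspan ⟨R g v, hmem⟩
  refine ⟨c, ?_⟩
  have h2 := congrArg Subtype.val hc
  simp only [Submodule.coe_smul] at h2
  rw [h2, hR, Deformation.matrixRepresentation_apply]
  rfl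

end Eigen

/-! ### the mean square of the trace on a finite reducible group -/

section MeanSquare

/-- An eigenvalue `c` of a `2 × 2` matrix satisfies `c² - tr c + det = 0`. -/
theorem eigenvalue_quadratic {M : Matrix (Fin 2) (Fin 2) ℂ} {v : Fin 2 → ℂ} (hv : v ≠ 0) {c : ℂ}
    (hc : M.mulVec v = c • v) : c ^ 2 - M.trace * c + M.det = 0 := by
  have h0 : (M - c • (1 : Matrix (Fin 2) (Fin 2) ℂ)).mulVec v = 0 := by
    rw [Matrix.sub_mulVec, hc, Matrix.smul_mulVec, Matrix.one_mulVec, sub_self]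
  have hdet : (M - c • (1 : Matrix (Fin 2) (Fin 2) ℂ)).det = 0 :=
    Matrix.exists_mulVec_eq_zero_iff.mp ⟨v, hv, h0⟩
  rw [Matrix.det_fin_two] at hdet
  simp only [Matrix.sub_apply, Matrix.smul_apply, Matrix.one_apply_eq, smul_eq_mul, mul_one,
    Matrix.one_apply_ne (show (0 : Fin 2) ≠ 1 by decide),
    Matrix.one_apply_ne (show (1 : Fin 2) ≠ 0 by decide), mul_zero, sub_zero] at hdet
  rw [Matrix.trace_fin_two, Matrix.det_fin_two]
  linear_combination hdet

theorem conj_eq_inv_of_norm_one {z : ℂ} (hz : ‖z‖ = 1) : conj z = z⁻¹ := by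
  have h : z * conj z = 1 := by
    rw [Complex.mul_conj', hz]; norm_num
  exact eq_inv_of_mul_eq_one_right h

/-- `‖c + d / c‖² = 2 + 2 Re (c² / d)` for `c`, `d` of norm one. -/
theorem norm_sq_add_div {c d : ℂ} (hc : ‖c‖ = 1) (hd : ‖d‖ = 1) :
    ‖c + d / c‖ ^ 2 = 2 + 2 * (c ^ 2 * d⁻¹).re := by
  have hc0 : c ≠ 0 := fun h => by rw [h, norm_zero] at hc; exact zero_ne_one hc
  have hd0 : d ≠ 0 := fun h => by rw [h, norm_zero] at hd; exact zero_ne_one hd
  rw [← Complex.normSq_eq_norm_sq, Complex.normSq_add, Complex.normSq_eq_norm_sq,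
    Complex.normSq_eq_norm_sq, norm_div, hc, hd, map_div₀, conj_eq_inv_of_norm_one hc,
    conj_eq_inv_of_norm_one hd]
  have e : c * (d⁻¹ / c⁻¹) = c ^ 2 * d⁻¹ := by
    field_simp
  rw [e]
  norm_num

variable {H : Type} [Group H] [Fintype H]

/-- On a finite group acting on `ℂ²` with a common eigenvector, the mean square of the trace is at
least `2`. -/
theorem two_mul_card_le_sum_norm_sq_trace (r : H →* GL (Fin 2) ℂ) {v : Fin 2 → ℂ} (hv : v ≠ 0)
    (hev : ∀ g : H, ∃ c : ℂ,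
      ((r g : GL (Fin 2) ℂ) : Matrix (Fin 2) (Fin 2) ℂ).mulVec v = c • v) :
    2 * (Fintype.card H : ℝ) ≤
      ∑ g : H, ‖((r g : GL (Fin 2) ℂ) : Matrix (Fin 2) (Fin 2) ℂ).trace‖ ^ 2 := by
  classical
  choose c hc using hev
  have hsmul_inj : ∀ {x y : ℂ}, x • v = y • v → x = y := by
    intro x y hxy
    exact smul_left_injective ℂ hv hxy
  have hc1 : c 1 = 1 := by
    apply hsmul_inj
    rw [← hc 1, map_one, Units.val_one, Matrix.one_mulVec, one_smul]
  have hcmul : ∀ g h : H, c (g * h) = c g * c h := by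
    intro g h
    apply hsmul_inj
    rw [← hc (g * h), map_mul, Units.val_mul, ← Matrix.mulVec_mulVec, hc h, Matrix.mulVec_smul,
      hc g, smul_smul, mul_comm]
  let cm : H →* ℂ := { toFun := c, map_one' := hc1, map_mul' := hcmul }
  let dm : H →* ℂ := (Units.coeHom ℂ).comp (Matrix.GeneralLinearGroup.det.comp r)
  have hdm : ∀ g, dm g = ((r g : GL (Fin 2) ℂ) : Matrix (Fin 2) (Fin 2) ℂ).det := fun g => rfl
  have hnorm : ∀ (f : H →* ℂ) (g : H), ‖f g‖ = 1 := by
    intro f g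
    have h1 : f g ^ orderOf g = 1 := by rw [← map_pow, pow_orderOf_eq_one, map_one]
    have h2 : ‖f g‖ ^ orderOf g = 1 := by rw [← norm_pow, h1, norm_one]
    exact (pow_eq_one_iff_of_nonneg (norm_nonneg _) (orderOf_pos g).ne').mp h2
  have hcg0 : ∀ g, c g ≠ 0 := by
    intro g h0
    have := hnorm cm g
    change ‖c g‖ = 1 at this
    rw [h0, norm_zero] at this
    exact zero_ne_one this
  have htr : ∀ g, ((r g : GL (Fin 2) ℂ) : Matrix (Fin 2) (Fin 2) ℂ).trace = c g + dm g / c g := by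
    intro g
    have hq := eigenvalue_quadratic hv (hc g)
    rw [hdm g]
    field_simp [hcg0 g]
    linear_combination -hq
  let ψ : H →* ℂ :=
    { toFun := fun g => c g ^ 2 * (dm g)⁻¹
      map_one' := by rw [hc1, map_one]; norm_num
      map_mul' := fun g h => by rw [hcmul, map_mul, mul_inv, mul_pow]; ring }
  have hterm : ∀ g, ‖((r g : GL (Fin 2) ℂ) : Matrix (Fin 2) (Fin 2) ℂ).trace‖ ^ 2
      = 2 + 2 * (ψ g).re := by
    intro g
    rw [htr g]
    exact norm_sq_add_div (hnorm cm g) (hnorm dm g)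
  have hsum : 0 ≤ (∑ g : H, ψ g).re := by
    rw [sum_hom_units ψ]
    split_ifs
    · simp
    · simp
  calc 2 * (Fintype.card H : ℝ) ≤ 2 * (Fintype.card H : ℝ) + 2 * (∑ g : H, ψ g).re := by linarith
    _ = ∑ g : H, (2 + 2 * (ψ g).re) := by
        rw [Finset.sum_add_distrib, Finset.sum_const, Finset.card_univ, nsmul_eq_mul,
          ← Finset.mul_sum, Complex.re_sum]
        ring
    _ = ∑ g : H, ‖((r g : GL (Fin 2) ℂ) : Matrix (Fin 2) (Fin 2) ℂ).trace‖ ^ 2 :=
        Finset.sum_congr rfl fun g _ => (hterm g).symm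

end MeanSquare

/-! ### the contradiction with Rankin's bound -/

section Main

local notation "Qb" => AlgebraicClosure ℚ

/-- `x - x² ≤ log (1 + x)` for `x ≥ 0`. -/
theorem sub_sq_le_log {x : ℝ} (hx : 0 ≤ x) : x - x ^ 2 ≤ Real.log (1 + x) := by
  have h1 : (0 : ℝ) < 1 + x := by linarith
  have h2 := Real.one_sub_inv_le_log_of_pos h1
  have h3 : x - x ^ 2 ≤ 1 - (1 + x)⁻¹ := by
    rw [← sub_nonneg]
    have e : 1 - (1 + x)⁻¹ - (x - x ^ 2) = x ^ 3 / (1 + x) := by
      field_simp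
      ring
    rw [e]
    positivity
  linarith

/-- The lower bound for one fibre of the trace. -/
theorem fibre_lower_bound {F : Finset ℕ} (hF : ∀ p ∈ F, p.Prime) {s : ℝ} (hs : 1 < s) (t : ℝ)
    (ht : 0 ≤ t) :
    t * ∑ p ∈ F, 1 / (p : ℝ) ^ s - t ^ 2 * (Real.pi ^ 2 / 6) ≤
      ∑ p ∈ F, Real.log (1 + t / (p : ℝ) ^ s) := by
  have hz2 : ∑ p ∈ F, (1 : ℝ) / (p : ℝ) ^ 2 ≤ Real.pi ^ 2 / 6 :=
    sum_le_hasSum F (fun i _ => by positivity) hasSum_zeta_two
  have hterm : ∀ p ∈ F, t * (1 / (p : ℝ) ^ s) - t ^ 2 * (1 / (p : ℝ) ^ 2) ≤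
      Real.log (1 + t / (p : ℝ) ^ s) := by
    intro p hp
    have hp2 : (2 : ℝ) ≤ (p : ℝ) := by exact_mod_cast (hF p hp).two_le
    have hp0 : (0 : ℝ) < (p : ℝ) := by linarith
    have hps : (p : ℝ) ≤ (p : ℝ) ^ s := by
      have := Real.rpow_le_rpow_of_exponent_le (by linarith : (1 : ℝ) ≤ (p : ℝ)) hs.le
      rwa [Real.rpow_one] at this
    have hpspos : 0 < (p : ℝ) ^ s := Real.rpow_pos_of_pos hp0 s
    have hx : 0 ≤ t / (p : ℝ) ^ s := div_nonneg ht hpspos.le
    have h1 := sub_sq_le_log hx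
    have h2 : (t / (p : ℝ) ^ s) ^ 2 ≤ t ^ 2 * (1 / (p : ℝ) ^ 2) := by
      rw [div_pow, div_eq_mul_one_div (t ^ 2)]
      refine mul_le_mul_of_nonneg_left ?_ (sq_nonneg t)
      exact one_div_le_one_div_of_le (by positivity) (pow_le_pow_left₀ hp0.le hps 2)
    have h3 : t / (p : ℝ) ^ s = t * (1 / (p : ℝ) ^ s) := div_eq_mul_one_div t _
    linarith
  calc t * ∑ p ∈ F, 1 / (p : ℝ) ^ s - t ^ 2 * (Real.pi ^ 2 / 6)
      ≤ t * ∑ p ∈ F, 1 / (p : ℝ) ^ s - t ^ 2 * ∑ p ∈ F, (1 : ℝ) / (p : ℝ) ^ 2 := by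
        have := mul_le_mul_of_nonneg_left hz2 (sq_nonneg t)
        linarith
    _ = ∑ p ∈ F, (t * (1 / (p : ℝ) ^ s) - t ^ 2 * (1 / (p : ℝ) ^ 2)) := by
        rw [Finset.sum_sub_distrib, Finset.mul_sum, Finset.mul_sum]
    _ ≤ ∑ p ∈ F, Real.log (1 + t / (p : ℝ) ^ s) := Finset.sum_le_sum hterm

/-- **U8**: irreducibility from the constant `1` in Rankin's bound. -/
theorem irreducible_of_rankin (hCheb : ChebLower) (N : ℕ) (hN : N ≠ 0) (a : ℕ → ℂ)
    (ρ : GQ →* GL (Fin 2) ℂ) (hρ : GaloisFactorsThroughFiniteLevel ρ) (hR : RankinBound N a)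
    (S : Finset ℕ)
    (htr : ∀ p : ℕ, p.Prime → p ∉ S → ∀ A : ValuationSubring Qb, A.LiesOverPrime p →
      ∀ σ : GQ, A.IsFrobeniusAt σ p →
        ((ρ σ : GL (Fin 2) ℂ) : Matrix (Fin 2) (Fin 2) ℂ).trace = a p) :
    (Deformation.matrixRepresentation ρ).IsIrreducible := by
  classical
  by_contra hirr
  obtain ⟨v, hv, hev⟩ := exists_eigenvector_of_not_irreducible ρ hirr
  -- the finite image
  have hfin : Finite ρ.range := by
    have := (Compare.finite_range_of_finiteLevel ρ hρ).to_subtype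
    rwa [← MonoidHom.coe_range] at this
  let _ : Fintype ρ.range := Fintype.ofFinite _
  have hπsurj : Function.Surjective ρ.rangeRestrict := ρ.rangeRestrict_surjective
  have hπlevel : GaloisFactorsThroughFiniteLevel ρ.rangeRestrict := by
    obtain ⟨L, hL, hker⟩ := hρ
    exact ⟨L, hL, fun σ hσ => Subtype.ext (hker σ hσ)⟩
  have hevH : ∀ g : ρ.range, ∃ c : ℂ,
      ((ρ.range.subtype g : GL (Fin 2) ℂ) : Matrix (Fin 2) (Fin 2) ℂ).mulVec v = c • v := by
    rintro ⟨g, σ, rfl⟩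
    exact hev σ
  have hms := two_mul_card_le_sum_norm_sq_trace ρ.range.subtype hv hevH
  -- the trace on the image and its fibres
  set tr : ρ.range → ℂ :=
    fun g => ((ρ.range.subtype g : GL (Fin 2) ℂ) : Matrix (Fin 2) (Fin 2) ℂ).trace with htrdef
  set Z : Finset ℂ := Finset.univ.image tr with hZ
  set T : ℂ → Set ρ.range := fun z => {g | tr g = z} with hT
  have hTconj : ∀ z : ℂ, ∀ g h : ρ.range, g ∈ T z → h * g * h⁻¹ ∈ T z := by
    intro z g h hg
    have hg' : tr g = z := hg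
    show tr (h * g * h⁻¹) = z
    rw [← hg']
    exact Matrix.trace_units_conj (ρ.range.subtype h : GL (Fin 2) ℂ) _
  have hncard : ∀ z : ℂ, (T z).ncard = (Finset.univ.filter fun g => tr g = z).card := by
    intro z
    rw [← Set.ncard_coe_finset]
    congr 1
    ext g
    simp [hT]
  have hcardpos : (0 : ℝ) < (Nat.card ρ.range : ℝ) := by
    exact_mod_cast Nat.card_pos
  -- the fibrewise mean square
  have hfib : ∑ z ∈ Z, ‖z‖ ^ 2 * ((T z).ncard : ℝ) = ∑ g : ρ.range, ‖tr g‖ ^ 2 := by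
    rw [Finset.sum_comp (fun z : ℂ => ‖z‖ ^ 2) tr]
    refine Finset.sum_congr rfl fun z _ => ?_
    rw [hncard z, nsmul_eq_mul, mul_comm]
  have hms' : 2 * (Nat.card ρ.range : ℝ) ≤ ∑ z ∈ Z, ‖z‖ ^ 2 * ((T z).ncard : ℝ) := by
    rw [hfib, Nat.card_eq_fintype_card]
    exact hms
  -- constants
  set B : ℝ := ∑ z ∈ Z, ‖z‖ ^ 2 with hB
  have hB0 : 0 ≤ B := Finset.sum_nonneg fun z _ => by positivity
  set ε : ℝ := 1 / (2 * (B + 1)) with hε
  have hεpos : 0 < ε := by positivity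
  have hεB : ε * B ≤ 1 / 2 := by
    rw [hε, div_mul_eq_mul_div, one_mul, div_le_iff₀ (by positivity)]
    linarith
  set S' : Finset ℕ := S ∪ N.primeFactors with hS'
  choose C₀ hC₀ using fun z : ℂ =>
    hCheb ρ.range ρ.rangeRestrict hπlevel hπsurj S' (T z) (hTconj z) ε hεpos
  obtain ⟨C, hC⟩ := hR
  set K₁ : ℝ := ∑ z ∈ Z, (‖z‖ ^ 2 * C₀ z + Real.pi ^ 2 / 6 * (‖z‖ ^ 2) ^ 2) with hK₁
  set K : ℝ := C + K₁ with hK
  -- the choice of `s`
  set δ : ℝ := Real.exp (-(2 * |K| + 1)) with hδ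
  have hδpos : 0 < δ := Real.exp_pos _
  have hδlt : δ < 1 := by
    rw [hδ, Real.exp_lt_one_iff]
    have := abs_nonneg K
    linarith
  set s : ℝ := 1 + δ with hs
  have hs1 : 1 < s := by linarith
  have hs2 : s ≤ 2 := by linarith
  set L : ℝ := Real.log (1 / (s - 1)) with hL
  have hLval : L = 2 * |K| + 1 := by
    rw [hL, hs, add_sub_cancel_left, one_div, Real.log_inv, hδ, Real.log_exp, neg_neg]
  have hL0 : 0 ≤ L := by
    rw [hLval]
    have := abs_nonneg K
    linarith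
  choose F hF using fun z : ℂ => hC₀ z s hs1 hs2
  -- the primes of the fibre over `z`
  have hap : ∀ z : ℂ, ∀ p ∈ F z, a p = z ∧ p.Prime ∧ ¬ p ∣ N := by
    intro z p hp
    obtain ⟨hpp, hpS', hA⟩ := (hF z).1 p hp
    have hpS : p ∉ S := fun h => hpS' (Finset.mem_union_left _ h)
    have hpN : ¬ p ∣ N := fun h =>
      hpS' (Finset.mem_union_right _ (Nat.mem_primeFactors.mpr ⟨hpp, h, hN⟩))
    obtain ⟨A, σ, hAp, hσ⟩ :=
      Fermat.Agent.Lib.FrobeniusExists.exists_valuationSubring_isFrobeniusAt p hpp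
    have h1 : tr (ρ.rangeRestrict σ) = z := (hA A hAp).2 σ hσ
    have h2 := htr p hpp hpS A hAp σ hσ
    refine ⟨?_, hpp, hpN⟩
    rw [← h2, ← h1]
    rfl
  have hdisj : (Z : Set ℂ).PairwiseDisjoint F := by
    intro z _ z' _ hzz'
    rw [Function.onFun, Finset.disjoint_left]
    intro p hp hp'
    exact hzz' ((hap z p hp).1.symm.trans (hap z' p hp').1)
  -- Rankin on the union
  have hU : ∀ p ∈ Z.biUnion F, p.Prime ∧ ¬ p ∣ N := by
    intro p hp
    obtain ⟨z, _, hpz⟩ := Finset.mem_biUnion.mp hp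
    exact (hap z p hpz).2
  have hRU := hC s hs1 hs2 (Z.biUnion F) hU
  rw [Finset.sum_biUnion hdisj] at hRU
  -- fibre by fibre
  have hfibre : ∀ z ∈ Z, ‖z‖ ^ 2 * ((((T z).ncard : ℝ) / (Nat.card ρ.range : ℝ) - ε) * L - C₀ z)
      - (‖z‖ ^ 2) ^ 2 * (Real.pi ^ 2 / 6) ≤
      ∑ p ∈ F z, Real.log (1 + ‖a p‖ ^ 2 / (p : ℝ) ^ s) := by
    intro z _
    have h1 := fibre_lower_bound (F := F z) (fun p hp => (hap z p hp).2.1) hs1 (‖z‖ ^ 2)
      (by positivity)
    have h2 : ∑ p ∈ F z, Real.log (1 + ‖a p‖ ^ 2 / (p : ℝ) ^ s)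
        = ∑ p ∈ F z, Real.log (1 + ‖z‖ ^ 2 / (p : ℝ) ^ s) :=
      Finset.sum_congr rfl fun p hp => by rw [(hap z p hp).1]
    rw [h2]
    have h3 := mul_le_mul_of_nonneg_left (hF z).2 (by positivity : (0 : ℝ) ≤ ‖z‖ ^ 2)
    linarith
  have hsum := le_trans (Finset.sum_le_sum hfibre) hRU
  -- reorganise the left-hand side
  have e1 : ∀ z : ℂ, ‖z‖ ^ 2 * ((((T z).ncard : ℝ) / (Nat.card ρ.range : ℝ) - ε) * L - C₀ z)
      - (‖z‖ ^ 2) ^ 2 * (Real.pi ^ 2 / 6)
      = L / (Nat.card ρ.range : ℝ) * (‖z‖ ^ 2 * ((T z).ncard : ℝ)) - ε * L * ‖z‖ ^ 2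
        - (‖z‖ ^ 2 * C₀ z + Real.pi ^ 2 / 6 * (‖z‖ ^ 2) ^ 2) := by
    intro z
    ring
  rw [Finset.sum_congr rfl fun z _ => e1 z, Finset.sum_sub_distrib, Finset.sum_sub_distrib,
    ← Finset.mul_sum, ← Finset.mul_sum] at hsum
  -- the mean square is at least `2`
  have h2L : 2 * L ≤ L / (Nat.card ρ.range : ℝ) * ∑ z ∈ Z, ‖z‖ ^ 2 * ((T z).ncard : ℝ) := by
    have h1 := mul_le_mul_of_nonneg_left hms' (div_nonneg hL0 hcardpos.le)
    have e2 : L / (Nat.card ρ.range : ℝ) * (2 * (Nat.card ρ.range : ℝ)) = 2 * L := by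
      field_simp
    linarith
  have hεBL : ε * L * B ≤ L / 2 := by
    have := mul_le_mul_of_nonneg_right hεB hL0
    nlinarith
  -- conclusion
  have hfinal : L / 2 ≤ K := by
    rw [hK]
    linarith
  rw [hLval] at hfinal
  have := le_abs_self K
  linarith

/-- `Defs.Irred` with the side condition `N ≠ 0` (without it the statement is false: for
`N = 0` Rankin's bound is void). -/
theorem irred_of_ne_zero (hCheb : ChebLower) (N : ℕ) [NeZero N] (a : ℕ → ℂ)
    (ρ : GQ →* GL (Fin 2) ℂ) (hρ : GaloisFactorsThroughFiniteLevel ρ) (hR : RankinBound N a)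
    (hex : ∃ S : Finset ℕ, ∀ p : ℕ, p.Prime → p ∉ S →
      ∀ A : ValuationSubring Qb, A.LiesOverPrime p → ∀ σ : GQ, A.IsFrobeniusAt σ p →
        ((ρ σ : GL (Fin 2) ℂ) : Matrix (Fin 2) (Fin 2) ℂ).trace = a p) :
    (Deformation.matrixRepresentation ρ).IsIrreducible := by
  obtain ⟨S, hS⟩ := hex
  exact irreducible_of_rankin hCheb N (NeZero.ne N) a ρ hρ hR S hS

end Main

end Fermat.Agent.S48.A.Irred
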