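/-
PROJECT D (S48, Deligne–Serre), part A, brick A5b: **THE FINAL ASSEMBLY of Deligne–Serre §8**
(helper29):

  `deligneSerre_of : Seam.ResidualReps → Thin.Main.ThinSet → ChebLower → Seam.DeligneSerre`
  (and `deligneSerre_of_thinQuarter`, the same with the weaker `ThinQuarter`).

The three hypotheses are the three open seams of part A / part B:
* `Seam.ResidualReps`  = `(B*)`, the residual representations of a weight-one eigenform (part B);
* `Thin.Main.ThinSet`  = Deligne–Serre Prop. 5.5 (helper19's `Thin/Main.lean` proves it from the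
  conjugates A3 and the Rankin bound A2);
* `ChebLower`          = Chebotarev's theorem, lower bound in logarithmic density, `ε`-form (A6).
Everything else is proved: the Rankin bound (`BZConj.rankinBound_cuspForm`), the group theory
(`FewPolys`, `TameP1`, `FewPolysFinal.tameBound`), the `ℓ`-adic frame and the lift (`PadicFrame`,
`LiftPadic`), the comparison of two lifts (`Compare.compare`), irreducibility
(`Irred.irreducible_of_rankin`) and the files `Assemble/*` of this brick.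

Route: (8.2)–(8.3) `Uniform.exists_uniform`; (8.4) `Finite.exists_roots`; (8.5) `Lift.exists_lift`
at two primes `ℓ₁ < ℓ₂`; `p = ℓ₁` is recovered from the second lift by `Compare.compare`;
(8.6) `Irred.irreducible_of_rankin`.
-/
import Mathlib
import Fermat.Agent.S48.Seam
import Fermat.Agent.S48.A.Defs
import Fermat.Agent.S48.A.BZConj
import Fermat.Agent.S48.A.Compare
import Fermat.Agent.S48.A.Irred
import Fermat.Agent.S48.A.FewPolysFinal
import Fermat.Agent.S48.A.Thin.Main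
import Fermat.Agent.S48.A.Assemble.Lift

set_option autoImplicit false

noncomputable section

namespace Fermat.Agent.S48.A.Assemble

open Matrix CongruenceSubgroup

local notation "Qb" => AlgebraicClosure ℚ

/-- a prime `p ∤ N` different from the prime `ℓ` does not divide `N ℓ` -/
theorem not_dvd_mul_of_ne {N p ℓ : ℕ} (hp : p.Prime) (hℓ : ℓ.Prime) (hpN : ¬ p ∣ N)
    (hne : p ≠ ℓ) : ¬ p ∣ N * ℓ := by
  intro h
  rcases (Nat.Prime.dvd_mul hp).mp h with h1 | h1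
  · exact hpN h1
  · exact hne ((Nat.prime_dvd_prime_iff_eq hp hℓ).mp h1)

/-- the only consequence of Deligne–Serre Prop. 5.5 that the assembly uses: off a set of primes of
upper logarithmic density `≤ 1 / 4` the `a_p` take finitely many values -/
def ThinQuarter : Prop :=
  ∀ (N : ℕ) [NeZero N] (ε : DirichletCharacter ℂ N) (f : CuspForm (Gamma1 N) 1),
    ModularFormClass.qCoeff f 1 = 1 → Seam.HeckeRel N ε f →
    ∃ Y : Finset ℂ, UpperLogDensityLE {p | ¬ p ∣ N ∧ ModularFormClass.qCoeff f p ∉ Y} (1 / 4)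

/-- `Thin.Main.ThinSet` (helper19's literal) gives `ThinQuarter` -/
theorem thinQuarter_of_thinSet (hThin : Thin.Main.ThinSet) : ThinQuarter := by
  intro N _ ε f hf₁ hT
  obtain ⟨Y, C, hYC⟩ := hThin N ε f hf₁ hT (1 / 4) (by norm_num)
  exact ⟨Y, C, fun s hs1 hs2 P hP => hYC s hs1 hs2 P fun p hp => ⟨(hP p hp).1, (hP p hp).2⟩⟩

/-- **PART A of PROJECT D: the seam `(B*)`, the thin set and Chebotarev give Deligne–Serre.** -/
theorem deligneSerre_of_thinQuarter (hB : Seam.ResidualReps) (hThin : ThinQuarter)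
    (hCheb : ChebLower) : Seam.DeligneSerre := by
  intro N _ ε f hf₁ hT
  -- the thin set with `η = 1 / 4`
  obtain ⟨Y, hY⟩ := hThin N ε f hf₁ hT
  -- (8.3), (8.4)
  obtain ⟨B₁, m, hm, hU⟩ :=
    Uniform.exists_uniform hB hCheb FewPolysFinal.tameBound N ε f hf₁ hT Y hY
  have hroots : ∀ p : ℕ, p.Prime → ¬ p ∣ N → ∃ ζ₁ ζ₂ : Zbar, ζ₁ ^ m = 1 ∧ ζ₂ ^ m = 1 ∧
      ModularFormClass.qCoeff f p = (ζ₁ : ℂ) + (ζ₂ : ℂ) ∧
      ε (p : ZMod N) = (ζ₁ : ℂ) * (ζ₂ : ℂ) :=
    fun p hp hpN => Finite.exists_roots hm hU hp hpN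
  -- (8.5) at two primes
  obtain ⟨ℓ₁, hℓ₁, -, ρ₁, hlev₁, hρ₁⟩ := Lift.exists_lift hm hU hroots 0
  obtain ⟨ℓ₂, hℓ₂, hlt₂, ρ₂, hlev₂, hρ₂⟩ := Lift.exists_lift hm hU hroots ℓ₁
  have hne : ℓ₁ ≠ ℓ₂ := by omega
  have hN0 : N ≠ 0 := NeZero.ne N
  -- the two lifts have the same (trace, det) and the same kernel
  have hcmp := Compare.compare ρ₁ ρ₂ hlev₁ hlev₂ (N * ℓ₁ * ℓ₂).primeFactors (by
    intro p hp hpS A hA σ hσ
    have hnd : ¬ p ∣ N * ℓ₁ * ℓ₂ := fun hdvd => hpS (Nat.mem_primeFactors.mpr ⟨hp, hdvd,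
      Nat.mul_ne_zero (Nat.mul_ne_zero hN0 hℓ₁.ne_zero) hℓ₂.ne_zero⟩)
    have h1 : ¬ p ∣ N * ℓ₁ := fun h => hnd (Dvd.dvd.mul_right h ℓ₂)
    have h2 : ¬ p ∣ N * ℓ₂ := fun h => hnd (by
      rw [Nat.mul_right_comm]
      exact Dvd.dvd.mul_right h ℓ₁)
    obtain ⟨ht1, hd1⟩ := (hρ₁ p hp h1 A hA).2 σ hσ
    obtain ⟨ht2, hd2⟩ := (hρ₂ p hp h2 A hA).2 σ hσ
    exact ⟨ht1.trans ht2.symm, hd1.trans hd2.symm⟩)
  refine ⟨ρ₁, hlev₁, ?_, fun p hp hpN A hA => ?_⟩
  · -- (8.6) irreducibility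
    refine Irred.irreducible_of_rankin hCheb N hN0 (fun n => ModularFormClass.qCoeff f n) ρ₁ hlev₁
      (BZConj.rankinBound_cuspForm N ε f hf₁ hT) (N * ℓ₁).primeFactors ?_
    intro p hp hpS A hA σ hσ
    have h1 : ¬ p ∣ N * ℓ₁ := fun hdvd => hpS (Nat.mem_primeFactors.mpr ⟨hp, hdvd,
      Nat.mul_ne_zero hN0 hℓ₁.ne_zero⟩)
    exact ((hρ₁ p hp h1 A hA).2 σ hσ).1
  · by_cases hpℓ : p = ℓ₁
    · -- `p = ℓ₁` is recovered from the second lift
      have h2 : ¬ p ∣ N * ℓ₂ := not_dvd_mul_of_ne hp hℓ₂ hpN (by rw [hpℓ]; exact hne)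
      refine ⟨fun σ hσ => ((hcmp σ).2.2).mpr ((hρ₂ p hp h2 A hA).1 σ hσ), fun σ hσ => ?_⟩
      obtain ⟨ht2, hd2⟩ := (hρ₂ p hp h2 A hA).2 σ hσ
      exact ⟨(hcmp σ).1.trans ht2, (hcmp σ).2.1.trans hd2⟩
    · exact hρ₁ p hp (not_dvd_mul_of_ne hp hℓ₁ hpN hpℓ) A hA

/-- **PART A of PROJECT D**, with helper19's literal `Thin.Main.ThinSet`. -/
theorem deligneSerre_of (hB : Seam.ResidualReps) (hThin : Thin.Main.ThinSet)
    (hCheb : ChebLower) : Seam.DeligneSerre :=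
  deligneSerre_of_thinQuarter hB (thinQuarter_of_thinSet hThin) hCheb

end Fermat.Agent.S48.A.Assemble

end
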