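/-
Project D (S48, Deligne–Serre), part A, brick A2b: the POSITIVITY half of Rankin's estimate
(Deligne–Serre, Formes modulaires de poids 1, §5.1), at the level of SEQUENCES.

Input: a sequence `a : ℕ → ℂ` with `a 1 = 1` obeying the Hecke relations away from `N` with a
sequence `e` of norm one (`hT`, the S48 literal), and the mean-square bound
`∑ ‖a n‖² n⁻ˢ ≤ C s / (s - 1)` for `s > 1` (brick A2a).
Output: `∑_{p ∈ P} ‖a p‖² p⁻ˢ ≤ log (1 / (s - 1)) + C'` for `1 < s ≤ 2`, uniformly in the finite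
set `P` of primes not dividing `N`; the constant in front of the logarithm is exactly `1`.

Route: no closed form for the Satake parameters and no complex logarithm.  The squared norms
`c m = ‖a (p ^ m)‖²` obey an order-four recurrence with palindromic characteristic polynomial
`P(x) = 1 - t x + (w - 2) x² - t x³ + x⁴ = (1 - S x + x²) (1 - r x + x²)`, `-2 ≤ r ≤ 2 ≤ S`,
`S + r = t = ‖a p‖²`, so that `F(x) P(x) = 1 - x²` for `F(x) = ∑ c m x ^ m`, and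
`1 + y ≤ exp y` on both quadratic factors gives `log F(x) ≥ t x - 4 x²`.  Mathlib's Euler
product for multiplicative functions finishes.
-/
import Mathlib

namespace Fermat.Agent.S48.A.RankinPos

open ComplexConjugate

/-! ### (b) the order-four recurrence for the squared norms -/

/-- One step of the tensor-square recurrence, over `ℂ` (conjugates written out). -/
theorem step_complex (X Y a e : ℂ) (he : e * conj e = 1) :
    (a * (a * (a * Y - e * X) - e * Y) - e * (a * Y - e * X)) *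
        conj (a * (a * (a * Y - e * X) - e * Y) - e * (a * Y - e * X)) =
      (a * conj a) * ((a * (a * Y - e * X) - e * Y) * conj (a * (a * Y - e * X) - e * Y))
        - ((conj e * a ^ 2 + e * conj a ^ 2) - 2) * ((a * Y - e * X) * conj (a * Y - e * X))
        + (a * conj a) * (Y * conj Y) - X * conj X := by
  simp only [map_sub, map_mul]
  generalize conj X = X' at *
  generalize conj Y = Y' at *
  generalize conj a = a' at *
  generalize conj e = e' at *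
  have he0 : e ≠ 0 := by
    rintro rfl
    rw [zero_mul] at he
    exact zero_ne_one he
  have he' : e' = e⁻¹ := eq_inv_of_mul_eq_one_right he
  subst he'
  field_simp
  ring

/-- The real number `w = 2 Re (ē a²)`. -/
noncomputable def ww (a e : ℂ) : ℝ := 2 * (conj e * a ^ 2).re

theorem ww_cast (a e : ℂ) : ((ww a e : ℝ) : ℂ) = conj e * a ^ 2 + e * conj a ^ 2 := by
  have h := Complex.add_conj (conj e * a ^ 2)
  rw [map_mul, map_pow, Complex.conj_conj] at h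
  rw [ww, ← h]

theorem abs_ww_le (a e : ℂ) (he : ‖e‖ = 1) : |ww a e| ≤ 2 * ‖a‖ ^ 2 := by
  have h1 : |(conj e * a ^ 2).re| ≤ ‖conj e * a ^ 2‖ := Complex.abs_re_le_norm _
  have h2 : ‖conj e * a ^ 2‖ = ‖a‖ ^ 2 := by
    rw [norm_mul, Complex.norm_conj, he, one_mul, norm_pow]
  rw [ww, abs_mul, abs_of_pos (by norm_num : (0 : ℝ) < 2)]
  rw [h2] at h1
  linarith

theorem mul_conj_of_norm_one {e : ℂ} (he : ‖e‖ = 1) : e * conj e = 1 := by
  rw [Complex.mul_conj', he]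
  norm_num

/-- One step of the recurrence, in real form. -/
theorem step_real (X Y a e : ℂ) (he : ‖e‖ = 1) :
    ‖a * (a * (a * Y - e * X) - e * Y) - e * (a * Y - e * X)‖ ^ 2 =
      ‖a‖ ^ 2 * ‖a * (a * Y - e * X) - e * Y‖ ^ 2 - (ww a e - 2) * ‖a * Y - e * X‖ ^ 2
        + ‖a‖ ^ 2 * ‖Y‖ ^ 2 - ‖X‖ ^ 2 := by
  have h := step_complex X Y a e (mul_conj_of_norm_one he)
  rw [← ww_cast] at h
  simp only [Complex.mul_conj'] at h
  exact_mod_cast h

section Sequence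

variable {a e : ℂ} {u : ℕ → ℂ}

theorem normSq_rec (he : ‖e‖ = 1) (hu : ∀ m, u (m + 2) = a * u (m + 1) - e * u m) (m : ℕ) :
    ‖u (m + 4)‖ ^ 2 = ‖a‖ ^ 2 * ‖u (m + 3)‖ ^ 2 - (ww a e - 2) * ‖u (m + 2)‖ ^ 2
      + ‖a‖ ^ 2 * ‖u (m + 1)‖ ^ 2 - ‖u m‖ ^ 2 := by
  have h2 : u (m + 2) = a * u (m + 1) - e * u m := hu m
  have h3 : u (m + 3) = a * (a * u (m + 1) - e * u m) - e * u (m + 1) := by
    rw [← h2]; exact hu (m + 1)
  have h4 : u (m + 4) = a * (a * (a * u (m + 1) - e * u m) - e * u (m + 1))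
      - e * (a * u (m + 1) - e * u m) := by
    rw [← h3, ← h2]; exact hu (m + 2)
  rw [h4, h3, h2]
  exact step_real (u m) (u (m + 1)) a e he

theorem normSq_zero (hu0 : u 0 = 1) : ‖u 0‖ ^ 2 = 1 := by
  rw [hu0]; norm_num

theorem normSq_one (hu1 : u 1 = a) : ‖u 1‖ ^ 2 = ‖a‖ ^ 2 := by
  rw [hu1]

theorem normSq_two (he : ‖e‖ = 1) (hu0 : u 0 = 1) (hu1 : u 1 = a)
    (hu : ∀ m, u (m + 2) = a * u (m + 1) - e * u m) :
    ‖u 2‖ ^ 2 = (‖a‖ ^ 2) ^ 2 - ww a e + 1 := by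
  have h := step_real (-conj e) 0 a e he
  have hee := mul_conj_of_norm_one he
  have e1 : a * (0 : ℂ) - e * -conj e = 1 := by linear_combination hee
  rw [e1] at h
  have e2 : a * (1 : ℂ) - e * 0 = a := by ring
  rw [e2] at h
  have h2 : u 2 = a * a - e * 1 := by
    have := hu 0
    rw [hu0, hu1] at this
    simpa using this
  rw [h2, h]
  simp only [norm_zero, norm_neg, Complex.norm_conj, he, norm_one]
  ring

theorem normSq_three (he : ‖e‖ = 1) (hu0 : u 0 = 1) (hu1 : u 1 = a)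
    (hu : ∀ m, u (m + 2) = a * u (m + 1) - e * u m) :
    ‖u 3‖ ^ 2 = ‖a‖ ^ 2 * ‖u 2‖ ^ 2 - (ww a e - 2) * ‖a‖ ^ 2 + ‖a‖ ^ 2 := by
  have h := step_real 0 1 a e he
  have e1 : a * (1 : ℂ) - e * 0 = a := by ring
  rw [e1] at h
  have h2 : u 2 = a * a - e * 1 := by
    have := hu 0
    rw [hu0, hu1] at this
    simpa using this
  have h3 : u 3 = a * (a * a - e * 1) - e * a := by
    have := hu 1
    rw [show (1 : ℕ) + 2 = 3 from rfl, show (1 : ℕ) + 1 = 2 from rfl, h2, hu1] at this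
    exact this
  rw [h3, h2, h]
  simp only [norm_zero, norm_one]
  ring

/-- The generating function identity `F(x) P(x) = 1 - x²`. -/
theorem series_identity (he : ‖e‖ = 1) (hu0 : u 0 = 1) (hu1 : u 1 = a)
    (hu : ∀ m, u (m + 2) = a * u (m + 1) - e * u m) {x : ℝ}
    (hs : Summable fun m : ℕ => ‖u m‖ ^ 2 * x ^ m) :
    (∑' m : ℕ, ‖u m‖ ^ 2 * x ^ m) *
      (1 - ‖a‖ ^ 2 * x + (ww a e - 2) * x ^ 2 - ‖a‖ ^ 2 * x ^ 3 + x ^ 4) = 1 - x ^ 2 := by
  set f : ℕ → ℝ := fun m => ‖u m‖ ^ 2 * x ^ m with hf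
  set F : ℝ := ∑' m : ℕ, f m with hFdef
  have hF : HasSum f F := hs.hasSum
  have k1 := (hasSum_nat_add_iff' 1).mpr hF
  have k2 := (hasSum_nat_add_iff' 2).mpr hF
  have k3 := (hasSum_nat_add_iff' 3).mpr hF
  have k4 := (hasSum_nat_add_iff' 4).mpr hF
  have hrec : ∀ m, f (m + 4) = ‖a‖ ^ 2 * x * f (m + 3) - (ww a e - 2) * x ^ 2 * f (m + 2)
      + ‖a‖ ^ 2 * x ^ 3 * f (m + 1) - x ^ 4 * f m := by
    intro m
    simp only [hf]
    rw [normSq_rec he hu m]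
    ring
  have k4' : HasSum (fun m => f (m + 4))
      (‖a‖ ^ 2 * x * (F - ∑ i ∈ Finset.range 3, f i)
        - (ww a e - 2) * x ^ 2 * (F - ∑ i ∈ Finset.range 2, f i)
        + ‖a‖ ^ 2 * x ^ 3 * (F - ∑ i ∈ Finset.range 1, f i) - x ^ 4 * F) := by
    have := (((k3.mul_left (‖a‖ ^ 2 * x)).sub (k2.mul_left ((ww a e - 2) * x ^ 2))).add
      (k1.mul_left (‖a‖ ^ 2 * x ^ 3))).sub (hF.mul_left (x ^ 4))
    rw [show (fun m => f (m + 4)) = _ from funext hrec]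
    exact this
  have huniq := k4.unique k4'
  have c0 : f 0 = 1 := by simp [hf, hu0]
  have c1 : f 1 = ‖a‖ ^ 2 * x := by simp [hf, hu1]
  have c2 : f 2 = ((‖a‖ ^ 2) ^ 2 - ww a e + 1) * x ^ 2 := by
    simp only [hf]; rw [normSq_two he hu0 hu1 hu]
  have c3 : f 3 = (‖a‖ ^ 2 * ((‖a‖ ^ 2) ^ 2 - ww a e + 1) - (ww a e - 2) * ‖a‖ ^ 2 + ‖a‖ ^ 2)
      * x ^ 3 := by
    simp only [hf]; rw [normSq_three he hu0 hu1 hu, normSq_two he hu0 hu1 hu]
  simp only [Finset.sum_range_succ, Finset.sum_range_zero, zero_add, c0, c1, c2, c3] at huniq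
  linear_combination huniq

end Sequence

/-! ### (c) the palindromic quartic is below an exponential -/

/-- `exp (-2y) ≤ 1 - y` for `0 ≤ y ≤ 1/2`. -/
theorem exp_neg_two_mul_le' {y : ℝ} (hy0 : 0 ≤ y) (hy : y ≤ 1 / 2) :
    Real.exp (-(2 * y)) ≤ 1 - y := by
  rw [Real.exp_neg, inv_le_iff_one_le_mul₀ (Real.exp_pos _)]
  have h1 := Real.add_one_le_exp (2 * y)
  have h2 : 0 ≤ 1 - y := by linarith
  calc (1 : ℝ) ≤ (1 - y) * (2 * y + 1) := by nlinarith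
    _ ≤ (1 - y) * Real.exp (2 * y) := mul_le_mul_of_nonneg_left h1 h2

/-- The quartic `1 - t x + (w - 2) x² - t x³ + x⁴ = (1 - S x + x²) (1 - r x + x²)` with
`-2 ≤ r ≤ 2 ≤ S`, `S + r = t`, is at most `exp (- t x + 2 x²)` where it is positive. -/
theorem quartic_le_exp {t w x : ℝ} (hw : |w| ≤ 2 * t) (hx0 : 0 < x) (hx : x ≤ 1 / 2)
    (hP : 0 < 1 - t * x + (w - 2) * x ^ 2 - t * x ^ 3 + x ^ 4) :
    1 - t * x + (w - 2) * x ^ 2 - t * x ^ 3 + x ^ 4 ≤ Real.exp (-(t * x) + 2 * x ^ 2) := by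
  obtain ⟨hw1, hw2⟩ := abs_le.mp hw
  have hD : 0 ≤ t ^ 2 - 4 * w + 16 := by nlinarith [sq_nonneg (t - 4)]
  set d : ℝ := Real.sqrt (t ^ 2 - 4 * w + 16) with hd
  have hd0 : 0 ≤ d := Real.sqrt_nonneg _
  have hdd : d * d = t ^ 2 - 4 * w + 16 := Real.mul_self_sqrt hD
  set r : ℝ := (t - d) / 2 with hr
  set S : ℝ := (t + d) / 2 with hS
  have hSr : S + r = t := by rw [hS, hr]; ring
  have hSr' : S * r = w - 4 := by
    rw [hS, hr]
    linear_combination (-1 / 4 : ℝ) * hdd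
  -- `r ≤ 2`
  have hr2 : r ≤ 2 := by
    have : t - 4 ≤ d := by
      by_contra hcon
      push Not at hcon
      have h0 : 0 ≤ t - 4 := le_trans hd0 hcon.le
      nlinarith
    rw [hr]; linarith
  -- `-2 ≤ r`
  have hr2' : -2 ≤ r := by
    have : d ≤ t + 4 := by
      by_contra hcon
      push Not at hcon
      have ht4 : 0 ≤ t + 4 := by linarith
      nlinarith
    rw [hr]; linarith
  have hfac : 1 - t * x + (w - 2) * x ^ 2 - t * x ^ 3 + x ^ 4
      = (1 - S * x + x ^ 2) * (1 - r * x + x ^ 2) := by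
    have e1 : w - 2 = S * r + 2 := by rw [hSr']; ring
    rw [e1, ← hSr]; ring
  have hB : 0 < 1 - r * x + x ^ 2 := by
    have : r * x ≤ 2 * x := mul_le_mul_of_nonneg_right hr2 hx0.le
    nlinarith [sq_nonneg (1 - x)]
  have hA : 0 < 1 - S * x + x ^ 2 := by
    rw [hfac] at hP
    exact (pos_iff_pos_of_mul_pos hP).mpr hB
  have hA' : 1 - S * x + x ^ 2 ≤ Real.exp (-(S * x) + x ^ 2) := by
    have := Real.add_one_le_exp (-(S * x) + x ^ 2)
    linarith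
  have hB' : 1 - r * x + x ^ 2 ≤ Real.exp (-(r * x) + x ^ 2) := by
    have := Real.add_one_le_exp (-(r * x) + x ^ 2)
    linarith
  rw [hfac]
  calc (1 - S * x + x ^ 2) * (1 - r * x + x ^ 2)
      ≤ Real.exp (-(S * x) + x ^ 2) * Real.exp (-(r * x) + x ^ 2) :=
        mul_le_mul hA' hB' hB.le (Real.exp_pos _).le
    _ = Real.exp (-(t * x) + 2 * x ^ 2) := by
        rw [← Real.exp_add, ← hSr]; ring_nf

/-! ### the local bound -/

section Local

variable {a e : ℂ} {u : ℕ → ℂ}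

theorem one_le_series (hu0 : u 0 = 1) {x : ℝ} (hx0 : 0 ≤ x)
    (hs : Summable fun m : ℕ => ‖u m‖ ^ 2 * x ^ m) :
    1 ≤ ∑' m : ℕ, ‖u m‖ ^ 2 * x ^ m := by
  have h := hs.le_tsum 0 (fun j _ => by positivity)
  simpa [hu0] using h

/-- The local estimate `‖a‖² x ≤ log F(x) + 4 x²`. -/
theorem local_bound (he : ‖e‖ = 1) (hu0 : u 0 = 1) (hu1 : u 1 = a)
    (hu : ∀ m, u (m + 2) = a * u (m + 1) - e * u m) {x : ℝ} (hx0 : 0 < x) (hx : x ≤ 1 / 2)
    (hs : Summable fun m : ℕ => ‖u m‖ ^ 2 * x ^ m) :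
    ‖a‖ ^ 2 * x ≤ Real.log (∑' m : ℕ, ‖u m‖ ^ 2 * x ^ m) + 4 * x ^ 2 := by
  set F : ℝ := ∑' m : ℕ, ‖u m‖ ^ 2 * x ^ m with hF
  have hF1 : 1 ≤ F := one_le_series hu0 hx0.le hs
  have hF0 : 0 < F := lt_of_lt_of_le one_pos hF1
  have hid := series_identity he hu0 hu1 hu hs
  rw [← hF] at hid
  set P : ℝ := 1 - ‖a‖ ^ 2 * x + (ww a e - 2) * x ^ 2 - ‖a‖ ^ 2 * x ^ 3 + x ^ 4 with hPdef
  have hx2 : x ^ 2 ≤ 1 / 4 := by nlinarith
  have h1x : 0 < 1 - x ^ 2 := by linarith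
  have hP0 : 0 < P := by
    have : 0 < F * P := by rw [hid]; exact h1x
    exact (pos_iff_pos_of_mul_pos this).mp hF0
  have hPle : P ≤ Real.exp (-(‖a‖ ^ 2 * x) + 2 * x ^ 2) :=
    quartic_le_exp (abs_ww_le a e he) hx0 hx hP0
  have hexp : Real.exp (‖a‖ ^ 2 * x - 4 * x ^ 2) ≤ F := by
    have h2 : Real.exp (-(2 * x ^ 2)) ≤ 1 - x ^ 2 :=
      exp_neg_two_mul_le' (sq_nonneg x) (by linarith)
    have h3 : Real.exp (‖a‖ ^ 2 * x - 4 * x ^ 2) * P ≤ F * P := by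
      calc Real.exp (‖a‖ ^ 2 * x - 4 * x ^ 2) * P
          ≤ Real.exp (‖a‖ ^ 2 * x - 4 * x ^ 2) * Real.exp (-(‖a‖ ^ 2 * x) + 2 * x ^ 2) :=
            mul_le_mul_of_nonneg_left hPle (Real.exp_pos _).le
        _ = Real.exp (-(2 * x ^ 2)) := by rw [← Real.exp_add]; ring_nf
        _ ≤ 1 - x ^ 2 := h2
        _ = F * P := hid.symm
    exact le_of_mul_le_mul_right h3 hP0
  have := (Real.le_log_iff_exp_le hF0).mpr hexp
  linarith

end Local

/-! ### (a) formal consequences of the Hecke relations -/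

section Hecke

variable {N : ℕ} {a e : ℕ → ℂ}

/-- The Hecke relations away from `N`, verbatim the hypothesis `hT` of S48 for the sequences
`a` and `e`. -/
def HeckeRelSeq (N : ℕ) (a e : ℕ → ℂ) : Prop :=
  ∀ p : ℕ, p.Prime → ¬ p ∣ N → ∀ n : ℕ,
    a (p * n) + e p * (if p ∣ n then a (n / p) else 0) = a p * a n

theorem prime_pow_rec (hT : HeckeRelSeq N a e) {p : ℕ} (hp : p.Prime) (hpN : ¬ p ∣ N) (m : ℕ) :
    a (p ^ (m + 2)) = a p * a (p ^ (m + 1)) - e p * a (p ^ m) := by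
  have h := hT p hp hpN (p ^ (m + 1))
  rw [if_pos (dvd_pow_self p (Nat.succ_ne_zero m)), ← pow_succ' p (m + 1)] at h
  have hdiv : p ^ (m + 1) / p = p ^ m := by
    rw [pow_succ' p m]; exact Nat.mul_div_cancel_left _ hp.pos
  rw [hdiv] at h
  linear_combination h

theorem prime_pow_mul (h1 : a 1 = 1) (hT : HeckeRelSeq N a e) {p : ℕ} (hp : p.Prime)
    (hpN : ¬ p ∣ N) {n : ℕ} (hn : ¬ p ∣ n) (m : ℕ) :
    a (p ^ m * n) = a (p ^ m) * a n := by
  induction m using Nat.twoStepInduction with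
  | zero => simp [h1]
  | one =>
    have h := hT p hp hpN n
    rw [if_neg hn, mul_zero, add_zero] at h
    simpa using h
  | more m ih0 ih1 =>
    have h := hT p hp hpN (p ^ (m + 1) * n)
    have hd : p ∣ p ^ (m + 1) * n := Dvd.dvd.mul_right (dvd_pow_self p (Nat.succ_ne_zero m)) n
    have hdiv : p ^ (m + 1) * n / p = p ^ m * n := by
      rw [pow_succ' p m, mul_assoc]; exact Nat.mul_div_cancel_left _ hp.pos
    rw [if_pos hd, hdiv, ← mul_assoc, ← pow_succ' p (m + 1), ih0, ih1] at h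
    rw [prime_pow_rec hT hp hpN m]
    linear_combination h

/-- Multiplicativity: `a (m n) = a m a n` for `m` prime to `N` and to `n`. -/
theorem mul_of_coprime (h1 : a 1 = 1) (hT : HeckeRelSeq N a e) (m : ℕ) :
    m.Coprime N → ∀ n : ℕ, m.Coprime n → a (m * n) = a m * a n := by
  induction m using Nat.recOnPosPrimePosCoprime with
  | prime_pow p k hp hk =>
    intro hN n hn
    have hpN : ¬ p ∣ N :=
      (Nat.Prime.coprime_iff_not_dvd hp).mp
        (Nat.Coprime.coprime_dvd_left (dvd_pow_self p hk.ne') hN)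
    have hpn : ¬ p ∣ n :=
      (Nat.Prime.coprime_iff_not_dvd hp).mp
        (Nat.Coprime.coprime_dvd_left (dvd_pow_self p hk.ne') hn)
    exact prime_pow_mul h1 hT hp hpN hpn k
  | zero =>
    intro hN n hn
    rw [Nat.coprime_zero_left] at hn
    subst hn
    simp [h1]
  | one =>
    intro _ n _
    simp [h1]
  | coprime m₁ m₂ _ _ h12 ih1 ih2 =>
    intro hN n hn
    have hN1 : m₁.Coprime N := Nat.Coprime.coprime_mul_right hN
    have hN2 : m₂.Coprime N := Nat.Coprime.coprime_mul_left hN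
    have hn1 : m₁.Coprime n := Nat.Coprime.coprime_mul_right hn
    have hn2 : m₂.Coprime n := Nat.Coprime.coprime_mul_left hn
    rw [mul_assoc, ih1 hN1 (m₂ * n) (Nat.Coprime.mul_right h12 hn1), ih2 hN2 n hn2,
      ih1 hN1 m₂ h12, mul_assoc]

end Hecke

/-! ### (d) the multiplicative function and the Euler product -/

section Euler

variable {N : ℕ} {a e : ℕ → ℂ}

/-- `g s n = ‖a n‖² n⁻ˢ` on `n` prime to `N`, zero elsewhere. -/
noncomputable def gg (N : ℕ) (a : ℕ → ℂ) (s : ℝ) (n : ℕ) : ℝ :=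
  if n.Coprime N then ‖a n‖ ^ 2 / (n : ℝ) ^ s else 0

theorem gg_nonneg (N : ℕ) (a : ℕ → ℂ) (s : ℝ) (n : ℕ) : 0 ≤ gg N a s n := by
  unfold gg
  split_ifs
  · positivity
  · exact le_rfl

theorem gg_le (N : ℕ) (a : ℕ → ℂ) (s : ℝ) (n : ℕ) : gg N a s n ≤ ‖a n‖ ^ 2 / (n : ℝ) ^ s := by
  unfold gg
  split_ifs
  · exact le_rfl
  · positivity

theorem gg_one (h1 : a 1 = 1) (s : ℝ) : gg N a s 1 = 1 := by
  unfold gg
  rw [if_pos (Nat.coprime_one_left N), h1]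
  simp

theorem gg_mul (h1 : a 1 = 1) (hT : HeckeRelSeq N a e) (s : ℝ) {m n : ℕ} (hmn : m.Coprime n) :
    gg N a s (m * n) = gg N a s m * gg N a s n := by
  unfold gg
  by_cases hm : m.Coprime N
  · by_cases hn : n.Coprime N
    · rw [if_pos hm, if_pos hn, if_pos (Nat.coprime_mul_iff_left.mpr ⟨hm, hn⟩),
        mul_of_coprime h1 hT m hm n hmn, norm_mul, Nat.cast_mul,
        Real.mul_rpow (Nat.cast_nonneg m) (Nat.cast_nonneg n)]
      rw [mul_pow, mul_div_mul_comm]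
    · rw [if_neg hn, mul_zero, if_neg]
      exact fun h => hn (Nat.coprime_mul_iff_left.mp h).2
  · rw [if_neg hm, zero_mul, if_neg]
    exact fun h => hm (Nat.coprime_mul_iff_left.mp h).1

theorem gg_prime_pow {p : ℕ} (hp : p.Prime) (hpN : ¬ p ∣ N) (s : ℝ) (m : ℕ) :
    gg N a s (p ^ m) = ‖a (p ^ m)‖ ^ 2 * (((p : ℝ) ^ s)⁻¹) ^ m := by
  unfold gg
  rw [if_pos (Nat.Coprime.pow_left m ((Nat.Prime.coprime_iff_not_dvd hp).mpr hpN)),
    Nat.cast_pow, ← Real.rpow_pow_comm (Nat.cast_nonneg p), inv_pow, div_eq_mul_inv]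

/-- **Rankin, positivity half** (finite sets of primes). -/
theorem sum_primes_le_log (N : ℕ) (a e : ℕ → ℂ)
    (he : ∀ p : ℕ, p.Prime → ¬ p ∣ N → ‖e p‖ = 1) (h1 : a 1 = 1)
    (hT : ∀ p : ℕ, p.Prime → ¬ p ∣ N → ∀ n : ℕ,
      a (p * n) + e p * (if p ∣ n then a (n / p) else 0) = a p * a n)
    (C : ℝ)
    (hC : ∀ s : ℝ, 1 < s → Summable (fun n : ℕ => ‖a n‖ ^ 2 / (n : ℝ) ^ s) ∧
      ∑' n : ℕ, ‖a n‖ ^ 2 / (n : ℝ) ^ s ≤ C * s / (s - 1)) :
    ∃ C' : ℝ, ∀ s : ℝ, 1 < s → s ≤ 2 → ∀ P : Finset ℕ, (∀ p ∈ P, p.Prime ∧ ¬ p ∣ N) →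
      ∑ p ∈ P, ‖a p‖ ^ 2 / (p : ℝ) ^ s ≤ Real.log (1 / (s - 1)) + C' := by
  have hT' : HeckeRelSeq N a e := hT
  -- the total mass is at least one, so `C > 0`
  have hmass : ∀ s : ℝ, 1 < s → Summable (gg N a s) ∧ 1 ≤ ∑' n : ℕ, gg N a s n ∧
      ∑' n : ℕ, gg N a s n ≤ C * s / (s - 1) := by
    intro s hs
    have hsum : Summable (gg N a s) :=
      Summable.of_nonneg_of_le (gg_nonneg N a s) (gg_le N a s) (hC s hs).1
    refine ⟨hsum, ?_, ?_⟩
    · have h := hsum.le_tsum 1 (fun j _ => gg_nonneg N a s j)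
      rwa [gg_one h1] at h
    · exact le_trans (hsum.tsum_le_tsum (gg_le N a s) (hC s hs).1) (hC s hs).2
  have hCpos : 0 < C := by
    obtain ⟨_, h2, h3⟩ := hmass 2 (by norm_num)
    have : (1 : ℝ) ≤ C * 2 / (2 - 1) := le_trans h2 h3
    norm_num at this
    linarith
  refine ⟨Real.log (2 * C) + 4 * (Real.pi ^ 2 / 6), ?_⟩
  intro s hs1 hs2 P hP
  obtain ⟨hsum, hone, hle⟩ := hmass s hs1
  -- Euler product over `P`
  have hnorm : Summable (fun n => ‖gg N a s n‖) := by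
    simpa only [Real.norm_of_nonneg (gg_nonneg N a s _)] using hsum
  have heuler := EulerProduct.prod_filter_prime_tsum_eq_tsum_factoredNumbers
    (f := gg N a s) (gg_one h1 s) (fun {m n} hmn => gg_mul h1 hT' s hmn) hnorm P
  rw [Finset.filter_true_of_mem (fun p hp => (hP p hp).1)] at heuler
  have hprod_le : ∏ p ∈ P, ∑' m : ℕ, gg N a s (p ^ m) ≤ C * s / (s - 1) := by
    rw [heuler]
    exact le_trans (hsum.tsum_subtype_le _ _ (gg_nonneg N a s)) hle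
  -- local bounds
  have hloc : ∀ p ∈ P, 1 ≤ ∑' m : ℕ, gg N a s (p ^ m) ∧
      ‖a p‖ ^ 2 / (p : ℝ) ^ s ≤ Real.log (∑' m : ℕ, gg N a s (p ^ m)) + 4 * (1 / (p : ℝ) ^ 2) := by
    intro p hp
    obtain ⟨hpp, hpN⟩ := hP p hp
    have hfun : (fun m : ℕ => gg N a s (p ^ m))
        = fun m : ℕ => ‖a (p ^ m)‖ ^ 2 * (((p : ℝ) ^ s)⁻¹) ^ m :=
      funext (gg_prime_pow hpp hpN s)
    have hsp : Summable (fun m : ℕ => ‖a (p ^ m)‖ ^ 2 * (((p : ℝ) ^ s)⁻¹) ^ m) := by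
      rw [← hfun]
      exact hsum.comp_injective (Nat.pow_right_injective hpp.two_le)
    have hp2 : (2 : ℝ) ≤ (p : ℝ) := by exact_mod_cast hpp.two_le
    have hp0 : (0 : ℝ) < (p : ℝ) := by linarith
    have hps : (p : ℝ) ≤ (p : ℝ) ^ s := by
      have := Real.rpow_le_rpow_of_exponent_le (by linarith : (1 : ℝ) ≤ (p : ℝ)) hs1.le
      rwa [Real.rpow_one] at this
    have hpspos : 0 < (p : ℝ) ^ s := Real.rpow_pos_of_pos hp0 s
    have hx0 : 0 < ((p : ℝ) ^ s)⁻¹ := inv_pos.mpr hpspos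
    have hxp : ((p : ℝ) ^ s)⁻¹ ≤ (p : ℝ)⁻¹ := inv_anti₀ hp0 hps
    have hx : ((p : ℝ) ^ s)⁻¹ ≤ 1 / 2 := by
      refine le_trans hxp ?_
      rw [one_div]
      exact inv_anti₀ (by norm_num) hp2
    have hu0 : (fun m : ℕ => a (p ^ m)) 0 = 1 := by simpa using h1
    have hu1 : (fun m : ℕ => a (p ^ m)) 1 = a p := by simp
    have hloc := local_bound (a := a p) (e := e p) (u := fun m => a (p ^ m))
      (he p hpp hpN) hu0 hu1 (fun m => prime_pow_rec hT' hpp hpN m) hx0 hx hsp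
    have hone' := one_le_series (u := fun m => a (p ^ m)) hu0 hx0.le hsp
    rw [hfun]
    refine ⟨hone', ?_⟩
    have hsq : (((p : ℝ) ^ s)⁻¹) ^ 2 ≤ 1 / (p : ℝ) ^ 2 := by
      rw [one_div, ← inv_pow]
      exact pow_le_pow_left₀ hx0.le hxp 2
    rw [div_eq_mul_inv]
    linarith
  -- sum the local bounds
  have hne : ∀ p ∈ P, (∑' m : ℕ, gg N a s (p ^ m)) ≠ 0 := fun p hp =>
    (lt_of_lt_of_le one_pos (hloc p hp).1).ne'
  have hprod_pos : 0 < ∏ p ∈ P, ∑' m : ℕ, gg N a s (p ^ m) :=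
    Finset.prod_pos fun p hp => lt_of_lt_of_le one_pos (hloc p hp).1
  have hz2 : ∑ p ∈ P, (1 : ℝ) / (p : ℝ) ^ 2 ≤ Real.pi ^ 2 / 6 :=
    sum_le_hasSum P (fun i _ => by positivity) hasSum_zeta_two
  have hs0 : 0 < s - 1 := by linarith
  have hlog : Real.log (∏ p ∈ P, ∑' m : ℕ, gg N a s (p ^ m))
      ≤ Real.log (2 * C) + Real.log (1 / (s - 1)) := by
    rw [← Real.log_mul (by positivity) (by positivity)]
    refine Real.log_le_log hprod_pos (le_trans hprod_le ?_)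
    rw [mul_one_div]
    exact div_le_div_of_nonneg_right (by nlinarith) hs0.le
  calc ∑ p ∈ P, ‖a p‖ ^ 2 / (p : ℝ) ^ s
      ≤ ∑ p ∈ P, (Real.log (∑' m : ℕ, gg N a s (p ^ m)) + 4 * (1 / (p : ℝ) ^ 2)) :=
        Finset.sum_le_sum fun p hp => (hloc p hp).2
    _ = Real.log (∏ p ∈ P, ∑' m : ℕ, gg N a s (p ^ m)) + 4 * ∑ p ∈ P, (1 : ℝ) / (p : ℝ) ^ 2 := by
        rw [Finset.sum_add_distrib, ← Real.log_prod hne, Finset.mul_sum]
    _ ≤ Real.log (1 / (s - 1)) + (Real.log (2 * C) + 4 * (Real.pi ^ 2 / 6)) := by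
        linarith

/-- **Rankin, positivity half**, `tsum` form over all primes (terms at `p ∣ N` set to zero). -/
theorem tsum_primes_le_log (N : ℕ) (a e : ℕ → ℂ)
    (he : ∀ p : ℕ, p.Prime → ¬ p ∣ N → ‖e p‖ = 1) (h1 : a 1 = 1)
    (hT : ∀ p : ℕ, p.Prime → ¬ p ∣ N → ∀ n : ℕ,
      a (p * n) + e p * (if p ∣ n then a (n / p) else 0) = a p * a n)
    (C : ℝ)
    (hC : ∀ s : ℝ, 1 < s → Summable (fun n : ℕ => ‖a n‖ ^ 2 / (n : ℝ) ^ s) ∧
      ∑' n : ℕ, ‖a n‖ ^ 2 / (n : ℝ) ^ s ≤ C * s / (s - 1)) :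
    ∃ C' : ℝ, ∀ s : ℝ, 1 < s → s ≤ 2 →
      Summable (fun p : Nat.Primes => if (p : ℕ) ∣ N then 0 else ‖a p‖ ^ 2 / ((p : ℕ) : ℝ) ^ s) ∧
      ∑' p : Nat.Primes, (if (p : ℕ) ∣ N then 0 else ‖a p‖ ^ 2 / ((p : ℕ) : ℝ) ^ s)
        ≤ Real.log (1 / (s - 1)) + C' := by
  obtain ⟨C', hC'⟩ := sum_primes_le_log N a e he h1 hT C hC
  refine ⟨C', fun s hs1 hs2 => ?_⟩
  have hnn : ∀ p : Nat.Primes,
      0 ≤ (if (p : ℕ) ∣ N then 0 else ‖a p‖ ^ 2 / ((p : ℕ) : ℝ) ^ s) := by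
    intro p
    split_ifs
    · exact le_rfl
    · positivity
  have hfin : ∀ Q : Finset Nat.Primes,
      ∑ p ∈ Q, (if (p : ℕ) ∣ N then 0 else ‖a p‖ ^ 2 / ((p : ℕ) : ℝ) ^ s)
        ≤ Real.log (1 / (s - 1)) + C' := by
    intro Q
    classical
    have h := hC' s hs1 hs2 ((Q.filter fun p : Nat.Primes => ¬ (p : ℕ) ∣ N).image
      (fun p : Nat.Primes => (p : ℕ))) (by
        intro p hp
        obtain ⟨q, hq, rfl⟩ := Finset.mem_image.mp hp
        exact ⟨q.2, (Finset.mem_filter.mp hq).2⟩)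
    rw [Finset.sum_image (f := fun n : ℕ => ‖a n‖ ^ 2 / (n : ℝ) ^ s)
      (g := fun p : Nat.Primes => (p : ℕ)) (fun x _ y _ hxy => Subtype.ext hxy),
      Finset.sum_filter] at h
    refine le_trans (le_of_eq ?_) h
    refine Finset.sum_congr rfl fun p _ => ?_
    by_cases hp : (p : ℕ) ∣ N
    · rw [if_pos hp, if_neg (not_not.mpr hp)]
    · rw [if_neg hp, if_pos hp]
  have hsummable := summable_of_sum_le hnn hfin
  exact ⟨hsummable, hsummable.tsum_le_of_sum_le hfin⟩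

end Euler

end Fermat.Agent.S48.A.RankinPos
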