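/-
Project D (S48, Deligne–Serre), part A, brick A2b, the S48 SPELLING of the positivity half of
Rankin's estimate: for `f : CuspForm (Gamma1 N) 1` with `a_1 = 1` obeying the Hecke relations of
the seam (`Seam.HeckeRel`), the mean-square bound of brick A2a (taken as a hypothesis) gives
`∑_{p ∈ P} ‖a_p‖² p⁻ˢ ≤ log (1 / (s - 1)) + C'` on `1 < s ≤ 2`, uniformly in the finite set `P`
of primes not dividing `N`.
-/
import Mathlib
import Fermat.Agent.S48.Seam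
import Fermat.Agent.S48.A.RankinPos

namespace Fermat.Agent.S48.A.RankinPosForm

open CongruenceSubgroup

theorem norm_eps_eq_one {N : ℕ} [NeZero N] (ε : DirichletCharacter ℂ N) {p : ℕ} (hp : p.Prime)
    (hpN : ¬ p ∣ N) : ‖ε (p : ZMod N)‖ = 1 := by
  have hu : IsUnit ((p : ℕ) : ZMod N) :=
    (ZMod.isUnit_iff_coprime p N).mpr ((Nat.Prime.coprime_iff_not_dvd hp).mpr hpN)
  obtain ⟨u, hu'⟩ := hu
  rw [← hu']
  exact DirichletCharacter.unit_norm_eq_one ε u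

/-- **Rankin, positivity half**, for a weight-one form as in S48 (finite sets of primes). -/
theorem sum_primes_le_log (N : ℕ) [NeZero N] (ε : DirichletCharacter ℂ N)
    (f : CuspForm (Gamma1 N) 1) (hf₁ : ModularFormClass.qCoeff f 1 = 1)
    (hT : Seam.HeckeRel N ε f) (C : ℝ)
    (hC : ∀ s : ℝ, 1 < s →
      Summable (fun n : ℕ => ‖ModularFormClass.qCoeff f n‖ ^ 2 / (n : ℝ) ^ s) ∧
      ∑' n : ℕ, ‖ModularFormClass.qCoeff f n‖ ^ 2 / (n : ℝ) ^ s ≤ C * s / (s - 1)) :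
    ∃ C' : ℝ, ∀ s : ℝ, 1 < s → s ≤ 2 → ∀ P : Finset ℕ, (∀ p ∈ P, p.Prime ∧ ¬ p ∣ N) →
      ∑ p ∈ P, ‖ModularFormClass.qCoeff f p‖ ^ 2 / (p : ℝ) ^ s ≤ Real.log (1 / (s - 1)) + C' :=
  RankinPos.sum_primes_le_log N (fun n => ModularFormClass.qCoeff f n)
    (fun p => ε (p : ZMod N)) (fun _ hp hpN => norm_eps_eq_one ε hp hpN) hf₁ hT C hC

/-- **Rankin, positivity half**, for a weight-one form as in S48 (`tsum` over all primes). -/
theorem tsum_primes_le_log (N : ℕ) [NeZero N] (ε : DirichletCharacter ℂ N)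
    (f : CuspForm (Gamma1 N) 1) (hf₁ : ModularFormClass.qCoeff f 1 = 1)
    (hT : Seam.HeckeRel N ε f) (C : ℝ)
    (hC : ∀ s : ℝ, 1 < s →
      Summable (fun n : ℕ => ‖ModularFormClass.qCoeff f n‖ ^ 2 / (n : ℝ) ^ s) ∧
      ∑' n : ℕ, ‖ModularFormClass.qCoeff f n‖ ^ 2 / (n : ℝ) ^ s ≤ C * s / (s - 1)) :
    ∃ C' : ℝ, ∀ s : ℝ, 1 < s → s ≤ 2 →
      Summable (fun p : Nat.Primes =>
        if (p : ℕ) ∣ N then 0 else ‖ModularFormClass.qCoeff f p‖ ^ 2 / ((p : ℕ) : ℝ) ^ s) ∧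
      ∑' p : Nat.Primes,
        (if (p : ℕ) ∣ N then 0 else ‖ModularFormClass.qCoeff f p‖ ^ 2 / ((p : ℕ) : ℝ) ^ s)
        ≤ Real.log (1 / (s - 1)) + C' :=
  RankinPos.tsum_primes_le_log N (fun n => ModularFormClass.qCoeff f n)
    (fun p => ε (p : ZMod N)) (fun _ hp hpN => norm_eps_eq_one ε hp hpN) hf₁ hT C hC

end Fermat.Agent.S48.A.RankinPosForm
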