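/-
PROJECT D (S48, Deligne–Serre), THE TOP OF PART A (helper6, chief of part A).

  `deligneSerre_of_seams :
     Seam.ResidualReps → Cheb.Seams.NFChebLower → ConjSeam → FieldSeam → Seam.DeligneSerre`
  `deligneSerre_of_primeCharSumBounded :
     Seam.ResidualReps → Cheb.Seams.PrimeCharSumBounded → ConjSeam → FieldSeam → Seam.DeligneSerre`

Everything of part A that is a theorem today is wired in; the hypotheses are exactly the seams that
are still open:
* `Seam.ResidualReps`        = `(B*)` (part B);
* `Cheb.Seams.NFChebLower`   = Chebotarev, number field form (A6; the bricks C5a–C11 are theorems,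
  what is open is `Seams.LContinuous → … → Seams.NFChebLower`, see `Cheb/Main.lean`);
* `ConjSeam`, `FieldSeam`    = A3 in the shape of route E (`Conj/Final.lean`, helper22):
  conjugates at the SAME level for forms satisfying the Hecke relations, and the number field of
  the `a_p` with integrality.

Wiring: `RankinOne` is a theorem (`MeanSquare` + `RankinPosForm`); `ThinSet` follows from
`ConjSeam`, `FieldSeam` and `RankinOne` (helper19's `Thin/Core`, `Thin/Extend`, `heckeRel_conj`;
the only change with respect to `Thin.Main.thinSet_of` is that conjugates are asked only of the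
forms that satisfy the Hecke relations); `ChebLower` follows from `NFChebLower` by `Cheb/Dict`;
the assembly is helper29's `Assemble.deligneSerre_of`.
-/
import Mathlib
import Fermat.Agent.S48.Seam
import Fermat.Agent.S48.A.Defs
import Fermat.Agent.S48.A.MeanSquare
import Fermat.Agent.S48.A.RankinPosForm
import Fermat.Agent.S48.A.Thin.Main
import Fermat.Agent.S48.A.Assemble
import Fermat.Agent.S48.A.Cheb.Seams
import Fermat.Agent.S48.A.Cheb.Dict
import Fermat.Agent.S48.A.Cheb.NRD
import Fermat.Agent.S48.A.Cheb.CycloFrob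
import Fermat.Agent.S48.A.Cheb.Deuring
import Fermat.Agent.S48.A.Cheb.Cross
import Fermat.Agent.S48.A.Cheb.NFCheb
import Fermat.Agent.S48.A.Cheb.Main
import Fermat.Agent.S48.A.Cheb.Final
import Fermat.Agent.S48.A.Conj.Final

set_option autoImplicit false

noncomputable section

namespace Fermat.Agent.S48.A.Main

open CongruenceSubgroup
open scoped BigOperators

/-- **(A3-conj)**, route E: every ring endomorphism of `ℂ` acts, through the `q`-expansion, on the
weight one cusp forms on `Γ₁(N)` that satisfy the Hecke relations of S48 (same level). -/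
def ConjSeam : Prop :=
  ∀ (N : ℕ) [NeZero N] (ε : DirichletCharacter ℂ N) (f : CuspForm (Gamma1 N) 1),
    ModularFormClass.qCoeff f 1 = 1 → Seam.HeckeRel N ε f → ∀ σ : ℂ →+* ℂ,
    ∃ f' : CuspForm (Gamma1 N) 1,
      ∀ n, ModularFormClass.qCoeff f' n = σ (ModularFormClass.qCoeff f n)

/-- **(A3-field)**: the `a_p`, `p ∤ N`, are algebraic integers of one subfield of `ℂ` of finite
degree. -/
def FieldSeam : Prop :=
  ∀ (N : ℕ) [NeZero N] (ε : DirichletCharacter ℂ N) (f : CuspForm (Gamma1 N) 1),
    ModularFormClass.qCoeff f 1 = 1 → Seam.HeckeRel N ε f →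
    ∃ K : IntermediateField ℚ ℂ, FiniteDimensional ℚ K ∧
      ∀ p : ℕ, p.Prime → ¬ p ∣ N →
        ∃ x : K, (x : ℂ) = ModularFormClass.qCoeff f p ∧ IsIntegral ℤ x

/-- `FieldSeam` from the literal of `Conj/Package.exists_field` / `Conj/Final.exists_field`
(all `n` prime to `N`, and the values of `ε`). -/
theorem fieldSeam_of_exists_field
    (h : ∀ (N : ℕ) [NeZero N] (ε : DirichletCharacter ℂ N) (f : CuspForm (Gamma1 N) 1),
      ModularFormClass.qCoeff f 1 = 1 → Seam.HeckeRel N ε f →
      ∃ K : IntermediateField ℚ ℂ, FiniteDimensional ℚ K ∧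
        (∀ n : ℕ, 0 < n → n.Coprime N →
          ∃ x : K, (x : ℂ) = ModularFormClass.qCoeff f n ∧ IsIntegral ℤ x) ∧
        ∀ p : ℕ, ∃ x : K, (x : ℂ) = ε (p : ZMod N) ∧ IsIntegral ℤ x) : FieldSeam := by
  intro N _ ε f h1 hT
  obtain ⟨K, hK, hn, -⟩ := h N ε f h1 hT
  exact ⟨K, hK, fun p hp hpN => hn p hp.pos ((Nat.Prime.coprime_iff_not_dvd hp).mpr hpN)⟩

/-- **A2, exact-sum form, is a theorem**: helper15's mean square bound and helper18's positivity
half. -/
theorem rankinOne : Thin.Main.RankinOne := by
  intro N _ ε f h1 hT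
  obtain ⟨C, hC⟩ := MeanSquare.exists_tsum_normSq_qCoeff_le N f
  exact RankinPosForm.sum_primes_le_log N ε f h1 hT C hC

/-- **Deligne–Serre Prop. 5.5 from the two A3 seams.** -/
theorem thinSet (hConj : ConjSeam) (hField : FieldSeam) : Thin.Main.ThinSet := by
  intro N _ ε f h1 hT η hη
  obtain ⟨K, hfd, hK⟩ := hField N ε f h1 hT
  have := hfd
  refine Thin.Core.thin_of_conj N (fun n => ModularFormClass.qCoeff f n) K hK ?_ hη
  intro τ
  obtain ⟨σ, hσ⟩ := Thin.Extend.exists_ringEquiv_extending K τ
  obtain ⟨f', hf'⟩ := hConj N ε f h1 hT (σ : ℂ →+* ℂ)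
  have hf'' : ∀ n, ModularFormClass.qCoeff f' n = σ (ModularFormClass.qCoeff f n) := hf'
  have h1' : ModularFormClass.qCoeff f' 1 = 1 := by rw [hf'', h1, map_one]
  have hT' := Thin.Main.heckeRel_conj ε f f' σ hf'' hT
  obtain ⟨C, hC⟩ := rankinOne N (ε.ringHomComp (σ : ℂ →+* ℂ)) f' h1' hT'
  refine ⟨C, fun s hs1 hs2 P hP x hx => ?_⟩
  have h := hC s hs1 hs2 P hP
  have hsum : ∑ p ∈ P, ‖τ (x p)‖ ^ 2 / (p : ℝ) ^ s =
      ∑ p ∈ P, ‖ModularFormClass.qCoeff f' p‖ ^ 2 / (p : ℝ) ^ s := by
    refine Finset.sum_congr rfl fun p hp => ?_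
    rw [← hσ, hx p hp, ← hf'']
  rw [hsum]
  exact h

/-- **PART A**: S48 from `(B*)`, Chebotarev in the number field form, and the two A3 seams. -/
theorem deligneSerre_of_seams (hB : Seam.ResidualReps) (hNF : Cheb.Seams.NFChebLower)
    (hConj : ConjSeam) (hField : FieldSeam) : Seam.DeligneSerre :=
  Assemble.deligneSerre_of hB (thinSet hConj hField)
    (Cheb.Dict.defsChebLower_of_nfChebLower hNF)

/-- **The algebraic half of A6 is closed**: C6 (NRD), C7 (CycloFrob), C8 (Deuring), C9 (Cross),
C10 (NFCheb) compose; Chebotarev in the number field form follows from the boundedness of the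
prime character sums `(S-PD)`. -/
theorem nfChebLower_of_primeCharSumBounded (hPD : Cheb.Seams.PrimeCharSumBounded) :
    Cheb.Seams.NFChebLower :=
  Cheb.NFCheb.nfChebLower_of_crossLower
    (Cheb.Cross.crossLower (Cheb.CycloFrob.cycloFrobDensity (Cheb.NRD.normResidueDensity hPD))
      Cheb.Deuring.deuringLower)

/-- **PART A, state of the art**: S48 from `(B*)`, `(S-PD)` (what is open of A6: C1–C5b) and the
two A3 seams. -/
theorem deligneSerre_of_primeCharSumBounded (hB : Seam.ResidualReps)
    (hPD : Cheb.Seams.PrimeCharSumBounded) (hConj : ConjSeam) (hField : FieldSeam) :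
    Seam.DeligneSerre :=
  deligneSerre_of_seams hB (nfChebLower_of_primeCharSumBounded hPD) hConj hField

/-- **A3 (conjugates) is a theorem**: helper22's route E (`Conj/Final.exists_conj`: helper23's
nebentypus theorem + main's S23 integral structure on `Γ₀(N)` in every weight). -/
theorem conjSeam : ConjSeam :=
  fun N _ ε f _ hT σ => Conj.Final.exists_conj N ε f hT σ

/-- **A3 (number field) is a theorem**: `Conj/Final.exists_field`. -/
theorem fieldSeam : FieldSeam :=
  fieldSeam_of_exists_field fun N _ ε f h1 hT => Conj.Final.exists_field N ε f h1 hT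

/-- **Deligne–Serre Prop. 5.5 is a theorem.** -/
theorem thinSet_thm : Thin.Main.ThinSet :=
  thinSet conjSeam fieldSeam

/-- **PART A, state of the art**: S48 from `(B*)` and the ONE analytic seam left of A6, the
continuity at `s = 1` of the twisted partial zeta functions (`Cheb.Seams.LContinuous`, the
`TwistL/` tree). -/
theorem deligneSerre_of_lContinuous (hB : Seam.ResidualReps) (hLC : Cheb.Seams.LContinuous) :
    Seam.DeligneSerre :=
  Assemble.deligneSerre_of hB thinSet_thm (Cheb.Main.defsChebLower_of_lContinuous hLC)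

/-- **PART A IS CLOSED**: S48 (Deligne–Serre) from `(B*)` ALONE.  Chebotarev is a theorem
(`Cheb/Final.chebLower`, helper4: the bricks C5–C11 applied to helper24's
`TwistL/LCont.lContinuous`), Deligne–Serre Prop. 5.5 is a theorem (`thinSet_thm`), the assembly is
helper29's `Assemble.deligneSerre_of`. -/
theorem deligneSerre_of_residualReps (hB : Seam.ResidualReps) : Seam.DeligneSerre :=
  Assemble.deligneSerre_of hB thinSet_thm Cheb.Final.chebLower

end Fermat.Agent.S48.A.Main

end
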